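import Fermat.Agent.Eisenstein.Sigma
import Mathlib.NumberTheory.ArithmeticFunction.Misc
import Mathlib.NumberTheory.Divisors

/-!
Values of `σ'` and `σ₃` at small arguments.
-/

set_option autoImplicit false

namespace FLTA.Eisenstein

theorem sigmaPrime_mul_prime {p : ℕ} (hp : p.Prime) (n : ℕ) :
    sigmaPrime p (n * p) = sigmaPrime p n := by
  rcases eq_or_ne n 0 with rfl | hn
  · simp
  rw [sigmaPrime, sigmaPrime]
  refine Finset.sum_congr ?_ fun _ _ => rfl
  ext d
  simp only [Finset.mem_filter, Nat.mem_divisors]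
  constructor
  · rintro ⟨⟨hd, -⟩, hpd⟩
    exact ⟨⟨(Nat.Coprime.dvd_of_dvd_mul_right ((hp.coprime_iff_not_dvd.mpr hpd).symm) hd), hn⟩, hpd⟩
  · rintro ⟨⟨hd, -⟩, hpd⟩
    exact ⟨⟨dvd_mul_of_dvd_left hd _, mul_ne_zero hn hp.ne_zero⟩, hpd⟩

theorem sigmaPrime_self {p : ℕ} (hp : p.Prime) : sigmaPrime p p = 1 := by
  have h := sigmaPrime_mul_prime hp 1
  rw [one_mul, sigmaPrime_one hp.ne_one] at h
  exact h

theorem sigmaPrime_prime {p q : ℕ} (hq : q.Prime) (hp : p.Prime) (hne : p ≠ q) :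
    sigmaPrime p q = q + 1 := by
  rw [sigmaPrime, Finset.filter_true_of_mem]
  · rw [hq.sum_divisors]
  · intro d hd
    rcases (Nat.dvd_prime hq).mp (Nat.dvd_of_mem_divisors hd) with rfl | rfl
    · simpa using hp.ne_one
    · rw [Nat.prime_dvd_prime_iff_eq hp hq]; exact hne

theorem sigma_prime {q : ℕ} (hq : q.Prime) (k : ℕ) :
    ArithmeticFunction.sigma k q = q ^ k + 1 := by
  rw [ArithmeticFunction.sigma_apply, hq.divisors, Finset.sum_insert (by simp [hq.ne_one.symm]),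
    Finset.sum_singleton, one_pow, add_comm]

end FLTA.Eisenstein
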