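import Fermat.Agent.Eisenstein.UpperBasic
import Fermat.Agent.Eisenstein.Sigma2

/-!
`m * gcd (p - 1, 24) ∣ p ^ 2 - 1`, from the trace of `g` times the Eisenstein series.
-/

set_option autoImplicit false

noncomputable section

open UpperHalfPlane EisensteinSeries ModularForm
open scoped MatrixGroups ArithmeticFunction.sigma

namespace FLTA.Eisenstein

/-- A form of weight `< 12` is determined by its constant term. -/
theorem levelOne_coeff_eq {k : ℤ} (hk : k < 12) (F M : ModularForm 𝒮ℒ k)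
    (hM : (qExpansion 1 (M : ℍ → ℂ)).coeff 0 = 1) (n : ℕ) :
    (qExpansion 1 (F : ℍ → ℂ)).coeff n =
      (qExpansion 1 (F : ℍ → ℂ)).coeff 0 * (qExpansion 1 (M : ℍ → ℂ)).coeff n := by
  set c := (qExpansion 1 (F : ℍ → ℂ)).coeff 0 with hc
  have hq : qExpansion 1 ((F - c • M : ModularForm 𝒮ℒ k) : ℍ → ℂ) =
      qExpansion 1 (F : ℍ → ℂ) - c • qExpansion 1 (M : ℍ → ℂ) := by
    rw [FunLike.coe_sub, ModularForm.qExpansion_sub one_pos one_mem_strictPeriods_SL F (c • M),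
      FunLike.coe_smul, ModularForm.qExpansion_smul one_pos one_mem_strictPeriods_SL c M]
  have h := qExpansion_mem_coeffsIn_of_sturm ⊥ (F - c • M) (fun i hi => ?_)
  · have h' := h n
    rw [hq, map_sub, PowerSeries.coeff_smul, AddSubgroup.mem_bot, sub_eq_zero] at h'
    simpa using h'
  · obtain rfl : i = 0 := by omega
    rw [hq, map_sub, PowerSeries.coeff_smul, hM, ← hc, AddSubgroup.mem_bot]
    simp

theorem dvd_coeff_mul_sub {a b : ℤ} {A B : PowerSeries ℤ}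
    (hA : ∀ i, i ≠ 0 → a ∣ PowerSeries.coeff i A) (hB : ∀ i, b ∣ PowerSeries.coeff i B) (n : ℕ) :
    a * b ∣ PowerSeries.coeff n (A * B) - PowerSeries.coeff 0 A * PowerSeries.coeff n B := by
  rw [PowerSeries.coeff_mul, Finset.Nat.sum_antidiagonal_eq_sum_range_succ_mk,
    Finset.sum_range_succ']
  simp only [Nat.sub_zero]
  rw [add_sub_cancel_right]
  exact Finset.dvd_sum fun i _ => mul_dvd_mul (hA _ (Nat.succ_ne_zero i)) (hB _)

variable {p : ℕ} [hp : Fact p.Prime] [NeZero p] {m : ℕ}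

/-- The integer series `p * trace (g * eisTwo)`. -/
def CongrWitness.traceSeries (W : CongrWitness p m) : PowerSeries ℤ :=
  PowerSeries.C (p : ℤ) * (W.gZ * eisZ p) + uInt p (uInt p W.gZ * eisZ p)

theorem CongrWitness.trace_coeff (W : CongrWitness p m) {n : ℕ} (hn : n ≠ 0) :
    PowerSeries.coeff n W.traceSeries =
      PowerSeries.coeff 0 W.traceSeries * (240 * (σ 3 n : ℤ)) := by
  have hp0 : (p : ℂ) ≠ 0 := by exact_mod_cast NeZero.ne p
  have hB : qB (W.g.mul (eisTwo p)) =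
      ((p : ℂ)⁻¹ * (p : ℂ)⁻¹) • toC (uInt p W.gZ * eisZ p) := by
    rw [qB_mul, W.qB_g, qB_eisTwo, qA_eisTwo_eq, smul_mul_smul_comm, map_mul]
    congr 1
    ring
  have hA : qA (W.g.mul (eisTwo p)) = toC (W.gZ * eisZ p) := by
    rw [qA_mul, W.qA_g, qA_eisTwo_eq, map_mul]
  have hq := qExpansion_trOne_int (W.g.mul (eisTwo p)) _ _ _ hA hB
  have hS : toC W.traceSeries =
      (p : ℂ) • qExpansion 1 (trOne (W.g.mul (eisTwo p)) : ℍ → ℂ) := by
    rw [hq, CongrWitness.traceSeries, map_add, map_mul, PowerSeries.map_C, smul_add, smul_smul,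
      show (p : ℂ) * ((p : ℂ) * ((p : ℂ)⁻¹ * (p : ℂ)⁻¹)) = 1 by field_simp, one_smul,
      PowerSeries.smul_eq_C_mul]
    simp
  obtain ⟨M, hM, hM0⟩ : ∃ M : ModularForm 𝒮ℒ (2 + 2),
      (∀ i, (qExpansion 1 (M : ℍ → ℂ)).coeff i =
        if i = 0 then 1 else 240 * (σ 3 i : ℂ)) ∧ (qExpansion 1 (M : ℍ → ℂ)).coeff 0 = 1 := by
    refine ⟨ModularForm.mcast (by norm_num) E₄, fun i => ?_, ?_⟩
    · rw [ModularForm.qExpansion_mcast, E_qExpansion_coeff _ ⟨2, rfl⟩]
      split_ifs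
      · rfl
      · norm_num [show bernoulli 4 = -1 / 30 by decide +kernel]
    · rw [ModularForm.qExpansion_mcast, E_qExpansion_coeff_zero _ ⟨2, rfl⟩]
  have h := levelOne_coeff_eq (by norm_num) (trOne (W.g.mul (eisTwo p))) M hM0 n
  rw [hM, if_neg hn] at h
  have hn' := congrArg (PowerSeries.coeff n) hS
  have h0' := congrArg (PowerSeries.coeff 0) hS
  rw [coeff_toC, PowerSeries.coeff_smul, smul_eq_mul] at hn' h0'
  have : ((PowerSeries.coeff n W.traceSeries : ℤ) : ℂ) =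
      ((PowerSeries.coeff 0 W.traceSeries : ℤ) : ℂ) * (240 * (σ 3 n : ℂ)) := by
    rw [hn', h0', h]; ring
  exact_mod_cast this

theorem CongrWitness.dvd_bracket (W : CongrWitness p m) {n : ℕ} (hn : n ≠ 0) :
    ((m * Nat.gcd (p - 1) 24 : ℕ) : ℤ) ∣
      ((p : ℤ) + 1) * ((p : ℤ) - 1) *
        (10 * ((p : ℤ) - 1) * (σ 3 n : ℤ) - (sigmaPrime p n : ℤ)) := by
  have hp1 := hp.out.one_le
  set γ := Nat.gcd (p - 1) 24 with hγ
  have hγp : (γ : ℤ) ∣ (p : ℤ) - 1 := by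
    have := Int.natCast_dvd_natCast.mpr (Nat.gcd_dvd_left (p - 1) 24)
    rwa [Nat.cast_sub hp1, Nat.cast_one] at this
  have hγ24 : (γ : ℤ) ∣ 24 := by exact_mod_cast Nat.gcd_dvd_right (p - 1) 24
  have hg : ∀ i, i ≠ 0 → (24 * (m : ℤ)) ∣ PowerSeries.coeff i W.gZ := fun i hi => by
    rw [CongrWitness.gZ, PowerSeries.coeff_mk, if_neg hi]
    exact dvd_mul_right _ _
  have hUg : ∀ i, i ≠ 0 → (24 * (m : ℤ)) ∣ PowerSeries.coeff i (uInt p W.gZ) := fun i hi => by
    rw [coeff_uInt]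
    exact hg _ (mul_ne_zero hi hp.out.ne_zero)
  have he : ∀ i, (γ : ℤ) ∣ PowerSeries.coeff i (eisZ p) := fun i => by
    rw [eisZ, PowerSeries.coeff_mk]
    split_ifs
    · exact hγp
    · exact dvd_mul_of_dvd_left hγ24 _
  have hnp : n * p ≠ 0 := mul_ne_zero hn hp.out.ne_zero
  have h1 := dvd_coeff_mul_sub hg he n
  have h2 := dvd_coeff_mul_sub hUg he (n * p)
  have h0 : PowerSeries.coeff 0 W.traceSeries = ((p : ℤ) + 1) * ((p : ℤ) - 1) ^ 2 := by
    have e : ∀ A B : PowerSeries ℤ, PowerSeries.coeff 0 (A * B) =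
        PowerSeries.coeff 0 A * PowerSeries.coeff 0 B := fun A B => by simp
    rw [CongrWitness.traceSeries, map_add, PowerSeries.coeff_C_mul, coeff_uInt, zero_mul, e, e,
      coeff_uInt, zero_mul, W.coeff_zero_gZ, eisZ, PowerSeries.coeff_mk, if_pos rfl]
    ring
  have ht := W.trace_coeff hn
  rw [h0, CongrWitness.traceSeries, map_add, PowerSeries.coeff_C_mul, coeff_uInt] at ht
  rw [eisZ] at h1 h2
  rw [coeff_uInt, zero_mul, W.coeff_zero_gZ, PowerSeries.coeff_mk, if_neg hnp,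
    sigmaPrime_mul_prime hp.out] at h2
  rw [W.coeff_zero_gZ, PowerSeries.coeff_mk, if_neg hn] at h1
  have h := (h1.mul_left (p : ℤ)).add h2
  rw [eisZ] at ht
  rw [show ((m * γ : ℕ) : ℤ) = (m : ℤ) * γ by push_cast; ring,
    ← mul_dvd_mul_iff_left (by norm_num : (24 : ℤ) ≠ 0)]
  rw [mul_assoc (24 : ℤ) (m : ℤ) (γ : ℤ)] at h
  convert h using 1
  linear_combination -ht

/-- The key divisibility. -/
theorem CongrWitness.dvd_sq_sub_one (W : CongrWitness p m) (hp5 : 5 ≤ p) :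
    m * Nat.gcd (p - 1) 24 ∣ (p - 1) * (p + 1) := by
  have hp1 := hp.out.one_le
  set D := m * Nat.gcd (p - 1) 24 with hD
  set P : ℤ := ((p : ℤ) + 1) * ((p : ℤ) - 1) with hP
  have b1 := W.dvd_bracket (n := 1) one_ne_zero
  have b2 := W.dvd_bracket (n := 2) two_ne_zero
  have b3 := W.dvd_bracket (n := 3) three_ne_zero
  have bp := W.dvd_bracket (n := p) hp.out.ne_zero
  rw [sigmaPrime_one hp.out.ne_one] at b1
  rw [sigmaPrime_prime Nat.prime_two hp.out (by omega), sigma_prime Nat.prime_two] at b2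
  rw [sigmaPrime_prime Nat.prime_three hp.out (by omega), sigma_prime Nat.prime_three] at b3
  rw [sigmaPrime_self hp.out, sigma_prime hp.out] at bp
  simp only [ArithmeticFunction.sigma_apply, Nat.divisors_one, Finset.sum_singleton, one_pow]
    at b1
  rw [← hP] at b1 b2 b3 bp
  push_cast at b1 b2 b3 bp
  have hDc : ((m : ℤ) * (Nat.gcd (p - 1) 24 : ℤ)) = (D : ℤ) := by rw [hD]; push_cast; ring
  rw [hDc] at b1 b2 b3 bp
  set b : ℤ := 10 * ((p : ℤ) - 1) - 1 with hb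
  have c1 : (D : ℤ) ∣ P * b := by convert b1 using 1; rw [hb]; ring
  have c6 : (D : ℤ) ∣ P * 6 := by
    rw [show P * 6 = P * (10 * ((p : ℤ) - 1) * 9 - 3) - 9 * (P * b) by rw [hb]; ring]
    exact dvd_sub b2 (c1.mul_left 9)
  have cp : (D : ℤ) ∣ P * (10 * ((p : ℤ) - 1) * (p : ℤ) ^ 3) := by
    rw [show P * (10 * ((p : ℤ) - 1) * (p : ℤ) ^ 3) =
      P * (10 * ((p : ℤ) - 1) * ((p : ℤ) ^ 3 + 1) - 1) - P * b by rw [hb]; ring]
    exact dvd_sub bp c1
  have key : (D : ℤ) ∣ P := by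
    by_cases h3 : p % 3 = 1
    · obtain ⟨j, hj⟩ : (3 : ℤ) ∣ (p : ℤ) - 1 := by omega
      -- `b = 30 j - 1`
      have e : P = P * 6 * (5 * j) - P * b := by rw [hb, hj]; ring
      rw [e]
      exact (c6.mul_right _).sub c1
    · have h2 : p % 3 = 2 := by
        have h0 : p % 3 ≠ 0 := fun h => by
          have := (Nat.prime_dvd_prime_iff_eq Nat.prime_three hp.out).mp
            (Nat.dvd_of_mod_eq_zero h)
          omega
        omega
      obtain ⟨i, hi⟩ : ∃ i : ℤ, 10 * ((p : ℤ) - 1) * (p : ℤ) ^ 3 = 6 * i + 2 := by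
        obtain ⟨j, hj⟩ : ∃ j : ℤ, (p : ℤ) = 6 * j + 5 := by
          have h2' : p % 2 = 1 := (hp.out.eq_two_or_odd).resolve_left (by omega)
          exact ⟨((p / 6 : ℕ) : ℤ), by omega⟩
        rw [hj]
        exact ⟨10 * (6 * j + 4) * (36 * j ^ 3 + 90 * j ^ 2 + 75 * j + 20) + 50 * j +
          33 + 0, by ring⟩
      obtain ⟨i', hi'⟩ : ∃ i' : ℤ, b = 2 * i' + 1 := ⟨5 * ((p : ℤ) - 1) - 1, by rw [hb]; ring⟩
      have e2 : P * 2 = P * (10 * ((p : ℤ) - 1) * (p : ℤ) ^ 3) - P * 6 * i := by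
        rw [hi]; ring
      have c2 : (D : ℤ) ∣ P * 2 := e2 ▸ cp.sub (c6.mul_right i)
      have e : P = P * b - P * 2 * i' := by rw [hi']; ring
      rw [e]
      exact c1.sub (c2.mul_right i')
  have : ((p - 1) * (p + 1) : ℕ) = P := by
    rw [hP]; push_cast [Nat.cast_sub hp1]; ring
  rw [← Int.natCast_dvd_natCast]
  rwa [this]

end FLTA.Eisenstein
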