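import Mathlib.NumberTheory.ModularForms.QExpansion
import Mathlib.NumberTheory.ModularForms.CongruenceSubgroups
import Mathlib.RingTheory.PowerSeries.Expand
import Fermat.Prelude.Def_ModularForm_HeckeOperator
import Fermat.Prelude.Thm_CongruenceSubgroup_one_mem_strictPeriods_Gamma0
import Fermat.Prelude.Thm_UpperHalfPlane_qExpansion_coeff_nat_mul

/-!
# The two expansions of a form on `Γ₀(p)`

`qA f` is the expansion of `f` at `∞` and `qB f` the expansion of `atZero f = (f ∣ S)(p z)`,
both in `exp (2 π i z)`.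
-/

set_option autoImplicit false

noncomputable section

open UpperHalfPlane Function Filter Matrix.SpecialLinearGroup CongruenceSubgroup
open scoped MatrixGroups ModularForm Manifold Topology

namespace FLTA.Eisenstein

/-- Modular forms on `Γ₀(N)`. -/
abbrev MF (N : ℕ) (k : ℤ) : Type := ModularForm (Gamma0 N) k

/-- The matrix `diag(p, 1)`. -/
abbrev scaleGL (p : ℕ) : GL (Fin 2) ℝ := ModularForm.heckeDiagMatrix p

variable {p : ℕ} {k k₁ k₂ : ℤ}

theorem mapGL_mem {N : ℕ} {g : SL(2, ℤ)} (hg : g ∈ Gamma0 N) :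
    (mapGL ℝ g : GL (Fin 2) ℝ) ∈ (Gamma0 N : Subgroup (GL (Fin 2) ℝ)) :=
  ⟨g, hg, rfl⟩

theorem slash_of_mem {N : ℕ} (f : MF N k) {g : SL(2, ℤ)} (hg : g ∈ Gamma0 N) :
    (⇑f) ∣[k] g = ⇑f :=
  SlashInvariantFormClass.slash_action_eq f _ (mapGL_mem hg)

/-- `S T ^ p S⁻¹`. -/
def lowerShift (p : ℕ) : SL(2, ℤ) :=
  ⟨!![1, 0; -(p : ℤ), 1], by simp [Matrix.det_fin_two]⟩

theorem lowerShift_mem (p : ℕ) : lowerShift p ∈ Gamma0 p := by
  rw [Gamma0_mem]
  simp [lowerShift]

theorem S_mul_T_zpow (p : ℕ) :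
    ModularGroup.S * ModularGroup.T ^ (p : ℤ) = lowerShift p * ModularGroup.S := by
  apply Subtype.ext
  rw [Matrix.SpecialLinearGroup.coe_mul, Matrix.SpecialLinearGroup.coe_mul, ModularGroup.coe_T_zpow,
    ModularGroup.coe_S, lowerShift]
  ext i j
  fin_cases i <;> fin_cases j <;> simp [Matrix.mul_apply, Fin.sum_univ_two]

/-- `f ∣ S`. -/
def slashS (f : MF p k) : ℍ → ℂ := (⇑f) ∣[k] ModularGroup.S

theorem mdifferentiable_slashS (f : MF p k) : MDiff (slashS f) :=
  f.holo'.slash k _

theorem periodic_slashS (f : MF p k) : Periodic (slashS f ∘ ofComplex) (p : ℝ) := by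
  intro w
  by_cases hw : 0 < w.im
  · have hw' : 0 < (w + ((p : ℝ) : ℂ)).im := by simpa using hw
    simp only [comp_apply, ofComplex_apply_of_im_pos hw', ofComplex_apply_of_im_pos hw]
    have key : slashS f ∣[k] (ModularGroup.T ^ (p : ℤ)) = slashS f := by
      rw [slashS, ← SlashAction.slash_mul, S_mul_T_zpow, SlashAction.slash_mul,
        slash_of_mem f (lowerShift_mem p)]
    have h := congrFun key ⟨w, hw⟩
    rw [ModularForm.SL_slash_apply, modular_T_zpow_smul, ModularGroup.denom_apply] at h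
    have e10 : (ModularGroup.T ^ (p : ℤ) : SL(2, ℤ)) 1 0 = 0 := by
      rw [ModularGroup.coe_T_zpow]; simp
    have e11 : (ModularGroup.T ^ (p : ℤ) : SL(2, ℤ)) 1 1 = 1 := by
      rw [ModularGroup.coe_T_zpow]; simp
    simp only [e10, e11, Int.cast_zero, zero_mul, Int.cast_one, zero_add, one_zpow, mul_one] at h
    refine Eq.trans ?_ h
    congr 1
    apply UpperHalfPlane.ext
    simp [add_comm]
  · have hw' : (w + ((p : ℝ) : ℂ)).im ≤ 0 := by simpa using hw
    simp only [comp_apply, ofComplex_apply_of_im_nonpos hw',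
      ofComplex_apply_of_im_nonpos (not_lt.mp hw)]

theorem bdd_slashS [NeZero p] (f : MF p k) : IsBoundedAtImInfty (slashS f) :=
  ModularFormClass.bdd_at_infty_slash f ModularGroup.S

/-- `(f ∣ S)(p z)`. -/
def atZero (f : MF p k) : ℍ → ℂ := fun z => slashS f (scaleGL p • z)

theorem coe_scaleGL_smul (hp : p ≠ 0) (z : ℍ) : ((scaleGL p • z : ℍ) : ℂ) = p * z :=
  ModularForm.coe_heckeDiagMatrix_smul hp z

theorem atZero_eq_slash [NeZero p] (f : MF p k) :
    atZero f = ((p : ℂ) ^ (k - 1))⁻¹ • (slashS f ∣[k] scaleGL p) := by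
  funext z
  have hp : (p : ℂ) ^ (k - 1) ≠ 0 := zpow_ne_zero _ (by exact_mod_cast NeZero.ne p)
  rw [Pi.smul_apply, smul_eq_mul, ModularForm.slash_heckeDiagMatrix_apply k (NeZero.ne p),
    inv_mul_cancel_left₀ hp, atZero]

theorem mdifferentiable_atZero [NeZero p] (f : MF p k) : MDiff (atZero f) := by
  rw [atZero_eq_slash]
  exact ((mdifferentiable_slashS f).slash k _).const_smul _

theorem periodic_comp_scale (hp : p ≠ 0) {F : ℍ → ℂ} (hF : Periodic (F ∘ ofComplex) (p : ℝ)) :
    Periodic ((fun z => F (scaleGL p • z)) ∘ ofComplex) 1 := by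
  intro w
  by_cases hw : 0 < w.im
  · have hw' : 0 < (w + 1).im := by simpa using hw
    simp only [comp_apply, ofComplex_apply_of_im_pos hw', ofComplex_apply_of_im_pos hw]
    rw [← ofComplex_apply (scaleGL p • (⟨w + 1, hw'⟩ : ℍ)),
      ← ofComplex_apply (scaleGL p • (⟨w, hw⟩ : ℍ)), coe_scaleGL_smul hp, coe_scaleGL_smul hp]
    simpa [mul_add] using hF ((p : ℂ) * w)
  · have hw' : (w + 1).im ≤ 0 := by simpa using hw
    simp only [comp_apply, ofComplex_apply_of_im_nonpos hw',
      ofComplex_apply_of_im_nonpos (not_lt.mp hw)]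

theorem periodic_atZero [NeZero p] (f : MF p k) : Periodic (atZero f ∘ ofComplex) 1 :=
  periodic_comp_scale (NeZero.ne p) (periodic_slashS f)

theorem tendsto_scale_atImInfty (hp : p ≠ 0) :
    Tendsto (fun z : ℍ => scaleGL p • z) atImInfty atImInfty := by
  rw [atImInfty, tendsto_comap_iff]
  have him : (UpperHalfPlane.im ∘ fun z : ℍ => scaleGL p • z) = fun z => (p : ℝ) * z.im := by
    funext z
    rw [comp_apply, ← UpperHalfPlane.coe_im, coe_scaleGL_smul hp]
    simp
  rw [him]
  exact tendsto_comap.const_mul_atTop (by positivity)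

theorem bdd_comp_scale (hp : p ≠ 0) {F : ℍ → ℂ} (hF : IsBoundedAtImInfty F) :
    IsBoundedAtImInfty fun z => F (scaleGL p • z) :=
  hF.comp_tendsto (tendsto_scale_atImInfty hp)

theorem bdd_atZero [NeZero p] (f : MF p k) : IsBoundedAtImInfty (atZero f) :=
  bdd_comp_scale (NeZero.ne p) (bdd_slashS f)

theorem analyticAt_atZero [NeZero p] (f : MF p k) :
    AnalyticAt ℂ (cuspFunction 1 (atZero f)) 0 :=
  analyticAt_cuspFunction_zero one_pos (by exact_mod_cast periodic_atZero f)
    (mdifferentiable_atZero f) (bdd_atZero f)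

theorem analyticAt_coe (f : MF p k) : AnalyticAt ℂ (cuspFunction 1 (f : ℍ → ℂ)) 0 :=
  ModularFormClass.analyticAt_cuspFunction_zero f one_pos (one_mem_strictPeriods_Gamma0 p)

/-- Expansion at `∞`. -/
def qA (f : MF p k) : PowerSeries ℂ := qExpansion 1 (f : ℍ → ℂ)

/-- Expansion at `0`. -/
def qB (f : MF p k) : PowerSeries ℂ := qExpansion 1 (atZero f)

theorem atZero_add (f g : MF p k) : atZero (f + g) = atZero f + atZero g := by
  funext z
  simp [atZero, slashS, FunLike.coe_add]

theorem atZero_smul (c : ℂ) (f : MF p k) : atZero (c • f) = c • atZero f := by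
  funext z
  simp [atZero, slashS, ModularForm.IsGLPos.coe_smul]

theorem atZero_mul (f : MF p k₁) (g : MF p k₂) : atZero (f.mul g) = atZero f * atZero g := by
  funext z
  simp only [atZero, slashS, ModularForm.coe_mul, Pi.mul_apply]
  rw [ModularForm.mul_slash_SL2]
  rfl

variable [NeZero p]

theorem qA_add (f g : MF p k) : qA (f + g) = qA f + qA g :=
  ModularForm.qExpansion_add one_pos (one_mem_strictPeriods_Gamma0 p) f g

theorem qB_add (f g : MF p k) : qB (f + g) = qB f + qB g := by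
  rw [qB, atZero_add]
  exact qExpansion_add (analyticAt_atZero f) (analyticAt_atZero g)

theorem qA_smul (c : ℂ) (f : MF p k) : qA (c • f) = c • qA f := by
  rw [qA, ModularForm.IsGLPos.coe_smul]
  exact qExpansion_smul (analyticAt_coe f) c

theorem qB_smul (c : ℂ) (f : MF p k) : qB (c • f) = c • qB f := by
  rw [qB, atZero_smul]
  exact qExpansion_smul (analyticAt_atZero f) c

theorem qA_sub (f g : MF p k) : qA (f - g) = qA f - qA g :=
  eq_sub_of_add_eq (by rw [← qA_add, sub_add_cancel])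

theorem qB_sub (f g : MF p k) : qB (f - g) = qB f - qB g :=
  eq_sub_of_add_eq (by rw [← qB_add, sub_add_cancel])

theorem qA_mul (f : MF p k₁) (g : MF p k₂) : qA (f.mul g) = qA f * qA g :=
  ModularForm.qExpansion_mul one_pos (one_mem_strictPeriods_Gamma0 p) f g

theorem qB_mul (f : MF p k₁) (g : MF p k₂) : qB (f.mul g) = qB f * qB g := by
  rw [qB, atZero_mul]
  exact qExpansion_mul (analyticAt_atZero f) (analyticAt_atZero g)

theorem qA_mcast (h : k₁ = k₂) (f : MF p k₁) : qA (f.mcast h) = qA f := by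
  subst h; rfl

theorem qB_mcast (h : k₁ = k₂) (f : MF p k₁) : qB (f.mcast h) = qB f := by
  subst h; rfl

/-- Coefficients of an expansion are determined by the sums. -/
theorem qExpansion_coeff_eq_of_hasSum {F : ℍ → ℂ} {c : ℕ → ℂ}
    (hper : Periodic (F ∘ ofComplex) 1) (hhol : MDiff F) (hbdd : IsBoundedAtImInfty F)
    (hc : ∀ τ : ℍ, HasSum (fun m ↦ c m • Periodic.qParam 1 (τ : ℂ) ^ m) (F τ)) (n : ℕ) :
    (qExpansion 1 F).coeff n = c n := by
  have han := analyticAt_cuspFunction_zero one_pos (by exact_mod_cast hper) hhol hbdd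
  have h1 := (hasFPowerSeriesOnBall_cuspFunction one_pos han hc).hasFPowerSeriesAt
  have h2 := (hasFPowerSeriesOnBall_cuspFunction one_pos han
    (fun τ => hasSum_qExpansion one_pos (by exact_mod_cast hper) hhol hbdd τ)).hasFPowerSeriesAt
  simpa using congr_arg (FormalMultilinearSeries.coeff · n) (h2.eq_formalMultilinearSeries h1)

/-- The coefficient formula for `F (p z)`. -/
theorem qExpansion_comp_scale {F : ℍ → ℂ} (hper : Periodic (F ∘ ofComplex) 1) (hhol : MDiff F)
    (hbdd : IsBoundedAtImInfty F) :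
    qExpansion 1 (fun z => F (scaleGL p • z)) =
      PowerSeries.expand p (NeZero.ne p) (qExpansion 1 F) := by
  have hp : p ≠ 0 := NeZero.ne p
  have hpr : (p : ℝ) ≠ 0 := by exact_mod_cast hp
  have hper' : Periodic (F ∘ ofComplex) (p : ℝ) := by simpa using hper.nat_mul p
  have hper'' : Periodic ((fun z => F (scaleGL p • z)) ∘ ofComplex) 1 :=
    periodic_comp_scale hp hper'
  ext n
  rw [qExpansion_coeff_eq_of_hasSum (c := fun m => (qExpansion (p : ℝ) F).coeff m) hper''
    ?_ (bdd_comp_scale hp hbdd) (fun τ => ?_) n]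
  · have h2 := UpperHalfPlane.qExpansion_coeff_nat_mul one_pos (by exact_mod_cast hper) hhol hbdd
      (Nat.pos_of_ne_zero hp) n
    rw [mul_one] at h2
    rw [h2, PowerSeries.coeff_expand]
  · have : (fun z => F (scaleGL p • z)) = ((p : ℂ) ^ ((0 : ℤ) - 1))⁻¹ • (F ∣[(0 : ℤ)] scaleGL p) := by
      funext z
      have hpc : (p : ℂ) ^ ((0 : ℤ) - 1) ≠ 0 := zpow_ne_zero _ (by exact_mod_cast hp)
      rw [Pi.smul_apply, smul_eq_mul, ModularForm.slash_heckeDiagMatrix_apply 0 hp,
        inv_mul_cancel_left₀ hpc]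
    rw [this]
    exact (hhol.slash 0 _).const_smul _
  · have h := UpperHalfPlane.hasSum_qExpansion (h := (p : ℝ)) (by positivity)
      (by exact_mod_cast hper') hhol hbdd (scaleGL p • τ)
    convert h using 3 with m
    · rw [coe_scaleGL_smul hp]
      simp only [Periodic.qParam, Complex.ofReal_one, Complex.ofReal_natCast]
      congr 2
      field_simp

end FLTA.Eisenstein
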