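import Mathlib.NumberTheory.ModularForms.NormTrace
import Fermat.Agent.Kummer.Fricke
import Fermat.Agent.Eisenstein.Expansions

/-!
Constructors for forms on `Γ₀(p)`: boundedness at the two cusps, Fricke, restriction from level one.
-/

set_option autoImplicit false

noncomputable section

open UpperHalfPlane Function Filter Matrix.SpecialLinearGroup CongruenceSubgroup
open scoped MatrixGroups ModularForm Manifold Topology

namespace FLTA.Eisenstein

variable {p : ℕ} {k : ℤ}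

theorem bdd_slash_T_zpow {F : ℍ → ℂ} (hF : IsBoundedAtImInfty F) (j : ℤ) :
    IsBoundedAtImInfty (F ∣[k] (ModularGroup.T ^ j)) := by
  have e10 : (ModularGroup.T ^ j : SL(2, ℤ)) 1 0 = 0 := by
    rw [ModularGroup.coe_T_zpow]; simp
  have e11 : (ModularGroup.T ^ j : SL(2, ℤ)) 1 1 = 1 := by
    rw [ModularGroup.coe_T_zpow]; simp
  have h : F ∣[k] (ModularGroup.T ^ j) = fun z => F ((j : ℝ) +ᵥ z) := by
    funext z
    rw [ModularForm.SL_slash_apply, modular_T_zpow_smul, ModularGroup.denom_apply, e10, e11]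
    simp
  rw [h]
  refine hF.comp_tendsto ?_
  rw [atImInfty, tendsto_comap_iff]
  have : (UpperHalfPlane.im ∘ fun z : ℍ => (j : ℝ) +ᵥ z) = UpperHalfPlane.im := by
    funext z; simp
  rw [this]
  exact tendsto_comap

/-- `SL(2, ℤ) = Γ₀(p) ∪ Γ₀(p) S T^j`. -/
theorem exists_coset_rep [hp : Fact p.Prime] (γ : SL(2, ℤ)) :
    γ ∈ Gamma0 p ∨ ∃ g ∈ Gamma0 p, ∃ j : ℤ, γ = g * ModularGroup.S * ModularGroup.T ^ j := by
  by_cases h : γ ∈ Gamma0 p
  · exact Or.inl h
  · right
    rw [Gamma0_mem] at h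
    obtain ⟨j, hj⟩ := ZMod.intCast_surjective (((γ 1 1 : ℤ) : ZMod p) / ((γ 1 0 : ℤ) : ZMod p))
    refine ⟨γ * (ModularGroup.T ^ j)⁻¹ * ModularGroup.S⁻¹, ?_, j, by group⟩
    rw [Gamma0_mem]
    have h10 : (γ * (ModularGroup.T ^ j)⁻¹ * ModularGroup.S⁻¹) 1 0 = -(γ 1 1 - γ 1 0 * j) := by
      rw [← zpow_neg, Matrix.SpecialLinearGroup.coe_mul, Matrix.SpecialLinearGroup.coe_mul,
        ModularGroup.coe_T_zpow, Matrix.SpecialLinearGroup.coe_inv, ModularGroup.coe_S]
      simp [Matrix.mul_apply, Fin.sum_univ_two, Matrix.adjugate_fin_two]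
      ring
    rw [h10]
    push_cast
    rw [hj, mul_div_cancel₀ _ h, sub_self, neg_zero]

variable [hp : Fact p.Prime]

/-- Boundedness at all cusps from the two standard ones. -/
theorem bdd_slash_of_bdd {F : ℍ → ℂ} (hinv : ∀ g ∈ Gamma0 p, F ∣[k] g = F)
    (hA : IsBoundedAtImInfty F) (hB : IsBoundedAtImInfty (F ∣[k] ModularGroup.S)) (γ : SL(2, ℤ)) :
    IsBoundedAtImInfty (F ∣[k] γ) := by
  rcases exists_coset_rep (p := p) γ with h | ⟨g, hg, j, rfl⟩
  · rwa [hinv γ h]
  · rw [SlashAction.slash_mul, SlashAction.slash_mul, hinv g hg]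
    exact bdd_slash_T_zpow hB j

/-- A form on `Γ₀(p)` from a function bounded at the two cusps. -/
def mkMF (F : ℍ → ℂ) (hinv : ∀ g ∈ Gamma0 p, F ∣[k] g = F) (hhol : MDiff F)
    (hA : IsBoundedAtImInfty F) (hB : IsBoundedAtImInfty (F ∣[k] ModularGroup.S)) : MF p k where
  toFun := F
  slash_action_eq' γ hγ := by
    obtain ⟨g, hg, rfl⟩ := hγ
    exact hinv g hg
  holo' := hhol
  bdd_at_cusps' {c} hc := by
    haveI : NeZero p := ⟨hp.out.ne_zero⟩
    rw [Subgroup.IsArithmetic.isCusp_iff_isCusp_SL2Z] at hc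
    rw [OnePoint.isBoundedAt_iff_forall_SL2Z hc]
    exact fun γ _ => bdd_slash_of_bdd hinv hA hB γ

@[simp] theorem coe_mkMF (F : ℍ → ℂ) (hinv : ∀ g ∈ Gamma0 p, F ∣[k] g = F) (hhol : MDiff F)
    (hA : IsBoundedAtImInfty F) (hB : IsBoundedAtImInfty (F ∣[k] ModularGroup.S)) :
    ⇑(mkMF F hinv hhol hA hB) = F := rfl

theorem scale_S_scale (hp0 : p ≠ 0) (z : ℍ) :
    scaleGL p • (ModularGroup.S • (scaleGL p • z)) = ModularGroup.S • z := by
  apply UpperHalfPlane.ext
  rw [coe_scaleGL_smul hp0, modular_S_smul, modular_S_smul]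
  simp only [coe_scaleGL_smul hp0]
  have : (p : ℂ) ≠ 0 := by exact_mod_cast hp0
  field_simp

theorem slashS_atZero (f : MF p k) (z : ℍ) :
    ((atZero f) ∣[k] ModularGroup.S) (scaleGL p • z) = (-(p : ℂ)) ^ (-k) * f z := by
  have hp0 : p ≠ 0 := hp.out.ne_zero
  rw [ModularForm.SL_slash_apply, atZero, scale_S_scale hp0, slashS,
    ModularForm.SL_slash_apply, ← mul_smul,
    show ModularGroup.S * ModularGroup.S = -1 by
      apply Subtype.ext
      simp [ModularGroup.coe_S]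
      ext i j; fin_cases i <;> fin_cases j <;> simp,
    ModularGroup.SL_neg_smul, one_smul, ModularGroup.denom_S, ModularGroup.denom_S, mul_assoc,
    ← mul_zpow, mul_comm]
  congr 2
  rw [modular_S_smul]
  simp only [coe_scaleGL_smul hp0]
  have := z.ne_zero
  field_simp

theorem S_scale_mul_Gamma0 (g : Gamma0 p) :
    (mapGL ℝ ModularGroup.S : GL (Fin 2) ℝ) * scaleGL p * mapGL ℝ (g : SL(2, ℤ)) =
      mapGL ℝ ((FLTA.Kummer.frickeFun p g : Gamma0 p) : SL(2, ℤ)) *
        ((mapGL ℝ ModularGroup.S : GL (Fin 2) ℝ) * scaleGL p) := by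
  haveI : NeZero p := ⟨hp.out.ne_zero⟩
  obtain ⟨c, hc⟩ := FLTA.Kummer.dvd_lowerLeft p g
  apply Units.ext
  simp only [Units.val_mul, mapGL_coe_matrix]
  ext i j
  have hc' : (((g : SL(2, ℤ)) 1 0 : ℤ) : ℝ) = (p : ℝ) * (c : ℝ) := by exact_mod_cast hc
  have hp0 : p ≠ 0 := hp.out.ne_zero
  fin_cases i <;> fin_cases j <;>
    simp [scaleGL, ModularForm.val_heckeDiagMatrix hp0, Matrix.mul_apply, Fin.sum_univ_two,
      FLTA.Kummer.frickeFun_coe, FLTA.Kummer.frickeMat, ModularGroup.coe_S, hc,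
      Int.mul_ediv_cancel_left _ (FLTA.Kummer.natCast_ne_zero' p)] <;> ring

/-- Fricke transform, unnormalised: `(f ∣ S)(p z)` as a form on `Γ₀(p)`. -/
def fricke [NeZero p] (f : MF p k) : MF p k :=
  mkMF (atZero f)
    (fun g hg => by
      rw [atZero_eq_slash, ModularForm.SL_smul_slash]
      congr 1
      change (((⇑f) ∣[k] (mapGL ℝ ModularGroup.S : GL (Fin 2) ℝ)) ∣[k] scaleGL p) ∣[k]
          (mapGL ℝ g : GL (Fin 2) ℝ) =
        ((⇑f) ∣[k] (mapGL ℝ ModularGroup.S : GL (Fin 2) ℝ)) ∣[k] scaleGL p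
      rw [← SlashAction.slash_mul, ← SlashAction.slash_mul, ← mul_assoc]
      rw [show (mapGL ℝ g : GL (Fin 2) ℝ) = mapGL ℝ ((⟨g, hg⟩ : Gamma0 p) : SL(2, ℤ)) from rfl,
        S_scale_mul_Gamma0, SlashAction.slash_mul, ← SlashAction.slash_mul _ (mapGL ℝ ModularGroup.S)]
      exact congrArg (· ∣[k] ((mapGL ℝ ModularGroup.S : GL (Fin 2) ℝ) * scaleGL p))
        (slash_of_mem f (FLTA.Kummer.frickeFun p ⟨g, hg⟩).2))
    (mdifferentiable_atZero f) (bdd_atZero f)
    (by
      have hp0 : p ≠ 0 := hp.out.ne_zero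
      have h : (atZero f) ∣[k] ModularGroup.S =
          fun w => (-(p : ℂ)) ^ (-k) * f ((scaleGL p)⁻¹ • w) := by
        funext w
        conv_lhs => rw [← smul_inv_smul (scaleGL p) w]
        exact slashS_atZero f _
      rw [h]
      refine Filter.BoundedAtFilter.mul (Filter.const_boundedAtFilter atImInfty _) ?_
      refine (ModularFormClass.bdd_at_infty f).comp_tendsto ?_
      rw [atImInfty, tendsto_comap_iff]
      have him : (UpperHalfPlane.im ∘ fun z : ℍ => (scaleGL p)⁻¹ • z) = fun z : ℍ => z.im / p := by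
        funext z
        rw [comp_apply, eq_div_iff (by exact_mod_cast hp0), mul_comm]
        conv_rhs => rw [← smul_inv_smul (scaleGL p) z]
        rw [← UpperHalfPlane.coe_im (scaleGL p • _), coe_scaleGL_smul hp0]
        simp
      rw [him]
      exact tendsto_comap.atTop_div_const (by positivity))

theorem qA_fricke [NeZero p] (f : MF p k) : qA (fricke f) = qB f := rfl

theorem qB_fricke [NeZero p] (f : MF p k) : qB (fricke f) = (-(p : ℂ)) ^ (-k) • qA f := by
  have h : atZero (fricke f) = (-(p : ℂ)) ^ (-k) • (⇑f) := funext fun z => slashS_atZero f z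
  rw [qB, h]
  exact qExpansion_smul (analyticAt_coe f) _

/-- A form of level one as a form on `Γ₀(p)`. -/
def restr (F : ModularForm 𝒮ℒ k) : MF p k :=
  mkMF F (fun g _ => SlashInvariantFormClass.slash_action_eq F _ ⟨g, rfl⟩) F.holo'
    (ModularFormClass.bdd_at_infty F)
    (by
      rw [show (⇑F) ∣[k] ModularGroup.S = ⇑F from
        SlashInvariantFormClass.slash_action_eq F _ ⟨ModularGroup.S, rfl⟩]
      exact ModularFormClass.bdd_at_infty F)

theorem qA_restr (F : ModularForm 𝒮ℒ k) :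
    qA (restr (p := p) F) = qExpansion 1 (F : ℍ → ℂ) := rfl

theorem qB_restr [NeZero p] (F : ModularForm 𝒮ℒ k) :
    qB (restr (p := p) F) = PowerSeries.expand p (NeZero.ne p) (qExpansion 1 (F : ℍ → ℂ)) := by
  have h : atZero (restr (p := p) F) = fun z => F (scaleGL p • z) := by
    funext z
    rw [atZero, slashS, restr, coe_mkMF, show (⇑F) ∣[k] ModularGroup.S = ⇑F from
      SlashInvariantFormClass.slash_action_eq F _ ⟨ModularGroup.S, rfl⟩]
  rw [qB, h]
  exact qExpansion_comp_scale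
    (by exact_mod_cast SlashInvariantFormClass.periodic_comp_ofComplex F one_mem_strictPeriods_SL)
    F.holo' (ModularFormClass.bdd_at_infty F)

/-- `F (p z)` for `F` of level one. -/
def scaled [NeZero p] (F : ModularForm 𝒮ℒ k) : MF p k := fricke (restr F)

theorem qA_scaled [NeZero p] (F : ModularForm 𝒮ℒ k) :
    qA (scaled (p := p) F) = PowerSeries.expand p (NeZero.ne p) (qExpansion 1 (F : ℍ → ℂ)) :=
  qB_restr F

theorem qB_scaled [NeZero p] (F : ModularForm 𝒮ℒ k) :
    qB (scaled (p := p) F) = (-(p : ℂ)) ^ (-k) • qExpansion 1 (F : ℍ → ℂ) :=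
  qB_fricke (restr F)

end FLTA.Eisenstein
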