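import Mathlib.RingTheory.PowerSeries.Basic
import Mathlib.Data.Complex.Basic
import Mathlib.Algebra.Group.Subgroup.Defs

/-!
Power series over `ℂ` with integer coefficients, or with coefficients in an additive subgroup.
-/

set_option autoImplicit false

noncomputable section

namespace FLTA.Eisenstein

open PowerSeries

/-- The series with integer coefficients. -/
def intSeries : Subring (PowerSeries ℂ) :=
  (PowerSeries.map (Int.castRingHom ℂ)).range

theorem map_mem_intSeries (A : PowerSeries ℤ) :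
    A.map (Int.castRingHom ℂ) ∈ intSeries :=
  ⟨A, rfl⟩

theorem mem_intSeries_iff {A : PowerSeries ℂ} :
    A ∈ intSeries ↔ ∀ n, ∃ z : ℤ, coeff n A = z := by
  constructor
  · rintro ⟨B, rfl⟩ n
    exact ⟨coeff n B, by simp⟩
  · intro h
    choose z hz using h
    exact ⟨PowerSeries.mk z, by ext n; simp [hz]⟩

theorem X_mem_intSeries : (X : PowerSeries ℂ) ∈ intSeries :=
  ⟨X, map_X _⟩

theorem C_intCast_mem_intSeries (z : ℤ) : C (z : ℂ) ∈ intSeries :=
  ⟨C z, by simp⟩

/-- The series with all coefficients in `J`. -/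
def coeffsIn (J : AddSubgroup ℂ) : AddSubgroup (PowerSeries ℂ) where
  carrier := {A | ∀ n, coeff n A ∈ J}
  zero_mem' n := by simp [J.zero_mem]
  add_mem' hA hB n := by rw [map_add]; exact J.add_mem (hA n) (hB n)
  neg_mem' hA n := by rw [map_neg]; exact J.neg_mem (hA n)

theorem mem_coeffsIn {J : AddSubgroup ℂ} {A : PowerSeries ℂ} :
    A ∈ coeffsIn J ↔ ∀ n, coeff n A ∈ J := Iff.rfl

theorem intCast_mul_mem {J : AddSubgroup ℂ} (z : ℤ) {x : ℂ} (hx : x ∈ J) : (z : ℂ) * x ∈ J := by
  simpa [zsmul_eq_mul] using J.zsmul_mem hx z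

theorem int_mul_mem_coeffsIn {J : AddSubgroup ℂ} {A B : PowerSeries ℂ} (hA : A ∈ intSeries)
    (hB : B ∈ coeffsIn J) : A * B ∈ coeffsIn J := by
  intro n
  rw [coeff_mul]
  refine sum_mem fun ij _ => ?_
  obtain ⟨z, hz⟩ := mem_intSeries_iff.mp hA ij.1
  rw [hz]
  exact intCast_mul_mem z (hB ij.2)

theorem mul_int_mem_coeffsIn {J : AddSubgroup ℂ} {A B : PowerSeries ℂ} (hA : A ∈ coeffsIn J)
    (hB : B ∈ intSeries) : A * B ∈ coeffsIn J :=
  mul_comm B A ▸ int_mul_mem_coeffsIn hB hA

/-- If `X * U * H` has coefficients in `J` up to degree `n + 1` and `U` is integral with constant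
term one, then the coefficient of `H` at `n` is in `J`. -/
theorem coeff_mem_of_X_mul_mul {J : AddSubgroup ℂ} {U H : PowerSeries ℂ} (hU : U ∈ intSeries)
    (hU0 : coeff 0 U = 1) :
    ∀ n, (∀ m ≤ n, coeff (m + 1) (X * U * H) ∈ J) → coeff n H ∈ J := by
  intro n
  induction n using Nat.strong_induction_on with
  | _ n ih =>
    intro h
    have hn := h n le_rfl
    rw [mul_assoc, coeff_succ_X_mul, coeff_mul, Finset.Nat.sum_antidiagonal_eq_sum_range_succ_mk,
      Finset.sum_range_succ'] at hn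
    simp only [tsub_zero, hU0, one_mul] at hn
    refine (AddSubgroup.add_mem_cancel_left J ?_).mp hn
    refine sum_mem fun i hi => ?_
    obtain ⟨z, hz⟩ := mem_intSeries_iff.mp hU (i + 1)
    rw [hz]
    rw [Finset.mem_range] at hi
    exact intCast_mul_mem z (ih _ (by omega) fun m hm => h m (by omega))

end FLTA.Eisenstein
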