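import Mathlib.NumberTheory.ModularForms.LevelOne.DimensionFormula
import Mathlib.NumberTheory.ModularForms.LevelOne.GradedRing
import Mathlib.NumberTheory.ModularForms.NormTrace
import Fermat.Agent.Bridge.JExpansion
import Fermat.Agent.Eisenstein.Series

/-!
The Sturm bound in level one for coefficients in an arbitrary additive subgroup of `ℂ`.
-/

set_option autoImplicit false

noncomputable section

open UpperHalfPlane ModularForm EisensteinSeries
open scoped MatrixGroups

namespace FLTA.Eisenstein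

/-- The `q`-expansion of `Δ / q`, with integer coefficients and constant term one. -/
def deltaUnit : PowerSeries ℂ := ModularCurve.dedekindEtaUnit.map (Int.castRingHom ℂ)

theorem deltaUnit_mem_intSeries : deltaUnit ∈ intSeries := map_mem_intSeries _

theorem coeff_zero_deltaUnit : PowerSeries.coeff 0 deltaUnit = 1 := by
  simp [deltaUnit, ModularCurve.constantCoeff_dedekindEtaUnit]

theorem qExpansion_discriminant_eq :
    qExpansion 1 ModularForm.discriminant = PowerSeries.X * deltaUnit :=
  FLTA.Bridge.qExpansion_discriminant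

theorem qExpansion_E4_mem_intSeries : qExpansion 1 (E₄ : ℍ → ℂ) ∈ intSeries := by
  rw [FLTA.Bridge.qExpansion_E4]
  exact map_mem_intSeries _

theorem qExpansion_E6_mem_intSeries : qExpansion 1 (E₆ : ℍ → ℂ) ∈ intSeries := by
  rw [mem_intSeries_iff]
  intro n
  rw [E_qExpansion_coeff _ ⟨3, rfl⟩]
  split_ifs
  · exact ⟨1, by simp⟩
  · exact ⟨-504 * (ArithmeticFunction.sigma 5 n : ℤ), by
      rw [show bernoulli 6 = 1 / 42 by decide +kernel]; push_cast; ring⟩

/-- In every even weight at least four there is a form with integral expansion and constant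
term one. -/
theorem exists_monomial (a b : ℕ) :
    ∃ M : ModularForm 𝒮ℒ ((4 * a + 6 * b : ℕ) : ℤ),
      qExpansion 1 (M : ℍ → ℂ) ∈ intSeries ∧ PowerSeries.coeff 0 (qExpansion 1 (M : ℍ → ℂ)) = 1 := by
  refine ⟨ModularForm.mcast (by push_cast; ring) ((E₄.pow a).mul (E₆.pow b)), ?_⟩
  have h : qExpansion 1
      (ModularForm.mcast (b := ((4 * a + 6 * b : ℕ) : ℤ)) (by push_cast; ring)
        ((E₄.pow a).mul (E₆.pow b)) : ℍ → ℂ) =
      qExpansion 1 (E₄ : ℍ → ℂ) ^ a * qExpansion 1 (E₆ : ℍ → ℂ) ^ b := by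
    rw [ModularForm.qExpansion_mcast, ModularForm.qExpansion_mul one_pos one_mem_strictPeriods_SL,
      ModularForm.qExpansion_pow one_pos one_mem_strictPeriods_SL,
      ModularForm.qExpansion_pow one_pos one_mem_strictPeriods_SL]
  rw [h]
  refine ⟨mul_mem (pow_mem qExpansion_E4_mem_intSeries a) (pow_mem qExpansion_E6_mem_intSeries b),
    ?_⟩
  rw [PowerSeries.coeff_zero_eq_constantCoeff, map_mul, map_pow, map_pow,
    ← PowerSeries.coeff_zero_eq_constantCoeff, E_qExpansion_coeff_zero _ ⟨2, rfl⟩,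
    E_qExpansion_coeff_zero _ ⟨3, rfl⟩, one_pow, one_pow, one_mul]

theorem exists_monomial_weight {k : ℤ} (hk : 4 ≤ k) (hke : Even k) :
    ∃ M : ModularForm 𝒮ℒ k,
      qExpansion 1 (M : ℍ → ℂ) ∈ intSeries ∧ PowerSeries.coeff 0 (qExpansion 1 (M : ℍ → ℂ)) = 1 := by
  obtain ⟨j, hj⟩ := hke
  obtain ⟨a, b, hab⟩ : ∃ a b : ℕ, k = ((4 * a + 6 * b : ℕ) : ℤ) := by
    rcases Int.even_or_odd j with ⟨i, hi⟩ | ⟨i, hi⟩
    · exact ⟨i.toNat, 0, by omega⟩
    · exact ⟨(i - 1).toNat, 1, by omega⟩
  subst hab
  exact exists_monomial a b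

/-- The Sturm bound in level one: if the coefficients up to `k / 12` lie in `J`, all do. -/
theorem qExpansion_mem_coeffsIn_of_sturm (J : AddSubgroup ℂ) {k : ℤ} (F : ModularForm 𝒮ℒ k)
    (h : ∀ n : ℕ, 12 * (n : ℤ) ≤ k → PowerSeries.coeff n (qExpansion 1 (F : ℍ → ℂ)) ∈ J) :
    qExpansion 1 (F : ℍ → ℂ) ∈ coeffsIn J := by
  generalize hm : k.toNat = m
  induction m using Nat.strong_induction_on generalizing k with
  | _ m ih =>
    rcases Int.even_or_odd k with hke | hko
    swap
    · rw [ModularForm.levelOne_odd_weight_eq_zero hko F]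
      simp [qExpansion_zero, zero_mem]
    rcases lt_or_ge k 0 with hneg | hnn
    · rw [ModularForm.isZero_of_neg_weight hneg F]
      simp [qExpansion_zero, zero_mem]
    rcases eq_or_ne k 0 with rfl | hk0
    · intro n
      rcases Nat.eq_zero_or_pos n with rfl | hn
      · exact h 0 le_rfl
      · obtain ⟨c, hc⟩ := ModularFormClass.levelOne_weight_zero_const F
        rw [← ModularFormClass.qExpansion_coeff_unique (f := F) one_pos one_mem_strictPeriods_SL
          (c := fun i => if i = 0 then c else 0) (fun τ => ?_) n, if_neg hn.ne']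
        · exact J.zero_mem
        · rw [hc, Function.const_apply]
          convert hasSum_ite_eq 0 c using 2 with i
          rcases eq_or_ne i 0 with rfl | hi <;> simp [*]
    rcases eq_or_ne k 2 with rfl | hk2
    · rw [(ModularForm.levelOne_weight_two_rank_zero |> rank_zero_iff_forall_zero.mp) F]
      simp [qExpansion_zero, zero_mem]
    have hk4 : 4 ≤ k := by rcases hke with ⟨j, rfl⟩; omega
    obtain ⟨M, hMint, hM0⟩ := exists_monomial_weight hk4 hke
    set c := PowerSeries.coeff 0 (qExpansion 1 (F : ℍ → ℂ)) with hc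
    have hcJ : c ∈ J := h 0 (by omega)
    have hcM : PowerSeries.C c * qExpansion 1 (M : ℍ → ℂ) ∈ coeffsIn J := by
      intro n
      obtain ⟨z, hz⟩ := mem_intSeries_iff.mp hMint n
      rw [PowerSeries.coeff_C_mul, hz, mul_comm]
      exact intCast_mul_mem z hcJ
    set F₁ : ModularForm 𝒮ℒ k := F - c • M with hF₁
    have hq : qExpansion 1 (F₁ : ℍ → ℂ) =
        qExpansion 1 (F : ℍ → ℂ) - PowerSeries.C c * qExpansion 1 (M : ℍ → ℂ) := by
      rw [hF₁, FunLike.coe_sub, ModularForm.qExpansion_sub one_pos one_mem_strictPeriods_SL F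
        (c • M), FunLike.coe_smul, ModularForm.qExpansion_smul one_pos one_mem_strictPeriods_SL c M,
        PowerSeries.smul_eq_C_mul]
    have h10 : (qExpansion 1 (F₁ : ℍ → ℂ)).coeff 0 = 0 := by
      rw [hq, map_sub, PowerSeries.coeff_C_mul, hM0, mul_one, ← hc, sub_self]
    have hprod := qExpansion_eq_qExpansion_discriminant_mul F₁ h10
    rw [qExpansion_discriminant_eq] at hprod
    set H := CuspForm.discriminantEquiv (toCuspForm F₁ h10)
    have hH : qExpansion 1 (H : ℍ → ℂ) ∈ coeffsIn J := by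
      refine ih (k - 12).toNat (by omega) H (fun n hn => ?_) rfl
      refine coeff_mem_of_X_mul_mul deltaUnit_mem_intSeries coeff_zero_deltaUnit n fun i hi => ?_
      rw [← hprod, hq, map_sub]
      exact J.sub_mem (h (i + 1) (by push_cast; omega)) (hcM (i + 1))
    have hF₁mem : qExpansion 1 (F₁ : ℍ → ℂ) ∈ coeffsIn J := by
      rw [hprod]
      exact int_mul_mem_coeffsIn (mul_mem X_mem_intSeries deltaUnit_mem_intSeries) hH
    have := (coeffsIn J).add_mem hF₁mem hcM
    rwa [hq, sub_add_cancel] at this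

end FLTA.Eisenstein
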