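import Fermat.Agent.Bridge.JExpansion
import Fermat.Agent.Eisenstein.LevelOne
import Fermat.Agent.Eisenstein.Forms

/-!
The form `Δ(z)^p / Δ(p z)` of weight `12 (p - 1)` on `Γ₀(p)`.
-/

set_option autoImplicit false

noncomputable section

open UpperHalfPlane Function Filter Matrix.SpecialLinearGroup CongruenceSubgroup FLTA.Bridge
open scoped MatrixGroups ModularForm Manifold Topology

namespace FLTA.Eisenstein

variable {p : ℕ} [hp : Fact p.Prime] [NeZero p]

omit hp [NeZero p] in
theorem constantCoeff_intMap (A : PowerSeries ℤ) :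
    PowerSeries.constantCoeff (A.map (Int.castRingHom ℂ)) =
      ((PowerSeries.constantCoeff A : ℤ) : ℂ) := by
  rw [← PowerSeries.coeff_zero_eq_constantCoeff_apply, PowerSeries.coeff_map,
    PowerSeries.coeff_zero_eq_constantCoeff_apply]
  rfl

/-- The discriminant as a modular form. -/
def deltaMF : ModularForm 𝒮ℒ 12 where
  toFun := CuspForm.discriminant
  slash_action_eq' := CuspForm.discriminant.slash_action_eq'
  holo' := CuspForm.discriminant.holo'
  bdd_at_cusps' hc γ hγ := (CuspForm.discriminant.zero_at_cusps' hc γ hγ).boundedAtFilter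

theorem coe_deltaMF : ⇑deltaMF = ModularForm.discriminant := rfl

theorem qExpansion_deltaMF : qExpansion 1 (deltaMF : ℍ → ℂ) = PowerSeries.X * deltaUnit :=
  qExpansion_discriminant_eq

/-- `Δ ^ p` on `Γ₀(p)`. -/
def deltaNum (p : ℕ) [Fact p.Prime] : MF p ((p : ℤ) * 12) := (restr deltaMF).pow p

/-- `Δ(p z)` on `Γ₀(p)`. -/
def deltaDen (p : ℕ) [Fact p.Prime] [NeZero p] : MF p 12 := scaled deltaMF

/-- `Δ(z)^p / Δ(p z)` as a function. -/
def deltaQuotFun (p : ℕ) : ℍ → ℂ :=
  fun z => ModularForm.discriminant z ^ p / ModularForm.discriminant (scaleGL p • z)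

omit hp [NeZero p] in
theorem eulerProd_pow_div_bdd {F : ℍ → ℂ} (c : ℂ) (a b : ℕ) (r : ℕ) (hr : r ≠ 0)
    (h : ∀ z, F z = c * (eulerProd (Periodic.qParam 1 (z : ℂ) ^ r)) ^ a /
      (eulerProd (Periodic.qParam 1 (z : ℂ))) ^ b) : IsBoundedAtImInfty F := by
  have hG : ContinuousAt (fun q : ℂ => c * (eulerProd (q ^ r)) ^ a / (eulerProd q) ^ b) 0 := by
    refine ContinuousAt.div₀ (continuousAt_const.mul (ContinuousAt.pow ?_ a))
      (analyticAt_eulerProd.continuousAt.pow b) (by simp [eulerProd_zero])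
    have h1 : ContinuousAt eulerProd ((fun q : ℂ => q ^ r) 0) := by
      simpa [zero_pow hr] using analyticAt_eulerProd.continuousAt
    exact ContinuousAt.comp (f := fun q : ℂ => q ^ r) h1 (by fun_prop)
  have ht := hG.tendsto.comp (qParam_tendsto_atImInfty one_pos)
  have : F = (fun q : ℂ => c * (eulerProd (q ^ r)) ^ a / (eulerProd q) ^ b) ∘
      fun z : ℍ => Periodic.qParam 1 (z : ℂ) := funext h
  rw [this]
  exact ht.isBigO_one ℝ

omit hp in
theorem qParam_scale (z : ℍ) : Periodic.qParam 1 ((scaleGL p • z : ℍ) : ℂ) =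
    Periodic.qParam 1 (z : ℂ) ^ p := by
  rw [coe_scaleGL_smul (NeZero.ne p), Periodic.qParam, Periodic.qParam, ← Complex.exp_nat_mul]
  congr 1
  push_cast
  ring

omit hp in
theorem bdd_deltaQuotFun : IsBoundedAtImInfty (deltaQuotFun p) := by
  have hG : ContinuousAt (fun q : ℂ => (eulerProd q) ^ (24 * p) / (eulerProd (q ^ p)) ^ 24) 0 := by
    have h1 : ContinuousAt eulerProd ((fun q : ℂ => q ^ p) 0) := by
      simpa [zero_pow (NeZero.ne p)] using analyticAt_eulerProd.continuousAt
    exact ContinuousAt.div₀ (analyticAt_eulerProd.continuousAt.pow _)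
      ((ContinuousAt.comp (f := fun q : ℂ => q ^ p) h1 (by fun_prop)).pow 24)
      (by simp [zero_pow (NeZero.ne p), eulerProd_zero])
  have ht := hG.tendsto.comp (qParam_tendsto_atImInfty one_pos)
  have : deltaQuotFun p = (fun q : ℂ => (eulerProd q) ^ (24 * p) / (eulerProd (q ^ p)) ^ 24) ∘
      fun z : ℍ => Periodic.qParam 1 (z : ℂ) := by
    funext z
    simp only [deltaQuotFun, comp_apply, discriminant_eq_qFun_mul, Pi.mul_apply, Pi.pow_apply,
      qFun, eulerFun, qParam_scale, mul_pow, ← pow_mul]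
    rw [mul_div_mul_left _ _ (pow_ne_zero p (Periodic.qParam_ne_zero _))]
  rw [this]
  exact ht.isBigO_one ℝ

omit [NeZero p] in
theorem slashS_deltaScaled [NeZero p] (z : ℍ) :
    slashS (deltaDen p) (scaleGL p • z) =
      (-(p : ℂ)) ^ (-(12 : ℤ)) * ModularForm.discriminant z :=
  slashS_atZero (restr deltaMF) z

theorem coe_deltaDen : ⇑(deltaDen p) = fun z => ModularForm.discriminant (scaleGL p • z) := by
  funext z
  show atZero (restr deltaMF) z = _
  rw [atZero, slashS, restr, coe_mkMF, show (⇑deltaMF) ∣[(12 : ℤ)] ModularGroup.S = ⇑deltaMF from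
    SlashInvariantFormClass.slash_action_eq deltaMF _ ⟨ModularGroup.S, rfl⟩]
  rfl

theorem coe_deltaNum : ⇑(deltaNum p) = fun z => ModularForm.discriminant z ^ p := by
  funext z
  simp [deltaNum, restr, coe_deltaMF]

theorem deltaQuotFun_eq : deltaQuotFun p = ⇑(deltaNum p) / ⇑(deltaDen p) := by
  rw [coe_deltaNum, coe_deltaDen]
  rfl

theorem deltaQuot_slash (g : SL(2, ℤ)) :
    deltaQuotFun p ∣[((p : ℤ) - 1) * 12] g =
      ((⇑(deltaNum p)) ∣[(p : ℤ) * 12] g) / ((⇑(deltaDen p)) ∣[(12 : ℤ)] g) := by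
  rw [deltaQuotFun_eq, show ((p : ℤ) - 1) * 12 = (p : ℤ) * 12 - 12 by ring,
    ModularForm.div_slash_SL2]

theorem atZero_deltaQuot_eq (z : ℍ) :
    (deltaQuotFun p ∣[((p : ℤ) - 1) * 12] ModularGroup.S) (scaleGL p • z) =
      (p : ℂ) ^ 12 * ModularForm.discriminant (scaleGL p • z) ^ p /
        ModularForm.discriminant z := by
  have h1 : ((⇑(deltaNum p)) ∣[(p : ℤ) * 12] ModularGroup.S) = ⇑(deltaNum p) := by
    have e : ⇑(deltaNum p) = ⇑(deltaMF.pow p) := by
      funext w; simp [deltaNum, restr]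
    rw [e]
    exact SlashInvariantFormClass.slash_action_eq (deltaMF.pow p) _ ⟨ModularGroup.S, rfl⟩
  rw [deltaQuot_slash, Pi.div_apply, h1, coe_deltaNum]
  show _ / slashS (deltaDen p) (scaleGL p • z) = _
  rw [slashS_deltaScaled]
  have hp0 : (p : ℂ) ≠ 0 := by exact_mod_cast NeZero.ne p
  rw [zpow_neg, show ((-(p : ℂ)) ^ (12 : ℤ)) = (p : ℂ) ^ 12 by norm_num [zpow_ofNat]]
  field_simp

/-- `Δ(z)^p / Δ(p z)`. -/
def deltaQuot (p : ℕ) [Fact p.Prime] [NeZero p] : MF p (((p : ℤ) - 1) * 12) :=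
  mkMF (deltaQuotFun p)
    (fun g hg => by
      rw [deltaQuot_slash, slash_of_mem (deltaNum p) hg, slash_of_mem (deltaDen p) hg,
        deltaQuotFun_eq])
    (by
      rw [deltaQuotFun_eq]
      exact MDifferentiable.div (deltaNum p).holo' (deltaDen p).holo' fun z => by
        rw [coe_deltaDen]; exact ModularForm.discriminant_ne_zero _)
    bdd_deltaQuotFun
    (by
      have hp1 := (Fact.out : p.Prime).one_le
      have hb : IsBoundedAtImInfty fun z =>
          (deltaQuotFun p ∣[((p : ℤ) - 1) * 12] ModularGroup.S) (scaleGL p • z) := by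
        have hE := eulerProd_pow_div_bdd (c := (p : ℂ) ^ 12) (a := 24 * p) (b := 24) (r := p)
          (F := fun z => (p : ℂ) ^ 12 * (eulerProd (Periodic.qParam 1 (z : ℂ) ^ p)) ^ (24 * p) /
            (eulerProd (Periodic.qParam 1 (z : ℂ))) ^ 24) (NeZero.ne p) fun z => rfl
        have hq : IsBoundedAtImInfty fun z : ℍ => Periodic.qParam 1 (z : ℂ) ^ (p * p - 1) :=
          (((qParam_tendsto_atImInfty one_pos).pow _).isBigO_one ℝ)
        have h2 := Filter.BoundedAtFilter.mul hE hq
        refine (Asymptotics.IsBigO.congr_left h2 fun z => ?_)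
        rw [Pi.mul_apply, atZero_deltaQuot_eq, discriminant_eq_qFun_mul, discriminant_eq_qFun_mul]
        simp only [Pi.mul_apply, Pi.pow_apply, qFun, eulerFun, qParam_scale, mul_pow, ← pow_mul]
        have hq0 : Periodic.qParam (1 : ℝ) (z : ℂ) ≠ 0 := Periodic.qParam_ne_zero _
        have he := pow_ne_zero 24 (eulerFun_ne_zero z)
        rw [eulerFun] at he
        rw [div_mul_eq_mul_div, div_eq_div_iff he (mul_ne_zero hq0 he)]
        have hpp : p * p = (p * p - 1) + 1 := by
          have := Nat.mul_pos (NeZero.pos p) (NeZero.pos p); omega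
        conv_rhs => rw [hpp, pow_succ]
        ring
      have hinv : Tendsto (fun z : ℍ => (scaleGL p)⁻¹ • z) atImInfty atImInfty := by
        rw [atImInfty, tendsto_comap_iff]
        have him : (UpperHalfPlane.im ∘ fun z : ℍ => (scaleGL p)⁻¹ • z) =
            fun z : ℍ => z.im / p := by
          funext z
          rw [comp_apply, eq_div_iff (by exact_mod_cast NeZero.ne p), mul_comm]
          conv_rhs => rw [← smul_inv_smul (scaleGL p) z]
          rw [← UpperHalfPlane.coe_im (scaleGL p • _), coe_scaleGL_smul (NeZero.ne p)]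
          simp
        rw [him]
        exact tendsto_comap.atTop_div_const (Nat.cast_pos.mpr (NeZero.pos p))
      have := hb.comp_tendsto hinv
      refine this.congr_left fun z => ?_
      simp)

theorem coe_deltaQuot : ⇑(deltaQuot p) = deltaQuotFun p := rfl

theorem qA_pow {k : ℤ} (f : MF p k) (n : ℕ) : qA (f.pow n) = qA f ^ n :=
  ModularForm.qExpansion_pow one_pos (one_mem_strictPeriods_Gamma0 p) f n

theorem atZero_pow {k : ℤ} (f : MF p k) (n : ℕ) : qB (f.pow n) = qB f ^ n := by
  induction n with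
  | zero =>
    have h : atZero (f.pow 0) = (1 : ℍ → ℂ) := by
      funext z
      have e : ⇑(f.pow 0) = (1 : ℍ → ℂ) := by rw [ModularForm.coe_pow, pow_zero]
      simp only [atZero, slashS, e, Nat.cast_zero, zero_mul]
      rw [ModularForm.is_invariant_one]
      rfl
    rw [qB, h, qExpansion_one, pow_zero]
  | succ n ih =>
    have h : ⇑(f.pow (n + 1)) = ⇑((f.pow n).mul f) := by
      rw [ModularForm.coe_mul, ModularForm.coe_pow, ModularForm.coe_pow, pow_succ]
    have hz : atZero (f.pow (n + 1)) = atZero ((f.pow n).mul f) := by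
      funext z
      simp only [atZero, slashS, h]
      rw [show ((n + 1 : ℕ) : ℤ) * k = (n : ℤ) * k + k by push_cast; ring]
    rw [qB, hz]
    exact (qB_mul (f.pow n) f).trans (by rw [ih, pow_succ])

theorem deltaQuot_mul_den :
    ((deltaQuot p).mul (deltaDen p)).mcast (by ring : ((p : ℤ) - 1) * 12 + 12 = (p : ℤ) * 12) =
      deltaNum p := by
  ext z
  simp only [ModularForm.coe_mcast, ModularForm.coe_mul, Pi.mul_apply, coe_deltaQuot,
    deltaQuotFun_eq, Pi.div_apply]
  rw [div_mul_cancel₀]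
  rw [coe_deltaDen]
  exact ModularForm.discriminant_ne_zero _

/-- Expansion at `∞`: `U ^ p` times the inverse of `U(q^p)`. -/
theorem qA_deltaQuot_mul :
    qA (deltaQuot p) * PowerSeries.expand p (NeZero.ne p) deltaUnit = deltaUnit ^ p := by
  have h := congrArg qA (deltaQuot_mul_den (p := p))
  rw [qA_mcast, qA_mul, deltaNum, qA_pow, qA_restr, deltaDen, qA_scaled, qExpansion_deltaMF,
    map_mul, PowerSeries.expand_X, mul_pow, mul_left_comm] at h
  exact mul_left_cancel₀ (pow_ne_zero _ PowerSeries.X_ne_zero) h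

theorem qB_deltaQuot_mul :
    qB (deltaQuot p) * deltaUnit = PowerSeries.C ((p : ℂ) ^ 12) * PowerSeries.X ^ (p * p - 1) *
      PowerSeries.expand p (NeZero.ne p) deltaUnit ^ p := by
  have h := congrArg qB (deltaQuot_mul_den (p := p))
  rw [qB_mcast, qB_mul, deltaNum, atZero_pow, qB_restr, deltaDen, qB_scaled, qExpansion_deltaMF,
    map_mul, PowerSeries.expand_X, mul_pow, ← pow_mul, PowerSeries.smul_eq_C_mul] at h
  have hpp : p * p = (p * p - 1) + 1 := by
    have := Nat.mul_pos (NeZero.pos p) (NeZero.pos p); omega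
  have hp0 : (p : ℂ) ≠ 0 := by exact_mod_cast NeZero.ne p
  have hc : PowerSeries.C ((p : ℂ) ^ 12) * PowerSeries.C ((-(p : ℂ)) ^ (-(12 : ℤ))) =
      (1 : PowerSeries ℂ) := by
    rw [← map_mul, zpow_neg, show ((-(p : ℂ)) ^ (12 : ℤ)) = (p : ℂ) ^ 12 by norm_num [zpow_ofNat],
      mul_inv_cancel₀ (pow_ne_zero _ hp0), map_one]
  refine mul_left_cancel₀ (PowerSeries.X_ne_zero (R := ℂ)) ?_
  calc PowerSeries.X * (qB (deltaQuot p) * deltaUnit)
      = (PowerSeries.C ((p : ℂ) ^ 12) * PowerSeries.C ((-(p : ℂ)) ^ (-(12 : ℤ)))) *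
          (PowerSeries.X * (qB (deltaQuot p) * deltaUnit)) := by rw [hc, one_mul]
    _ = PowerSeries.C ((p : ℂ) ^ 12) * (qB (deltaQuot p) *
          (PowerSeries.C ((-(p : ℂ)) ^ (-(12 : ℤ))) * (PowerSeries.X * deltaUnit))) := by ring
    _ = _ := by
      generalize p * p - 1 = e at hpp ⊢
      rw [h, hpp, pow_succ]
      ring

theorem qA_deltaQuot_mem_intSeries : qA (deltaQuot p) ∈ intSeries := by
  have hu : PowerSeries.expand p (NeZero.ne p) deltaUnit *
      PowerSeries.expand p (NeZero.ne p)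
        (ModularCurve.dedekindEtaUnitInv.map (Int.castRingHom ℂ)) = 1 := by
    rw [← map_mul, deltaUnit, ← map_mul, ModularCurve.dedekindEtaUnit_mul_inv, map_one, map_one]
  have : qA (deltaQuot p) = deltaUnit ^ p * PowerSeries.expand p (NeZero.ne p)
      (ModularCurve.dedekindEtaUnitInv.map (Int.castRingHom ℂ)) := by
    rw [← qA_deltaQuot_mul, mul_assoc, hu, mul_one]
  rw [this]
  refine mul_mem (pow_mem deltaUnit_mem_intSeries _) ?_
  rw [← PowerSeries.map_expand]
  exact map_mem_intSeries _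

theorem coeff_zero_qA_deltaQuot : PowerSeries.coeff 0 (qA (deltaQuot p)) = 1 := by
  have h := congrArg PowerSeries.constantCoeff (qA_deltaQuot_mul (p := p))
  rw [map_mul, PowerSeries.constantCoeff_expand, map_pow] at h
  rw [deltaUnit, constantCoeff_intMap, ModularCurve.constantCoeff_dedekindEtaUnit] at h
  rw [PowerSeries.coeff_zero_eq_constantCoeff_apply]
  simpa using h

theorem qB_deltaQuot_mem_intSeries : qB (deltaQuot p) ∈ intSeries := by
  have hu : deltaUnit * ModularCurve.dedekindEtaUnitInv.map (Int.castRingHom ℂ) = 1 := by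
    rw [deltaUnit, ← map_mul, ModularCurve.dedekindEtaUnit_mul_inv, map_one]
  have : qB (deltaQuot p) = PowerSeries.C ((p : ℂ) ^ 12) * PowerSeries.X ^ (p * p - 1) *
      PowerSeries.expand p (NeZero.ne p) deltaUnit ^ p *
        ModularCurve.dedekindEtaUnitInv.map (Int.castRingHom ℂ) := by
    rw [← qB_deltaQuot_mul, mul_assoc, hu, mul_one]
  rw [this]
  refine mul_mem (mul_mem (mul_mem ?_ (pow_mem X_mem_intSeries _)) (pow_mem ?_ _))
    (map_mem_intSeries _)
  · exact ⟨PowerSeries.C ((p : ℤ) ^ 12), by simp⟩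
  · rw [deltaUnit, ← PowerSeries.map_expand]
    exact map_mem_intSeries _

/-- The expansion at `0` starts in degree `p ^ 2 - 1`. -/
theorem exists_qB_deltaQuot : ∃ R : PowerSeries ℂ,
    qB (deltaQuot p) = PowerSeries.X ^ (p * p - 1) * R ∧
      PowerSeries.coeff 0 R = (p : ℂ) ^ 12 ∧ R ∈ intSeries := by
  refine ⟨PowerSeries.C ((p : ℂ) ^ 12) * PowerSeries.expand p (NeZero.ne p) deltaUnit ^ p *
    ModularCurve.dedekindEtaUnitInv.map (Int.castRingHom ℂ), ?_, ?_, ?_⟩
  · have hu : deltaUnit * ModularCurve.dedekindEtaUnitInv.map (Int.castRingHom ℂ) = 1 := by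
      rw [deltaUnit, ← map_mul, ModularCurve.dedekindEtaUnit_mul_inv, map_one]
    calc qB (deltaQuot p) = qB (deltaQuot p) * deltaUnit *
          ModularCurve.dedekindEtaUnitInv.map (Int.castRingHom ℂ) := by
            rw [mul_assoc, hu, mul_one]
      _ = _ := by rw [qB_deltaQuot_mul]; ring
  · simp [deltaUnit, PowerSeries.constantCoeff_expand, constantCoeff_intMap,
      ModularCurve.constantCoeff_dedekindEtaUnit, ModularCurve.constantCoeff_dedekindEtaUnitInv]
  · refine mul_mem (mul_mem ⟨PowerSeries.C ((p : ℤ) ^ 12), by simp⟩ (pow_mem ?_ _))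
      (map_mem_intSeries _)
    rw [deltaUnit, ← PowerSeries.map_expand]
    exact map_mem_intSeries _

end FLTA.Eisenstein
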