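import Fermat.Agent.Eisenstein.UpperBasic
import Fermat.Agent.Eisenstein.DeltaQuot

/-!
The case `p ≡ -1 (mod d)`: two congruent forms of level one whose weights differ by two, refuted at
level two.
-/

set_option autoImplicit false

noncomputable section

open UpperHalfPlane
open scoped MatrixGroups

namespace FLTA.Eisenstein

/-- A form with expansion in `J` at `∞` and integral at `0` has, up to a power of `p`, constant term
in `J` at `0`. -/
theorem exists_pow_mul_constantCoeff_mem (p : ℕ) [hp : Fact p.Prime] [NeZero p] {k : ℤ}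
    (F : MF p k) (J : AddSubgroup ℂ) (hA : qA F ∈ coeffsIn J) :
    ∃ N : ℕ, (p : ℂ) ^ N * PowerSeries.coeff 0 (qB F) ∈ J := by
  set t : ℕ := k.toNat + 1 with ht
  obtain ⟨R, hR, hR0, -⟩ := exists_qB_deltaQuot (p := p)
  set P := F.mul ((deltaQuot p).pow (p * t)) with hP
  have hPA : qA P ∈ coeffsIn J := by
    rw [hP, qA_mul, qA_pow]
    exact mul_int_mem_coeffsIn hA (pow_mem qA_deltaQuot_mem_intSeries _)
  set n : ℕ := t * (p * p - 1) with hn
  have hnp : n * p = (p * p - 1) * (p * t) := by rw [hn]; ring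
  have hPB : qB P = PowerSeries.X ^ (n * p) * (qB F * R ^ (p * t)) := by
    rw [hP, qB_mul, atZero_pow, hR, mul_pow, ← pow_mul, hnp]
    ring
  have hp2 := hp.out.two_le
  have hq := qExpansion_trOne P
  have hcoef : ∀ i, i < n → PowerSeries.coeff i (uSeries p (qB P)) = 0 := by
    intro i hi
    rw [coeff_uSeries, hPB, PowerSeries.coeff_X_pow_mul', if_neg]
    exact not_le.mpr ((Nat.mul_lt_mul_right hp.out.pos).mpr hi)
  have hsturm := qExpansion_mem_coeffsIn_of_sturm J (trOne P) (fun i hi => ?_) n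
  · rw [hq, map_add, PowerSeries.coeff_smul, coeff_uSeries, hPB, PowerSeries.coeff_X_pow_mul',
      if_pos le_rfl, Nat.sub_self, smul_eq_mul] at hsturm
    have h := (AddSubgroup.add_mem_cancel_left J (hPA n)).mp hsturm
    refine ⟨12 * (p * t) + 1, ?_⟩
    convert h using 1
    simp only [PowerSeries.coeff_zero_eq_constantCoeff] at hR0 ⊢
    rw [map_mul, map_pow, hR0, ← pow_mul, pow_succ]
    ring
  · have hin : i < n := by
      by_contra hcon
      have h1 : (12 : ℤ) * n ≤ k + ((p * t : ℕ) : ℤ) * (((p : ℤ) - 1) * 12) :=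
        le_trans (by exact_mod_cast Nat.mul_le_mul_left 12 (not_lt.mp hcon)) hi
      have h2 : (n : ℤ) = (t : ℤ) * ((p : ℤ) * p - 1) := by
        rw [hn, Nat.cast_mul, Nat.cast_sub (by nlinarith), Nat.cast_mul, Nat.cast_one]
      rw [h2] at h1
      push_cast at h1
      have h4 : (k : ℤ) < t := by
        rw [ht]; push_cast; omega
      have h5 : (1 : ℤ) ≤ (p : ℤ) - 1 := by omega
      have h6 : (t : ℤ) * 12 ≤ (t : ℤ) * 12 * ((p : ℤ) - 1) :=
        le_mul_of_one_le_right (by positivity) h5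
      nlinarith
    rw [hq, map_add, PowerSeries.coeff_smul, hcoef i hin, smul_zero, add_zero]
    exact hPA i

/-- Reduction of integer series modulo `d`. -/
abbrev redSeries (d : ℕ) : PowerSeries ℤ →+* PowerSeries (ZMod d) :=
  PowerSeries.map (Int.castRingHom (ZMod d))

theorem toC_mem_coeffsIn_iff {d : ℕ} {A : PowerSeries ℤ} :
    toC A ∈ coeffsIn (intMultiples d) ↔ redSeries d A = 0 := by
  rw [mem_coeffsIn, PowerSeries.ext_iff]
  simp [intCast_mem_intMultiples, ZMod.intCast_zmod_eq_zero_iff_dvd]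

/-- Two level one forms congruent up to a scalar with weights differing by two. -/
theorem dvd_three_mul_of_congr (d : ℕ) (w : ℕ) (F₀ : ModularForm 𝒮ℒ (w : ℤ))
    (F₂ : ModularForm 𝒮ℒ ((w : ℤ) + 2)) (A₀ A₂ : PowerSeries ℤ) (g₀ : ℤ)
    (h₀ : qExpansion 1 (F₀ : ℍ → ℂ) = toC A₀) (h₂ : qExpansion 1 (F₂ : ℍ → ℂ) = toC A₂)
    (hc₀ : PowerSeries.coeff 0 A₀ = 1) (hc₂ : PowerSeries.coeff 0 A₂ = g₀)
    (hcong : redSeries d A₂ = PowerSeries.C (g₀ : ZMod d) * redSeries d A₀) :
    ∃ N : ℕ, (d : ℤ) ∣ 2 ^ N * (3 * g₀) := by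
  haveI : Fact (Nat.Prime 2) := ⟨Nat.prime_two⟩
  set e := (w : ℤ) + ((w : ℤ) + 2) with he
  set H₁ : MF 2 e := (restr F₀).mul (scaled F₂)
  set H₂ : MF 2 e := ((scaled F₀).mul (restr F₂))
  set c : ℂ := (-2) ^ (w + 2) with hc
  set H : MF 2 e := c • (H₁ - H₂) with hH
  have hA : qA H = toC (PowerSeries.C ((-2 : ℤ) ^ (w + 2)) *
      (A₀ * PowerSeries.expand 2 two_ne_zero A₂ - PowerSeries.expand 2 two_ne_zero A₀ * A₂)) := by
    rw [hH, qA_smul, qA_sub, qA_mul, qA_mul, qA_restr, qA_restr, qA_scaled, qA_scaled, h₀, h₂,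
      map_mul, map_sub, map_mul, map_mul, PowerSeries.map_C, PowerSeries.map_expand,
      PowerSeries.map_expand, PowerSeries.smul_eq_C_mul, hc]
    simp
  have hB : qB H = toC (PowerSeries.expand 2 two_ne_zero A₀ * A₂ -
      PowerSeries.C 4 * (A₀ * PowerSeries.expand 2 two_ne_zero A₂)) := by
    have e2 : c * (-(2 : ℂ)) ^ (-((w : ℤ) + 2)) = 1 := by
      rw [hc, show ((w : ℤ) + 2) = ((w + 2 : ℕ) : ℤ) by push_cast; rfl, zpow_neg, zpow_natCast,
        mul_inv_cancel₀ (by norm_num)]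
    have e0 : c * (-(2 : ℂ)) ^ (-(w : ℤ)) = 4 := by
      rw [hc, zpow_neg, zpow_natCast, pow_add, mul_comm _ ((-2 : ℂ) ^ 2),
        mul_assoc, mul_inv_cancel₀ (pow_ne_zero _ (by norm_num))]
      norm_num
    rw [hH, qB_smul, qB_sub, qB_mul, qB_mul, qB_restr, qB_restr, qB_scaled, qB_scaled, h₀, h₂,
      map_sub, map_mul, map_mul, map_mul, PowerSeries.map_C, PowerSeries.map_expand,
      PowerSeries.map_expand, Nat.cast_ofNat, mul_smul_comm, smul_mul_assoc, smul_sub, smul_smul,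
      smul_smul, e2, e0, one_smul, PowerSeries.smul_eq_C_mul]
    simp
  have hmem : qA H ∈ coeffsIn (intMultiples d) := by
    rw [hA, toC_mem_coeffsIn_iff, map_mul, map_sub, map_mul, map_mul, redSeries,
      PowerSeries.map_expand, PowerSeries.map_expand]
    rw [hcong, map_mul, PowerSeries.expand_C]
    ring
  obtain ⟨N, hN⟩ := exists_pow_mul_constantCoeff_mem 2 H (intMultiples d) hmem
  have hc0 : PowerSeries.coeff 0 (qB H) = (((-3) * g₀ : ℤ) : ℂ) := by
    rw [hB, coeff_toC]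
    congr 1
    simp only [PowerSeries.coeff_zero_eq_constantCoeff] at hc₀ hc₂ ⊢
    rw [map_sub, map_mul, map_mul, map_mul, PowerSeries.constantCoeff_C,
      PowerSeries.constantCoeff_expand, PowerSeries.constantCoeff_expand, hc₀, hc₂]
    ring
  rw [hc0] at hN
  refine ⟨N, ?_⟩
  have h := intCast_mem_intMultiples.mp
    (show ((((2 : ℤ) ^ N * ((-3) * g₀)) : ℤ) : ℂ) ∈ intMultiples d by
      push_cast at hN ⊢; exact hN)
  rwa [show (2 : ℤ) ^ N * (-3 * g₀) = -(2 ^ N * (3 * g₀)) by ring, dvd_neg] at h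

variable {p : ℕ} [hp : Fact p.Prime] [NeZero p] {m : ℕ}

theorem CongrWitness.dvd_three_mul (W : CongrWitness p m) {d : ℕ} (hd : (d : ℤ) ∣ 24 * (m : ℤ))
    (hdp : d ∣ p + 1) : ∃ N : ℕ, (d : ℤ) ∣ 2 ^ N * (3 * ((p : ℤ) - 1)) := by
  have hp1 := hp.out.one_le
  have hp2 := hp.out.two_le
  obtain ⟨R, hR, -, hRint⟩ := exists_qB_deltaQuot (p := p)
  obtain ⟨bA, hbA⟩ := qA_deltaQuot_mem_intSeries (p := p)
  obtain ⟨rB, hrB⟩ := hRint
  have hbA' : qA (deltaQuot p) = toC bA := hbA.symm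
  set bB : PowerSeries ℤ := PowerSeries.X ^ (p * p - 1) * rB with hbB
  have hbB' : qB (deltaQuot p) = toC bB := by
    rw [hR, hbB, map_mul, map_pow, PowerSeries.map_X, ← hrB]
  have hpp : p * p - 1 ≠ 0 := by have : 4 ≤ p * p := by nlinarith
                                 omega
  have hbB0 : PowerSeries.coeff 0 bB = 0 := by
    rw [hbB, PowerSeries.coeff_X_pow_mul', if_neg (by omega)]
  have hbA0 : PowerSeries.coeff 0 bA = 1 := by
    have h := coeff_zero_qA_deltaQuot (p := p)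
    rw [hbA', coeff_toC] at h
    exact_mod_cast h
  set w : ℕ := (p - 1) * 12 with hw
  have hwz : ((p : ℤ) - 1) * 12 = (w : ℤ) := by rw [hw]; push_cast [Nat.cast_sub hp1]; ring
  set A₀ : PowerSeries ℤ := bA + PowerSeries.C (p : ℤ) * uInt p bB with hA₀
  set A₂ : PowerSeries ℤ := W.gZ * bA - uInt p (uInt p W.gZ * bB) with hA₂
  have h₀ : qExpansion 1
      (ModularForm.mcast hwz (trOne (deltaQuot p)) : ℍ → ℂ) = toC A₀ := by
    rw [ModularForm.qExpansion_mcast, qExpansion_trOne_int (deltaQuot p) bA bB 1 hbA'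
      (by rw [hbB', one_smul]), hA₀, map_add, map_mul, PowerSeries.map_C, mul_one,
      PowerSeries.smul_eq_C_mul]
    simp
  have hgB : qB (W.g.mul (deltaQuot p)) = (-(p : ℂ)⁻¹) • toC (uInt p W.gZ * bB) := by
    rw [qB_mul, W.qB_g, hbB', smul_mul_assoc, ← map_mul]
  have h₂ : qExpansion 1
      (ModularForm.mcast (show 2 + ((p : ℤ) - 1) * 12 = (w : ℤ) + 2 by omega)
        (trOne (W.g.mul (deltaQuot p))) : ℍ → ℂ) = toC A₂ := by
    have hp0 : (p : ℂ) ≠ 0 := by exact_mod_cast NeZero.ne p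
    rw [ModularForm.qExpansion_mcast, qExpansion_trOne_int (W.g.mul (deltaQuot p)) (W.gZ * bA)
      (uInt p W.gZ * bB) (-(p : ℂ)⁻¹) (by rw [qA_mul, W.qA_g, hbA', map_mul]) hgB, hA₂, map_sub,
      show (p : ℂ) * -(p : ℂ)⁻¹ = -1 by field_simp, PowerSeries.smul_eq_C_mul]
    simp [sub_eq_add_neg]
  refine dvd_three_mul_of_congr d w _ _ A₀ A₂ ((p : ℤ) - 1) h₀ h₂ ?_ ?_ ?_
  · rw [hA₀, map_add, PowerSeries.coeff_C_mul, coeff_uInt, zero_mul, hbA0, hbB0]
    ring
  · rw [hA₂, map_sub, coeff_uInt, zero_mul]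
    simp only [PowerSeries.coeff_zero_eq_constantCoeff] at hbA0 hbB0 ⊢
    rw [map_mul, map_mul, hbA0, hbB0]
    have := W.coeff_zero_gZ
    rw [PowerSeries.coeff_zero_eq_constantCoeff] at this
    rw [this]; ring
  · have hg : redSeries d W.gZ = PowerSeries.C ((((p : ℤ) - 1 : ℤ)) : ZMod d) := by
      ext i
      rw [PowerSeries.coeff_map, PowerSeries.coeff_C]
      split_ifs with hi
      · subst hi; rw [W.coeff_zero_gZ]; rfl
      · exact (ZMod.intCast_zmod_eq_zero_iff_dvd _ _).mpr (W.dvd_coeff_gZ hd hi)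
    have hUg : redSeries d (uInt p W.gZ) = PowerSeries.C ((((p : ℤ) - 1 : ℤ)) : ZMod d) := by
      ext i
      have := congrArg (PowerSeries.coeff (i * p)) hg
      rw [PowerSeries.coeff_map, PowerSeries.coeff_C] at this
      rw [PowerSeries.coeff_map, coeff_uInt, PowerSeries.coeff_C, this]
      simp [hp.out.ne_zero]
    have hpd : ((p : ℕ) : ZMod d) = -1 := by
      rw [eq_neg_iff_add_eq_zero, ← Nat.cast_one, ← Nat.cast_add, ZMod.natCast_eq_zero_iff]
      exact hdp
    rw [hA₂, hA₀, map_sub, map_add, map_mul, map_mul, hg, PowerSeries.map_C, mul_add, sub_eq_add_neg]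
    congr 1
    ext i
    have h := congrArg (PowerSeries.coeff (i * p))
      (map_mul (redSeries d) (uInt p W.gZ) bB)
    rw [hUg, PowerSeries.coeff_C_mul, PowerSeries.coeff_map, PowerSeries.coeff_map] at h
    rw [map_neg, PowerSeries.coeff_map, coeff_uInt, h, ← mul_assoc, ← map_mul,
      PowerSeries.coeff_C_mul, PowerSeries.coeff_map, coeff_uInt]
    simp [hpd]
    ring

end FLTA.Eisenstein
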