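import Fermat.Agent.Eisenstein.UpperBasic
import Fermat.Agent.Eisenstein.Sigma2
import Fermat.Agent.Eisenstein.DeltaQuot

/-!
The case `3 ∣ m`, `3` exactly dividing `p + 1`: the trace of `L ^ 2` in weight `12` modulo `3`.
-/

set_option autoImplicit false

noncomputable section

open UpperHalfPlane EisensteinSeries ModularForm
open scoped MatrixGroups ArithmeticFunction.sigma

namespace FLTA.Eisenstein

/-- `∑ σ_j(k) q^k`. -/
def sigmaPow (j : ℕ) : PowerSeries ℤ := PowerSeries.mk fun k => ((σ j k : ℕ) : ℤ)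

theorem qExpansion_E4_eq :
    qExpansion 1 (E₄ : ℍ → ℂ) = toC (1 + PowerSeries.C 240 * sigmaPow 3) := by
  ext k
  rw [E_qExpansion_coeff _ ⟨2, rfl⟩, coeff_toC, map_add, PowerSeries.coeff_C_mul,
    PowerSeries.coeff_one, sigmaPow, PowerSeries.coeff_mk]
  rcases eq_or_ne k 0 with rfl | hk
  · simp
  · rw [if_neg hk, if_neg hk, show bernoulli 4 = -1 / 30 by decide +kernel]
    push_cast; ring

theorem qExpansion_E6_eq :
    qExpansion 1 (E₆ : ℍ → ℂ) = toC (1 - PowerSeries.C 504 * sigmaPow 5) := by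
  ext k
  rw [E_qExpansion_coeff _ ⟨3, rfl⟩, coeff_toC, map_sub, PowerSeries.coeff_C_mul,
    PowerSeries.coeff_one, sigmaPow, PowerSeries.coeff_mk]
  rcases eq_or_ne k 0 with rfl | hk
  · simp
  · rw [if_neg hk, if_neg hk, show bernoulli 6 = 1 / 42 by decide +kernel]
    push_cast; ring

/-- `τ(3)` vanishes modulo three. -/
theorem three_dvd_coeff_two_dedekindEtaUnit :
    (3 : ℤ) ∣ PowerSeries.coeff 2 ModularCurve.dedekindEtaUnit := by
  have h0 : PowerSeries.coeff 0 (ModularCurve.etaProd ^ 8) = 1 := by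
    simp [ModularCurve.constantCoeff_etaProd]
  rw [ModularCurve.dedekindEtaUnit, show (24 : ℕ) = 8 * 3 by rfl, pow_mul]
  generalize ModularCurve.etaProd ^ 8 = A at h0
  refine ⟨PowerSeries.coeff 2 A + (PowerSeries.coeff 1 A) ^ 2, ?_⟩
  rw [pow_succ, pow_two]
  simp only [PowerSeries.coeff_mul, Finset.Nat.antidiagonal_succ, Finset.Nat.antidiagonal_zero]
  simp [h0, Finset.Nat.antidiagonal_succ]
  ring

theorem uInt_expand (p : ℕ) (hp : p ≠ 0) (A : PowerSeries ℤ) :
    uInt p (PowerSeries.expand p hp A) = A := by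
  ext n
  rw [coeff_uInt, mul_comm n p, PowerSeries.coeff_expand_mul]

variable {p : ℕ} [hp : Fact p.Prime] [NeZero p]

theorem CongrWitness.not_three_dvd {m : ℕ} (W : CongrWitness p m) (h9 : p % 9 = 2 ∨ p % 9 = 5) :
    ¬ 3 ∣ m := by
  intro h3
  obtain ⟨m', rfl⟩ := h3
  have hp0 : (p : ℂ) ≠ 0 := by exact_mod_cast NeZero.ne p
  set g₀ : ℤ := (p : ℤ) - 1 with hg₀
  obtain ⟨δ, hδ⟩ : ∃ δ : ℤ, (p : ℤ) + 1 = 3 * δ := ⟨((p : ℤ) + 1) / 3, by omega⟩
  have hδ3 : ¬ (3 : ℤ) ∣ δ := by omega
  set R : PowerSeries ℤ := PowerSeries.mk fun k => if k = 0 then 0 else (m' : ℤ) * W.r k with hR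
  have hg : W.gZ = PowerSeries.C g₀ + PowerSeries.C 72 * R := by
    ext k
    rw [CongrWitness.gZ, hR, map_add, PowerSeries.coeff_C_mul, PowerSeries.coeff_C,
      PowerSeries.coeff_mk, PowerSeries.coeff_mk]
    rcases eq_or_ne k 0 with rfl | hk
    · simp [hg₀]
    · simp [hk]; ring
  have hUg : uInt p W.gZ = PowerSeries.C g₀ + PowerSeries.C 72 * uInt p R := by
    rw [hg]
    ext k
    rw [coeff_uInt, map_add, map_add, PowerSeries.coeff_C_mul, PowerSeries.coeff_C_mul, coeff_uInt,
      PowerSeries.coeff_C, PowerSeries.coeff_C]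
    simp [hp.out.ne_zero]
  set V := PowerSeries.expand p (NeZero.ne p) (R := ℤ) with hV
  set LA : PowerSeries ℤ := PowerSeries.C (80 * g₀) * sigmaPow 3 +
    PowerSeries.C 24 * R * (1 + PowerSeries.C 240 * sigmaPow 3) +
      PowerSeries.C (168 * g₀) * sigmaPow 5 with hLA
  set LB : PowerSeries ℤ := -(PowerSeries.C (g₀ * δ) + PowerSeries.C (80 * g₀) * V (sigmaPow 3) +
    PowerSeries.C 24 * uInt p R * (1 + PowerSeries.C 240 * V (sigmaPow 3)) -
      PowerSeries.C (168 * (p * g₀)) * V (sigmaPow 5)) with hLB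
  set L : MF p 6 := (3 : ℂ)⁻¹ •
    ((W.g.mul (restr E₄)).mcast (by norm_num) - ((g₀ : ℤ) : ℂ) • restr E₆) with hL
  have hexp : ∀ A : PowerSeries ℤ,
      PowerSeries.expand p (NeZero.ne p) (toC A) = toC (V A) := fun A => by
    rw [hV]; exact (PowerSeries.map_expand p (NeZero.ne p) _ A).symm
  have hLA' : qA L = toC LA := by
    have key : W.gZ * (1 + PowerSeries.C 240 * sigmaPow 3) -
        PowerSeries.C g₀ * (1 - PowerSeries.C 504 * sigmaPow 5) = PowerSeries.C 3 * LA := by
      rw [hg, hLA]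
      simp only [map_mul, map_ofNat]
      ring
    have key' := congrArg toC key
    simp only [map_sub, map_add, map_mul, map_one, PowerSeries.map_C, eq_intCast (Int.castRingHom ℂ), Int.cast_ofNat,
      map_ofNat] at key'
    rw [hL, qA_smul, qA_sub, qA_mcast, qA_mul, qA_smul, W.qA_g, qA_restr, qA_restr,
      qExpansion_E4_eq, qExpansion_E6_eq, PowerSeries.smul_eq_C_mul, PowerSeries.smul_eq_C_mul]
    simp only [map_sub, map_add, map_mul, map_one, PowerSeries.map_C, eq_intCast (Int.castRingHom ℂ), Int.cast_ofNat,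
      map_ofNat]
    rw [key', ← mul_assoc, ← map_ofNat (PowerSeries.C (R := ℂ)) 3, ← map_mul,
      show (3 : ℂ)⁻¹ * 3 = 1 by norm_num, map_one, one_mul]
  have hLB' : qB L = (p : ℂ)⁻¹ • toC LB := by
    have key : -(uInt p W.gZ * V (1 + PowerSeries.C 240 * sigmaPow 3)) -
        PowerSeries.C ((p : ℤ) * g₀) * V (1 - PowerSeries.C 504 * sigmaPow 5) =
          PowerSeries.C 3 * LB := by
      have e : PowerSeries.C g₀ + PowerSeries.C ((p : ℤ) * g₀) =
          PowerSeries.C 3 * PowerSeries.C (g₀ * δ) := by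
        rw [← map_add, ← map_mul, ← mul_left_comm g₀ 3 δ, ← hδ]
        ring_nf
      rw [hUg, hLB, map_add V, map_sub V, map_mul V, map_mul V, map_one V,
        PowerSeries.expand_C, PowerSeries.expand_C]
      simp only [map_mul, map_ofNat] at e ⊢
      linear_combination -e
    have key' := congrArg toC key
    simp only [map_sub, map_add, map_neg, map_mul, map_one, PowerSeries.map_C, eq_intCast (Int.castRingHom ℂ),
      Int.cast_ofNat, Int.cast_natCast, map_ofNat] at key'
    rw [hL, qB_smul, qB_sub, qB_mcast, qB_mul, qB_smul, W.qB_g, qB_restr, qB_restr,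
      qExpansion_E4_eq, qExpansion_E6_eq, hexp, hexp, PowerSeries.smul_eq_C_mul,
      PowerSeries.smul_eq_C_mul, PowerSeries.smul_eq_C_mul, PowerSeries.smul_eq_C_mul]
    have hp1 : PowerSeries.C (p : ℂ)⁻¹ * PowerSeries.C (p : ℂ) = 1 := by
      rw [← map_mul, inv_mul_cancel₀ hp0, map_one]
    have h31 : PowerSeries.C (3 : ℂ)⁻¹ * (3 : PowerSeries ℂ) = 1 := by
      rw [← map_ofNat (PowerSeries.C (R := ℂ)) 3, ← map_mul,
        show (3 : ℂ)⁻¹ * 3 = 1 by norm_num, map_one]
    simp only [map_sub, map_add, map_neg, map_mul, map_one, PowerSeries.map_C, eq_intCast (Int.castRingHom ℂ),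
      Int.cast_ofNat, Int.cast_natCast, map_ofNat]
    linear_combination (PowerSeries.C (3 : ℂ)⁻¹ * PowerSeries.C (p : ℂ)⁻¹) * key' +
      (PowerSeries.C (3 : ℂ)⁻¹ * PowerSeries.C ((g₀ : ℤ) : ℂ) *
        (1 - 504 * toC (V (sigmaPow 5)))) * hp1 +
      (PowerSeries.C (p : ℂ)⁻¹ * toC LB) * h31
  have hA : qA (L.mul L) = toC (LA * LA) := by rw [qA_mul, hLA', map_mul]
  have hB : qB (L.mul L) = ((p : ℂ)⁻¹ * (p : ℂ)⁻¹) • toC (LB * LB) := by
    rw [qB_mul, hLB', smul_mul_smul_comm, map_mul]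
  have hq := qExpansion_trOne_int (L.mul L) _ _ _ hA hB
  set Z : PowerSeries ℤ := PowerSeries.C (p : ℤ) * (LA * LA) + uInt p (LB * LB) with hZ
  have hS : toC Z = (p : ℂ) • qExpansion 1 (trOne (L.mul L) : ℍ → ℂ) := by
    rw [hq, hZ, map_add, map_mul, PowerSeries.map_C, smul_add, smul_smul,
      show (p : ℂ) * ((p : ℂ) * ((p : ℂ)⁻¹ * (p : ℂ)⁻¹)) = 1 by field_simp, one_smul,
      PowerSeries.smul_eq_C_mul]
    simp
  set red := PowerSeries.map (Int.castRingHom (ZMod 3)) with hred
  have hr1 : ∀ (c : ℤ), red (PowerSeries.C c) = PowerSeries.C (c : ZMod 3) := fun c => by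
    rw [hred, PowerSeries.map_C]; rfl
  have hrU : ∀ A B : PowerSeries ℤ, red A = red B → red (uInt p A) = red (uInt p B) := by
    intro A B h
    ext i
    have := congrArg (PowerSeries.coeff (i * p)) h
    simpa [hred] using this
  have hpz : ((p : ℤ) : ZMod 3) = -1 := by
    have h : ((((p : ℤ) + 1 : ℤ)) : ZMod 3) = 0 := by
      rw [ZMod.intCast_zmod_eq_zero_iff_dvd]; exact ⟨δ, hδ⟩
    push_cast at h
    push_cast
    linear_combination h
  have hgz : ((g₀ : ℤ) : ZMod 3) = 1 := by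
    rw [hg₀, Int.cast_sub, hpz]; decide
  have c24 : ((24 : ℤ) : ZMod 3) = 0 := by decide
  have c80 : ((80 : ℤ) : ZMod 3) = -1 := by decide
  have c168 : ((168 : ℤ) : ZMod 3) = 0 := by decide
  set S := red (sigmaPow 3) with hSdef
  have hrLA : red LA = -S := by
    rw [hLA]
    simp only [map_add, map_mul, map_one, hr1]
    push_cast
    simp [hgz, c24, c80, c168, hSdef]
    ring_nf
    simp [show (80 : ZMod 3) = -1 by decide, show (24 : ZMod 3) = 0 by decide,
      show (168 : ZMod 3) = 0 by decide]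
  set Vd := PowerSeries.expand p (NeZero.ne p) (R := ZMod 3) with hVd
  have hrLB : red LB = -PowerSeries.C (δ : ZMod 3) + Vd S := by
    have hv : red (V (sigmaPow 3)) = Vd S := by
      rw [hV, hVd, hred, hSdef, PowerSeries.map_expand]
    rw [hLB]
    simp only [map_add, map_sub, map_neg, map_mul, map_one, hr1, hv]
    push_cast
    simp [hgz, c24, c80, c168]
    ring_nf
    simp [show (80 : ZMod 3) = -1 by decide, show (24 : ZMod 3) = 0 by decide,
      show (168 : ZMod 3) = 0 by decide]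
  have hredVd : ∀ A : PowerSeries ℤ, red (uInt p (V A)) = red A := fun A => by
    rw [hV, uInt_expand]
  have hsq : red (uInt p (LB * LB)) =
      red (PowerSeries.C (δ ^ 2) + PowerSeries.C δ * sigmaPow 3 + sigmaPow 3 * sigmaPow 3) := by
    rw [hrU (LB * LB)
      (V (PowerSeries.C (δ ^ 2) + PowerSeries.C δ * sigmaPow 3 + sigmaPow 3 * sigmaPow 3)), hredVd]
    rw [map_mul, hrLB, hV, hred, PowerSeries.map_expand, ← hred]
    simp only [map_add, map_mul, hr1, ← hSdef]
    rw [← hVd]
    simp only [hVd, PowerSeries.expand_C]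
    push_cast
    rw [map_pow]
    have h3 : (3 : PowerSeries (ZMod 3)) = 0 := by
      rw [show (3 : PowerSeries (ZMod 3)) = PowerSeries.C (3 : ZMod 3) from (map_ofNat _ 3).symm,
        show (3 : ZMod 3) = 0 by decide, map_zero]
    linear_combination (-(PowerSeries.C (δ : ZMod 3) * Vd S)) * h3
  have hrZ : red Z = PowerSeries.C ((δ ^ 2 : ℤ) : ZMod 3) + PowerSeries.C (δ : ZMod 3) * S := by
    rw [hZ, map_add, hsq]
    simp only [map_add, map_mul, hr1, hrLA, hpz, ← hSdef, map_neg, map_one]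
    ring
  -- compare with `δ² E₄³ + δ Δ`
  set F : ModularForm 𝒮ℒ 12 :=
    ((p : ℂ) • (trOne (L.mul L)).mcast (by norm_num) - ((δ ^ 2 : ℤ) : ℂ) •
      (E₄.pow 3).mcast (by norm_num)) - ((δ : ℤ) : ℂ) • deltaMF with hF
  set P : PowerSeries ℤ := Z - PowerSeries.C (δ ^ 2) * (1 + PowerSeries.C 240 * sigmaPow 3) ^ 3 -
    PowerSeries.C δ * (PowerSeries.X * ModularCurve.dedekindEtaUnit) with hP
  have hFq : qExpansion 1 (F : ℍ → ℂ) = toC P := by
    rw [hF, FunLike.coe_sub, ModularForm.qExpansion_sub one_pos one_mem_strictPeriods_SL,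
      FunLike.coe_sub, ModularForm.qExpansion_sub one_pos one_mem_strictPeriods_SL,
      FunLike.coe_smul, ModularForm.qExpansion_smul one_pos one_mem_strictPeriods_SL,
      FunLike.coe_smul, ModularForm.qExpansion_smul one_pos one_mem_strictPeriods_SL,
      FunLike.coe_smul, ModularForm.qExpansion_smul one_pos one_mem_strictPeriods_SL,
      ModularForm.qExpansion_mcast, ModularForm.qExpansion_mcast,
      ModularForm.qExpansion_pow one_pos one_mem_strictPeriods_SL, qExpansion_E4_eq, ← hS,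
      coe_deltaMF, qExpansion_discriminant_eq, deltaUnit, hP, map_sub, map_sub, map_mul toC,
      map_mul toC, map_mul toC, map_pow toC, PowerSeries.map_X, PowerSeries.map_C,
      PowerSeries.map_C, PowerSeries.smul_eq_C_mul, PowerSeries.smul_eq_C_mul]
    simp
  have hP3 : ∀ n, PowerSeries.coeff n (red P) =
      (δ : ZMod 3) * (PowerSeries.coeff n S -
        PowerSeries.coeff n (PowerSeries.X * red ModularCurve.dedekindEtaUnit)) := by
    intro n
    have h240 : red (1 + PowerSeries.C 240 * sigmaPow 3) = 1 := by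
      rw [map_add, map_one, map_mul, hr1, show ((240 : ℤ) : ZMod 3) = 0 by decide, map_zero,
        zero_mul, add_zero]
    have hXr : red PowerSeries.X = PowerSeries.X := by rw [hred, PowerSeries.map_X]
    have e : red P = PowerSeries.C (δ : ZMod 3) *
        (S - PowerSeries.X * red ModularCurve.dedekindEtaUnit) := by
      rw [hP]
      simp only [map_sub, map_mul, map_pow red, h240, hrZ, one_pow, mul_one, hr1, hXr]
      ring
    rw [e, PowerSeries.coeff_C_mul, map_sub]
  have hs1 : PowerSeries.coeff 1 S = 1 := by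
    rw [hSdef, hred, PowerSeries.coeff_map, sigmaPow, PowerSeries.coeff_mk]
    simp
  have hs0 : PowerSeries.coeff 0 S = 0 := by
    rw [hSdef, hred, PowerSeries.coeff_map, sigmaPow, PowerSeries.coeff_mk]
    simp
  have hdiv : ∀ n, PowerSeries.coeff n (toC P) ∈ intMultiples 3 ↔
      PowerSeries.coeff n (red P) = 0 := fun n => by
    rw [coeff_toC, intCast_mem_intMultiples, hred, PowerSeries.coeff_map]
    exact (ZMod.intCast_zmod_eq_zero_iff_dvd _ _).symm
  have hall := qExpansion_mem_coeffsIn_of_sturm (intMultiples 3) F (fun n hn => ?_) 3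
  · rw [hFq, hdiv, hP3, PowerSeries.coeff_succ_X_mul] at hall
    have e3 : PowerSeries.coeff 3 S = 1 := by
      rw [hSdef, hred, PowerSeries.coeff_map, sigmaPow, PowerSeries.coeff_mk,
        sigma_prime Nat.prime_three]
      decide
    have e2 : PowerSeries.coeff 2 (red ModularCurve.dedekindEtaUnit) = 0 := by
      rw [hred, PowerSeries.coeff_map]
      exact (ZMod.intCast_zmod_eq_zero_iff_dvd _ _).mpr three_dvd_coeff_two_dedekindEtaUnit
    rw [e3, e2, sub_zero, mul_one] at hall
    exact hδ3 ((ZMod.intCast_zmod_eq_zero_iff_dvd _ _).mp hall)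
  · rw [hFq, hdiv, hP3]
    have h1u : PowerSeries.coeff 0 (red ModularCurve.dedekindEtaUnit) = 1 := by
      rw [hred, PowerSeries.coeff_map, PowerSeries.coeff_zero_eq_constantCoeff,
        ModularCurve.constantCoeff_dedekindEtaUnit]
      simp
    obtain rfl | rfl : n = 0 ∨ n = 1 := by omega
    · rw [hs0, PowerSeries.coeff_zero_X_mul, sub_zero, mul_zero]
    · rw [hs1, PowerSeries.coeff_succ_X_mul, h1u, sub_self, mul_zero]

end FLTA.Eisenstein
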