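import Fermat.Agent.Eisenstein.Trace
import Fermat.Agent.Eisenstein.LevelOne
import Fermat.Prelude.Thm_UpperHalfPlane_qExpansion_prod
import Mathlib.RingTheory.IntegralClosure.IntegrallyClosed
import Mathlib.Analysis.Complex.Periodic

/-!
# Norm to level one and congruences modulo two

A form of weight `< 12` on `Γ₀(p)` cannot be congruent modulo two, at both cusps, to one series
`B = b q + ⋯` with `b` odd: its norm to level one would vanish modulo two to order `p + 1`, beyond
the Sturm bound.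
-/

set_option autoImplicit false

noncomputable section

open UpperHalfPlane Function Filter Matrix.SpecialLinearGroup CongruenceSubgroup
open scoped MatrixGroups ModularForm Manifold Topology

namespace FLTA.Eisenstein

/-- Twice the algebraic integers. -/
def twoInt : AddSubgroup ℂ where
  carrier := {x | IsIntegral ℤ (x / 2)}
  zero_mem' := by simpa using isIntegral_zero
  add_mem' := fun {x y} hx hy => by
    show IsIntegral ℤ ((x + y) / 2)
    rw [add_div]; exact IsIntegral.add hx hy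
  neg_mem' := fun {x} hx => by
    show IsIntegral ℤ (-x / 2)
    rw [neg_div]; exact IsIntegral.neg hx

theorem mem_twoInt {x : ℂ} : x ∈ twoInt ↔ IsIntegral ℤ (x / 2) := Iff.rfl

theorem mul_mem_twoInt {x y : ℂ} (hx : x ∈ twoInt) (hy : y ∈ twoInt) : x * y ∈ twoInt := by
  rw [mem_twoInt] at *
  rw [show x * y / 2 = ((2 : ℤ) : ℂ) * ((x / 2) * (y / 2)) by push_cast; ring]
  exact (isIntegral_algebraMap (R := ℤ) (x := (2 : ℤ))).mul (hx.mul hy)

theorem integral_mul_mem_twoInt {z x : ℂ} (hz : IsIntegral ℤ z) (hx : x ∈ twoInt) :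
    z * x ∈ twoInt := by
  rw [mem_twoInt] at *
  rw [mul_div_assoc]
  exact hz.mul hx

theorem intCast_mem_twoInt_iff {z : ℤ} : (z : ℂ) ∈ twoInt ↔ 2 ∣ z := by
  constructor
  · intro h
    rw [mem_twoInt, show (z : ℂ) / 2 = algebraMap ℚ ℂ ((z : ℚ) / 2) by
      simp, isIntegral_algebraMap_iff (FaithfulSMul.algebraMap_injective ℚ ℂ),
      IsIntegrallyClosed.isIntegral_iff] at h
    obtain ⟨w, hw⟩ := h
    refine ⟨w, ?_⟩
    have : (z : ℚ) = ((2 * w : ℤ) : ℚ) := by
      push_cast
      rw [eq_intCast] at hw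
      linarith
    exact_mod_cast this
  · rintro ⟨w, rfl⟩
    rw [mem_twoInt]
    push_cast
    rw [mul_div_cancel_left₀ _ two_ne_zero]
    exact isIntegral_algebraMap (R := ℤ) (x := w)

/-- Congruences modulo two of products. -/
theorem red_mul {A B C D : PowerSeries ℂ} (hAB : A - B ∈ coeffsIn twoInt) (hB : B ∈ intSeries)
    (hCD : C - D ∈ coeffsIn twoInt) (hD : D ∈ intSeries) :
    A * C - B * D ∈ coeffsIn twoInt := by
  have h : A * C - B * D = (A - B) * (C - D) + ((A - B) * D + B * (C - D)) := by ring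
  rw [h]
  refine add_mem (fun n => ?_) (add_mem (mul_int_mem_coeffsIn hAB hD) (int_mul_mem_coeffsIn hB hCD))
  rw [PowerSeries.coeff_mul]
  exact sum_mem fun ij _ => mul_mem_twoInt (hAB _) (hCD _)

theorem red_prod {ι : Type*} (s : Finset ι) {A : ι → PowerSeries ℂ} {B : ι → PowerSeries ℂ}
    (h : ∀ i ∈ s, A i - B i ∈ coeffsIn twoInt) (hB : ∀ i ∈ s, B i ∈ intSeries) :
    (∏ i ∈ s, A i) - ∏ i ∈ s, B i ∈ coeffsIn twoInt := by
  classical
  induction s using Finset.induction_on with
  | empty => simpa using zero_mem _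
  | insert a s ha ih =>
    rw [Finset.prod_insert ha, Finset.prod_insert ha]
    exact red_mul (h a (Finset.mem_insert_self _ _)) (hB a (Finset.mem_insert_self _ _))
      (ih (fun i hi => h i (Finset.mem_insert_of_mem hi))
        fun i hi => hB i (Finset.mem_insert_of_mem hi))
      (prod_mem fun i hi => hB i (Finset.mem_insert_of_mem hi))

variable {p : ℕ} [hp : Fact p.Prime] {k : ℤ}

theorem expand_mem_intSeries [NeZero p] {B : PowerSeries ℂ} (hB : B ∈ intSeries) :
    PowerSeries.expand p (NeZero.ne p) B ∈ intSeries := by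
  rw [mem_intSeries_iff] at *
  intro n
  rw [PowerSeries.coeff_expand]
  split_ifs
  · exact hB _
  · exact ⟨0, by simp⟩

/-- The norm to level one. -/
def normOne [NeZero p] (f : MF p k) := ModularForm.norm 𝒮ℒ f

/-- The conjugates of `f` at the cusp `0`. -/
def zeroConj (f : MF p k) (j : ℕ) : ℍ → ℂ := slashS f ∣[k] (ModularGroup.T ^ (j : ℤ))

theorem zeroConj_apply (f : MF p k) (j : ℕ) (z : ℍ) :
    zeroConj f j z = slashS f ((((j : ℤ) : ℝ)) +ᵥ z) := by
  have e10 : (ModularGroup.T ^ (j : ℤ) : SL(2, ℤ)) 1 0 = 0 := by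
    rw [ModularGroup.coe_T_zpow]; simp
  have e11 : (ModularGroup.T ^ (j : ℤ) : SL(2, ℤ)) 1 1 = 1 := by
    rw [ModularGroup.coe_T_zpow]; simp
  rw [zeroConj, ModularForm.SL_slash_apply, modular_T_zpow_smul, ModularGroup.denom_apply, e10,
    e11]
  simp

theorem periodic_zeroConj (f : MF p k) (j : ℕ) : Periodic (zeroConj f j ∘ ofComplex) (p : ℝ) := by
  intro w
  have h := periodic_slashS f
  by_cases hw : 0 < w.im
  · have hw' : 0 < (w + ((p : ℝ) : ℂ)).im := by simpa using hw
    simp only [comp_apply, ofComplex_apply_of_im_pos hw', ofComplex_apply_of_im_pos hw,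
      zeroConj_apply]
    rw [← ofComplex_apply (((j : ℤ) : ℝ) +ᵥ (⟨w + ((p : ℝ) : ℂ), hw'⟩ : ℍ)),
      ← ofComplex_apply (((j : ℤ) : ℝ) +ᵥ (⟨w, hw⟩ : ℍ))]
    have := h (((j : ℤ) : ℝ) + w)
    simpa [UpperHalfPlane.coe_vadd, add_assoc] using this
  · have hw' : (w + ((p : ℝ) : ℂ)).im ≤ 0 := by simpa using hw
    simp only [comp_apply, ofComplex_apply_of_im_nonpos hw',
      ofComplex_apply_of_im_nonpos (not_lt.mp hw)]

theorem analyticAt_zeroConj [NeZero p] (f : MF p k) (j : ℕ) :
    AnalyticAt ℂ (cuspFunction (p : ℝ) (zeroConj f j)) 0 :=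
  analyticAt_cuspFunction_zero (by exact_mod_cast Nat.pos_of_ne_zero (NeZero.ne p))
    (periodic_zeroConj f j) ((mdifferentiable_slashS f).slash k _)
    (bdd_slash_T_zpow (bdd_slashS f) _)

theorem coeff_qExpansion_of_hasSum {h : ℝ} (hh : 0 < h) {F : ℍ → ℂ} {c : ℕ → ℂ}
    (hper : Periodic (F ∘ ofComplex) h) (hhol : MDiff F) (hbdd : IsBoundedAtImInfty F)
    (hc : ∀ τ : ℍ, HasSum (fun m ↦ c m • Periodic.qParam h (τ : ℂ) ^ m) (F τ)) (n : ℕ) :
    (qExpansion h F).coeff n = c n := by
  have han := analyticAt_cuspFunction_zero hh hper hhol hbdd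
  have h1 := (hasFPowerSeriesOnBall_cuspFunction hh han hc).hasFPowerSeriesAt
  have h2 := (hasFPowerSeriesOnBall_cuspFunction hh han
    (fun τ => hasSum_qExpansion hh hper hhol hbdd τ)).hasFPowerSeriesAt
  simpa using congr_arg (FormalMultilinearSeries.coeff · n) (h2.eq_formalMultilinearSeries h1)

theorem qB_eq_qExpansion_slashS [NeZero p] (f : MF p k) (n : ℕ) :
    PowerSeries.coeff n (qB f) = (qExpansion (p : ℝ) (slashS f)).coeff n := by
  have hp0 : p ≠ 0 := NeZero.ne p
  have hpr : (p : ℝ) ≠ 0 := by exact_mod_cast hp0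
  rw [qB]
  refine qExpansion_coeff_eq_of_hasSum (c := fun m => (qExpansion (p : ℝ) (slashS f)).coeff m)
    (periodic_atZero f) (mdifferentiable_atZero f) (bdd_atZero f) (fun τ => ?_) n
  have h := UpperHalfPlane.hasSum_qExpansion (h := (p : ℝ)) (by positivity) (periodic_slashS f)
    (mdifferentiable_slashS f) (bdd_slashS f) (scaleGL p • τ)
  rw [atZero]
  refine h.congr_fun fun m => ?_
  rw [coe_scaleGL_smul hp0]
  simp only [Periodic.qParam, Complex.ofReal_one, Complex.ofReal_natCast]
  congr 3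
  have hpc : (p : ℂ) ≠ 0 := by exact_mod_cast hp0
  field_simp

/-- The expansion of a conjugate is that at `0` with coefficients twisted by roots of unity. -/
theorem qExpansion_zeroConj [NeZero p] (f : MF p k) (j n : ℕ) :
    (qExpansion (p : ℝ) (zeroConj f j)).coeff n =
      (Periodic.qParam (p : ℝ) (j : ℂ)) ^ n * PowerSeries.coeff n (qB f) := by
  have hpr : (0 : ℝ) < p := by exact_mod_cast Nat.pos_of_ne_zero (NeZero.ne p)
  refine coeff_qExpansion_of_hasSum (c := fun m =>
    (Periodic.qParam (p : ℝ) (j : ℂ)) ^ m * PowerSeries.coeff m (qB f)) hpr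
    (periodic_zeroConj f j) ((mdifferentiable_slashS f).slash k _)
    (bdd_slash_T_zpow (bdd_slashS f) _) (fun τ => ?_) n
  have h := UpperHalfPlane.hasSum_qExpansion (h := (p : ℝ)) hpr (periodic_slashS f)
    (mdifferentiable_slashS f) (bdd_slashS f) ((((j : ℤ) : ℝ)) +ᵥ τ)
  rw [zeroConj_apply]
  refine h.congr_fun fun m => ?_
  rw [qB_eq_qExpansion_slashS, smul_eq_mul, smul_eq_mul, UpperHalfPlane.coe_vadd]
  simp only [Periodic.qParam, Complex.ofReal_natCast, Complex.ofReal_intCast, Int.cast_natCast]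
  rw [mul_add, add_div, Complex.exp_add, mul_pow]
  ring

theorem isIntegral_qParam_natCast [NeZero p] (j : ℕ) :
    IsIntegral ℤ (Periodic.qParam (p : ℝ) (j : ℂ)) := by
  refine IsIntegral.of_pow (Nat.pos_of_ne_zero (NeZero.ne p)) ?_
  rw [qParam_natCast_pow]
  exact isIntegral_one
where
  qParam_natCast_pow : Periodic.qParam (p : ℝ) (j : ℂ) ^ p = 1 := by
    have hpc : (p : ℂ) ≠ 0 := by exact_mod_cast NeZero.ne p
    rw [Periodic.qParam, ← Complex.exp_nat_mul, Complex.exp_eq_one_iff]
    refine ⟨j, ?_⟩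
    push_cast
    field_simp

theorem red_zeroConj [NeZero p] (f : MF p k) {B : PowerSeries ℂ} (hB : B ∈ intSeries)
    (hf : qB f - PowerSeries.expand p (NeZero.ne p) B ∈ coeffsIn twoInt) (j : ℕ) :
    qExpansion (p : ℝ) (zeroConj f j) - PowerSeries.expand p (NeZero.ne p) B ∈ coeffsIn twoInt := by
  intro n
  have h := hf n
  rw [map_sub] at h
  rw [map_sub, qExpansion_zeroConj, PowerSeries.coeff_expand]
  rw [PowerSeries.coeff_expand] at h
  have hz : IsIntegral ℤ (Periodic.qParam (p : ℝ) (j : ℂ) ^ n) := (isIntegral_qParam_natCast j).pow n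
  by_cases hd : p ∣ n
  · obtain ⟨m, rfl⟩ := hd
    have h1 : Periodic.qParam (p : ℝ) (j : ℂ) ^ (p * m) = 1 := by
      rw [pow_mul, isIntegral_qParam_natCast.qParam_natCast_pow, one_pow]
    rw [h1, one_mul]
    exact h
  · rw [if_neg hd, sub_zero] at h ⊢
    exact integral_mul_mem_twoInt hz h

theorem natCard_cosets [NeZero p] :
    Nat.card ((𝒮ℒ : Subgroup (GL (Fin 2) ℝ)) ⧸
      ((Gamma0 p : Subgroup (GL (Fin 2) ℝ)).subgroupOf 𝒮ℒ)) = p + 1 := by
  rw [← Nat.card_eq_of_bijective _ (cosetPt_bijective (p := p)), Nat.card_eq_fintype_card,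
    Fintype.card_option, Fintype.card_fin]

theorem coe_normOne [NeZero p] (f : MF p k) :
    ⇑(normOne f) = ⇑f * ∏ j ∈ Finset.range p, zeroConj f j := by
  classical
  rw [normOne, ModularForm.coe_norm]
  letI := Fintype.ofFinite
    ((𝒮ℒ : Subgroup (GL (Fin 2) ℝ)) ⧸ ((Gamma0 p : Subgroup (GL (Fin 2) ℝ)).subgroupOf 𝒮ℒ))
  have hterm : ∀ i, SlashInvariantForm.quotientFunc f (cosetPt p i) = (⇑f) ∣[k] cosetElt p i := by
    intro i
    refine (SlashInvariantForm.quotientFunc_mk f _).trans ?_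
    simp [ModularForm.SL_slash, map_inv]
    rfl
  rw [show (∏ q, SlashInvariantForm.quotientFunc f q) =
      ∏ i, SlashInvariantForm.quotientFunc f (cosetPt p i) from
      (Fintype.prod_bijective (cosetPt p) cosetPt_bijective _ _ fun _ => rfl).symm]
  rw [Fintype.prod_option, hterm, show cosetElt p none = 1 from rfl, SlashAction.slash_one,
    Finset.prod_range]
  congr 1
  refine Finset.prod_congr rfl fun j _ => ?_
  rw [hterm, cosetElt, SlashAction.slash_mul]
  rfl

/-- The obstruction: no form of weight below twelve is congruent to `b q + ⋯`, `b` odd, modulo two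
at both cusps. -/
theorem false_of_red_two [NeZero p] (hk : k < 12) (f : MF p k) {B : PowerSeries ℂ}
    (hB : B ∈ intSeries) (hB0 : PowerSeries.coeff 0 B = 0) {b : ℤ} (hb : ¬ 2 ∣ b)
    (hB1 : PowerSeries.coeff 1 B = (b : ℂ))
    (hA : qA f - B ∈ coeffsIn twoInt)
    (hZ : qB f - PowerSeries.expand p (NeZero.ne p) B ∈ coeffsIn twoInt) : False := by
  classical
  set N := p + 1 with hN
  have hpr : (0 : ℝ) < p := by exact_mod_cast Nat.pos_of_ne_zero (NeZero.ne p)
  have hper1 : Periodic ((f : ℍ → ℂ) ∘ ofComplex) 1 := by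
    exact_mod_cast SlashInvariantFormClass.periodic_comp_ofComplex f (one_mem_strictPeriods_Gamma0 p)
  have hperp : Periodic ((f : ℍ → ℂ) ∘ ofComplex) (p : ℝ) := by simpa using hper1.nat_mul p
  have hanf : AnalyticAt ℂ (cuspFunction (p : ℝ) (f : ℍ → ℂ)) 0 :=
    analyticAt_cuspFunction_zero hpr hperp f.holo' (ModularFormClass.bdd_at_infty f)
  -- expansions of width `p`
  have hexp : ∀ {F : ℍ → ℂ}, Periodic (F ∘ ofComplex) 1 → MDiff F → IsBoundedAtImInfty F →
      qExpansion (p : ℝ) F = PowerSeries.expand p (NeZero.ne p) (qExpansion 1 F) := by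
    intro F h1 h2 h3
    ext n
    have h := UpperHalfPlane.qExpansion_coeff_nat_mul one_pos (by exact_mod_cast h1) h2 h3
      (Nat.pos_of_ne_zero (NeZero.ne p)) n
    rw [mul_one] at h
    rw [h, PowerSeries.coeff_expand]
  let F : Option ℕ → ℍ → ℂ := fun i => i.elim (f : ℍ → ℂ) (zeroConj f)
  let s : Finset (Option ℕ) := Finset.insertNone (Finset.range p)
  have hcoe : ⇑(normOne f) = ∏ i ∈ s, F i := by
    rw [coe_normOne, Finset.prod_insertNone]
    rfl
  have hprod : qExpansion (p : ℝ) (normOne f : ℍ → ℂ) = ∏ i ∈ s, qExpansion (p : ℝ) (F i) := by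
    rw [hcoe]
    refine UpperHalfPlane.qExpansion_prod s fun i hi => ?_
    cases i with
    | none => exact hanf
    | some j => exact analyticAt_zeroConj f j
  have hred : qExpansion (p : ℝ) (normOne f : ℍ → ℂ) -
      PowerSeries.expand p (NeZero.ne p) (B ^ N) ∈ coeffsIn twoInt := by
    rw [hprod, map_pow]
    have hcard : s.card = N := by simp [s, hN]
    rw [← hcard, ← Finset.prod_const]
    refine red_prod s (fun i hi => ?_) fun i _ => expand_mem_intSeries hB
    cases i with
    | none =>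
      show qExpansion (p : ℝ) (f : ℍ → ℂ) - _ ∈ _
      rw [hexp hper1 f.holo' (ModularFormClass.bdd_at_infty f), ← map_sub]
      intro n
      rw [PowerSeries.coeff_expand]
      split_ifs
      · exact hA _
      · exact zero_mem _
    | some j => exact red_zeroConj f hB hZ j
  have hperN : Periodic ((normOne f : ℍ → ℂ) ∘ ofComplex) 1 := by
    exact_mod_cast
      SlashInvariantFormClass.periodic_comp_ofComplex (normOne f) one_mem_strictPeriods_SL
  rw [hexp hperN (normOne f).holo' (ModularFormClass.bdd_at_infty (normOne f)),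
    ← map_sub] at hred
  have hred1 : qExpansion 1 (normOne f : ℍ → ℂ) - B ^ N ∈ coeffsIn twoInt := fun n => by
    have h := hred (p * n)
    rwa [PowerSeries.coeff_expand_mul] at h
  obtain ⟨B', hB'⟩ : PowerSeries.X ∣ B :=
    PowerSeries.X_dvd_iff.mpr (by rwa [← PowerSeries.coeff_zero_eq_constantCoeff_apply])
  have hcoef : ∀ n, PowerSeries.coeff n (B ^ N) =
      if n < N then 0 else PowerSeries.coeff (n - N) (B' ^ N) := by
    intro n
    rw [hB', mul_pow, PowerSeries.coeff_X_pow_mul']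
    split_ifs <;> first | rfl | omega
  have hcN : PowerSeries.coeff N (B ^ N) = ((b ^ N : ℤ) : ℂ) := by
    rw [hcoef, if_neg (lt_irrefl _), Nat.sub_self, PowerSeries.coeff_zero_eq_constantCoeff_apply,
      map_pow, Int.cast_pow]
    congr 1
    rw [← hB1, hB', PowerSeries.coeff_succ_X_mul, PowerSeries.coeff_zero_eq_constantCoeff_apply]
  have hsturm := qExpansion_mem_coeffsIn_of_sturm twoInt (normOne f) (fun n hn => by
    have h := hred1 n
    rw [map_sub, hcoef, if_pos, sub_zero] at h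
    · exact h
    · rw [natCard_cosets] at hn
      have : k * ((p + 1 : ℕ) : ℤ) < 12 * ((p + 1 : ℕ) : ℤ) :=
        mul_lt_mul_of_pos_right hk (by positivity)
      omega)
  have hbad : ((b ^ N : ℤ) : ℂ) ∈ twoInt := by
    have h1 := hsturm N
    have h2 := twoInt.sub_mem h1 (hred1 N)
    rwa [map_sub, sub_sub_cancel, hcN] at h2
  exact hb (Int.prime_two.dvd_of_dvd_pow (intCast_mem_twoInt_iff.mp hbad))

end FLTA.Eisenstein
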