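import Fermat.Agent.Eisenstein.UpperBasic
import Fermat.Agent.Eisenstein.CaseThree
import Fermat.Agent.Eisenstein.NormSturm

/-!
The case `2 ∣ m`, `p ≡ 7 (mod 8)`: a norm to level one with too high an order modulo two.

With `G = (p / 2) g`, constant `x` (odd, the same at both cusps modulo `8`), the weight eight form
`h = 27 G⁴ - 18 x² E₄ G² - 8 x³ E₆ G - x⁴ E₄²` is `256` times a series `≡ q + ⋯ (mod 2)` at both
cusps.
-/

set_option autoImplicit false

noncomputable section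

open UpperHalfPlane EisensteinSeries ModularForm CongruenceSubgroup
open scoped MatrixGroups ArithmeticFunction.sigma

namespace FLTA.Eisenstein

theorem four_dvd_sigma_three_sub_five (k : ℕ) : (4 : ℤ) ∣ ((σ 3 k : ℕ) : ℤ) - ((σ 5 k : ℕ) : ℤ) := by
  rw [ArithmeticFunction.sigma_apply, ArithmeticFunction.sigma_apply, Nat.cast_sum, Nat.cast_sum,
    ← Finset.sum_sub_distrib]
  refine Finset.dvd_sum fun d _ => ?_
  push_cast
  have key : ∀ r : ZMod 4, r ^ 3 - r ^ 5 = 0 := by decide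
  have h := key ((d : ℤ) : ZMod 4)
  rwa [← Int.cast_pow, ← Int.cast_pow, ← Int.cast_sub, ZMod.intCast_zmod_eq_zero_iff_dvd] at h

/-- The quartic in a series `≡ x (mod 8)` is `256` times a series known modulo two. -/
theorem quartic_identity (x : ℤ) (u a c : PowerSeries ℤ) :
    27 * (PowerSeries.C x + 8 * u) ^ 4
      - 18 * PowerSeries.C x ^ 2 * ((1 + 240 * a) * (PowerSeries.C x + 8 * u) ^ 2)
      - 8 * PowerSeries.C x ^ 3 * ((1 - 504 * (a - 4 * c)) * (PowerSeries.C x + 8 * u))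
      - PowerSeries.C x ^ 4 * (1 + 240 * a) ^ 2 =
    256 * (PowerSeries.C x ^ 4 * (-3 * a - 63 * c - 225 * a ^ 2) +
      2 * (PowerSeries.C x ^ 3 * u + 18 * PowerSeries.C x ^ 2 * u ^ 2
        + 108 * PowerSeries.C x * u ^ 3 + 216 * u ^ 4
        - 135 * PowerSeries.C x ^ 3 * (a * u) - 540 * PowerSeries.C x ^ 2 * (a * u ^ 2)
        + 63 * PowerSeries.C x ^ 3 * ((a - 4 * c) * u))) := by
  ring

theorem toC_two_mul_mem (R : PowerSeries ℤ) : toC (2 * R) ∈ coeffsIn twoInt := by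
  intro n
  rw [coeff_toC, intCast_mem_twoInt_iff, ← map_ofNat (PowerSeries.C (R := ℤ)) 2,
    PowerSeries.coeff_C_mul]
  exact dvd_mul_right 2 _

variable {p : ℕ} [hp : Fact p.Prime] [NeZero p]

/-- The weight eight form. -/
def quarticForm (x : ℂ) (G : MF p 2) : MF p 8 :=
  (27 : ℂ) • (((G.mul G).mul (G.mul G)).mcast (by norm_num))
    - (18 * x ^ 2) • (((restr E₄).mul (G.mul G)).mcast (by norm_num))
    - (8 * x ^ 3) • (((restr E₆).mul G).mcast (by norm_num))
    - x ^ 4 • (((restr E₄).mul (restr E₄)).mcast (by norm_num))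

theorem qA_quarticForm (x : ℂ) (G : MF p 2) :
    qA (quarticForm x G) =
      (27 : ℂ) • (qA G * qA G * (qA G * qA G))
        - (18 * x ^ 2) • (qExpansion 1 (E₄ : ℍ → ℂ) * (qA G * qA G))
        - (8 * x ^ 3) • (qExpansion 1 (E₆ : ℍ → ℂ) * qA G)
        - x ^ 4 • (qExpansion 1 (E₄ : ℍ → ℂ) * qExpansion 1 (E₄ : ℍ → ℂ)) := by
  simp only [quarticForm, qA_sub, qA_smul, qA_mcast, qA_mul, qA_restr]

theorem qB_quarticForm (x : ℂ) (G : MF p 2) :
    qB (quarticForm x G) =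
      (27 : ℂ) • (qB G * qB G * (qB G * qB G))
        - (18 * x ^ 2) • (PowerSeries.expand p (NeZero.ne p) (qExpansion 1 (E₄ : ℍ → ℂ)) * (qB G * qB G))
        - (8 * x ^ 3) • (PowerSeries.expand p (NeZero.ne p) (qExpansion 1 (E₆ : ℍ → ℂ)) * qB G)
        - x ^ 4 • (PowerSeries.expand p (NeZero.ne p) (qExpansion 1 (E₄ : ℍ → ℂ)) *
            PowerSeries.expand p (NeZero.ne p) (qExpansion 1 (E₄ : ℍ → ℂ))) := by
  simp only [quarticForm, qB_sub, qB_smul, qB_mcast, qB_mul, qB_restr]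

omit hp [NeZero p] in
/-- Evaluation of the scaled quartic on integral data. -/
theorem quartic_toC (x : ℤ) (u a c : PowerSeries ℤ) :
    ((256 : ℂ)⁻¹) •
      ((27 : ℂ) • (toC (PowerSeries.C x + 8 * u) * toC (PowerSeries.C x + 8 * u) *
          (toC (PowerSeries.C x + 8 * u) * toC (PowerSeries.C x + 8 * u)))
        - (18 * (x : ℂ) ^ 2) • (toC (1 + 240 * a) *
            (toC (PowerSeries.C x + 8 * u) * toC (PowerSeries.C x + 8 * u)))
        - (8 * (x : ℂ) ^ 3) • (toC (1 - 504 * (a - 4 * c)) * toC (PowerSeries.C x + 8 * u))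
        - (x : ℂ) ^ 4 • (toC (1 + 240 * a) * toC (1 + 240 * a)))
      - toC (PowerSeries.C x ^ 4 * (-3 * a - 63 * c - 225 * a ^ 2)) ∈ coeffsIn twoInt := by
  have h := congrArg toC (quartic_identity x u a c)
  have hx : toC (PowerSeries.C x) = PowerSeries.C (x : ℂ) := by simp [toC]
  simp only [map_sub, map_add, map_mul, map_pow, map_ofNat, hx] at h
  have hmem := toC_two_mul_mem (PowerSeries.C x ^ 3 * u + 18 * PowerSeries.C x ^ 2 * u ^ 2
        + 108 * PowerSeries.C x * u ^ 3 + 216 * u ^ 4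
        - 135 * PowerSeries.C x ^ 3 * (a * u) - 540 * PowerSeries.C x ^ 2 * (a * u ^ 2)
        + 63 * PowerSeries.C x ^ 3 * ((a - 4 * c) * u))
  convert hmem using 1
  simp only [PowerSeries.smul_eq_C_mul, map_mul, map_pow, map_sub, map_add, map_ofNat, map_one,
    map_neg, hx] at h ⊢
  have h256 : PowerSeries.C ((256 : ℂ)⁻¹) * (256 : PowerSeries ℂ) = 1 := by
    rw [← map_ofNat (PowerSeries.C (R := ℂ)) 256, ← map_mul, inv_mul_cancel₀ (by norm_num), map_one]
  linear_combination (PowerSeries.C ((256 : ℂ)⁻¹)) * h +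
    ((PowerSeries.C (x : ℂ)) ^ 4 * (-3 * toC a - 63 * toC c - 225 * toC a ^ 2) +
      2 * (PowerSeries.C (x : ℂ) ^ 3 * toC u + 18 * PowerSeries.C (x : ℂ) ^ 2 * toC u ^ 2
        + 108 * PowerSeries.C (x : ℂ) * toC u ^ 3 + 216 * toC u ^ 4
        - 135 * PowerSeries.C (x : ℂ) ^ 3 * (toC a * toC u)
        - 540 * PowerSeries.C (x : ℂ) ^ 2 * (toC a * toC u ^ 2)
        + 63 * PowerSeries.C (x : ℂ) ^ 3 * ((toC a - 4 * toC c) * toC u))) * h256

/-- No congruence modulo two when `p ≡ 7 (mod 8)`. -/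
theorem CongrWitness.not_two_dvd_of_seven {m : ℕ} (W : CongrWitness p m) (h8 : p % 8 = 7) :
    ¬ 2 ∣ m := by
  intro h2
  obtain ⟨m', hm'⟩ := h2
  have hp0 : (p : ℂ) ≠ 0 := by exact_mod_cast NeZero.ne p
  obtain ⟨e, he⟩ : ∃ e : ℤ, (p : ℤ) = 8 * e + 7 := ⟨((p / 8 : ℕ) : ℤ), by omega⟩
  set x₀ : ℤ := 4 * e + 3 with hx₀
  set x : ℤ := (p : ℤ) * x₀ with hx
  set u : PowerSeries ℤ := PowerSeries.mk fun k => if k = 0 then 0 else 3 * (m' : ℤ) * W.r k with hu
  -- `g = 2 x₀ + 16 u`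
  have hg : W.gZ = PowerSeries.C (2 * x₀) + 16 * u := by
    ext k
    rw [map_add, ← map_ofNat (PowerSeries.C (R := ℤ)) 16, PowerSeries.coeff_C_mul,
      CongrWitness.gZ, hu, PowerSeries.coeff_mk, PowerSeries.coeff_mk, PowerSeries.coeff_C]
    rcases eq_or_ne k 0 with rfl | hk
    · simp [hx₀]; linarith
    · simp [hk, hm']; ring
  set uA : PowerSeries ℤ := PowerSeries.C (p : ℤ) * u with huA
  set uB : PowerSeries ℤ := - PowerSeries.C (x₀ * (e + 1)) - uInt p u with huB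
  have hUg : uInt p W.gZ = PowerSeries.C (2 * x₀) + 16 * uInt p u := by
    rw [hg]
    ext k
    rw [coeff_uInt, map_add, map_add, ← map_ofNat (PowerSeries.C (R := ℤ)) 16,
      PowerSeries.coeff_C_mul, PowerSeries.coeff_C_mul, coeff_uInt, PowerSeries.coeff_C,
      PowerSeries.coeff_C]
    simp [hp.out.ne_zero]
  set G : MF p 2 := ((p : ℂ) / 2) • W.g with hG
  have hGA : qA G = toC (PowerSeries.C x + 8 * uA) := by
    rw [hG, qA_smul, W.qA_g, hg, huA, hx, PowerSeries.smul_eq_C_mul]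
    simp only [map_add, map_mul, map_ofNat, toC, PowerSeries.map_C, eq_intCast (Int.castRingHom ℂ),
      Int.cast_natCast, Int.cast_mul]
    have h2 : PowerSeries.C ((p : ℂ) / 2) * (2 : PowerSeries ℂ) = PowerSeries.C (p : ℂ) := by
      rw [← map_ofNat (PowerSeries.C (R := ℂ)) 2, ← map_mul, div_mul_cancel₀ _ two_ne_zero]
    linear_combination (PowerSeries.C ((x₀ : ℤ) : ℂ) + 8 * (PowerSeries.map (Int.castRingHom ℂ)) u) * h2
  have hGB : qB G = toC (PowerSeries.C x + 8 * uB) := by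
    have key : PowerSeries.C x + 8 * uB = -(PowerSeries.C x₀ + 8 * uInt p u) := by
      rw [huB, hx, he]
      simp only [map_mul, map_add, map_ofNat, map_one]
      ring
    rw [hG, qB_smul, W.qB_g, smul_smul, hUg, key, PowerSeries.smul_eq_C_mul,
      show (p : ℂ) / 2 * -(p : ℂ)⁻¹ = -((2 : ℂ)⁻¹) by field_simp]
    simp only [map_add, map_neg, map_mul, map_ofNat, toC, PowerSeries.map_C,
      eq_intCast (Int.castRingHom ℂ)]
    have h2 : PowerSeries.C ((2 : ℂ)⁻¹) * (2 : PowerSeries ℂ) = 1 := by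
      rw [← map_ofNat (PowerSeries.C (R := ℂ)) 2, ← map_mul, inv_mul_cancel₀ two_ne_zero, map_one]
    linear_combination -((PowerSeries.C ((x₀ : ℤ) : ℂ)) +
      8 * (PowerSeries.map (Int.castRingHom ℂ)) (uInt p u)) * h2
  set a : PowerSeries ℤ := sigmaPow 3 with ha
  set c : PowerSeries ℤ :=
    PowerSeries.mk fun k => (((σ 3 k : ℕ) : ℤ) - ((σ 5 k : ℕ) : ℤ)) / 4 with hc
  have hb : sigmaPow 5 = a - 4 * c := by
    ext k
    rw [map_sub, ← map_ofNat (PowerSeries.C (R := ℤ)) 4, PowerSeries.coeff_C_mul, ha, hc, sigmaPow,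
      sigmaPow, PowerSeries.coeff_mk, PowerSeries.coeff_mk, PowerSeries.coeff_mk,
      Int.mul_ediv_cancel' (four_dvd_sigma_three_sub_five k)]
    ring
  have hE4 : qExpansion 1 (E₄ : ℍ → ℂ) = toC (1 + 240 * a) := by
    rw [qExpansion_E4_eq, map_ofNat (PowerSeries.C (R := ℤ)) 240]
  have hE6 : qExpansion 1 (E₆ : ℍ → ℂ) = toC (1 - 504 * (a - 4 * c)) := by
    rw [qExpansion_E6_eq, map_ofNat (PowerSeries.C (R := ℤ)) 504, hb]
  set B : PowerSeries ℤ := PowerSeries.C x ^ 4 * (-3 * a - 63 * c - 225 * a ^ 2) with hB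
  set V := PowerSeries.expand p (NeZero.ne p) (R := ℤ) with hV
  have hexp : ∀ A : PowerSeries ℤ,
      PowerSeries.expand p (NeZero.ne p) (toC A) = toC (V A) := fun A => by
    rw [hV]; exact (PowerSeries.map_expand p (NeZero.ne p) _ A).symm
  set f : MF p 8 := ((256 : ℂ)⁻¹) • quarticForm (x : ℂ) G with hf
  have hfA : qA f - toC B ∈ coeffsIn twoInt := by
    rw [hf, qA_smul, qA_quarticForm, hGA, hE4, hE6]
    exact quartic_toC x uA a c
  have hfB : qB f - PowerSeries.expand p (NeZero.ne p) (toC B) ∈ coeffsIn twoInt := by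
    have hVC : V (PowerSeries.C x) = PowerSeries.C x := by rw [hV, PowerSeries.expand_C]
    rw [hf, qB_smul, qB_quarticForm, hGB, hE4, hE6, hexp, hexp, hexp, hB]
    simp only [map_mul, map_sub, map_add, map_pow, map_neg, map_ofNat, map_one, hVC]
    have h := quartic_toC x uB (V a) (V c)
    simp only [map_mul, map_sub, map_add, map_pow, map_neg, map_ofNat, map_one] at h
    exact h
  have ha0 : PowerSeries.coeff 0 a = 0 := by simp [ha, sigmaPow, PowerSeries.coeff_mk]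
  have ha1 : PowerSeries.coeff 1 a = 1 := by simp [ha, sigmaPow, PowerSeries.coeff_mk]
  have hc0 : PowerSeries.coeff 0 c = 0 := by simp [hc, PowerSeries.coeff_mk]
  have hc1 : PowerSeries.coeff 1 c = 0 := by simp [hc, PowerSeries.coeff_mk]
  have hCpow : PowerSeries.C x ^ 4 = PowerSeries.C (x ^ 4) := (map_pow _ _ _).symm
  have hB0 : PowerSeries.coeff 0 B = 0 := by
    rw [hB, hCpow, PowerSeries.coeff_C_mul]
    simp only [PowerSeries.coeff_zero_eq_constantCoeff] at ha0 hc0 ⊢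
    simp [ha0, hc0]
  have ha2 : PowerSeries.coeff 1 (a ^ 2) = 0 := by
    simp [pow_two, PowerSeries.coeff_mul, Finset.Nat.antidiagonal_succ, ha0]
  have hB1 : PowerSeries.coeff 1 B = -3 * x ^ 4 := by
    rw [hB, hCpow, PowerSeries.coeff_C_mul,
      show -3 * a - 63 * c - 225 * a ^ 2 = PowerSeries.C (-3) * a - PowerSeries.C 63 * c -
        PowerSeries.C 225 * a ^ 2 by simp only [map_neg, map_ofNat],
      map_sub, map_sub, PowerSeries.coeff_C_mul, PowerSeries.coeff_C_mul, PowerSeries.coeff_C_mul,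
      ha1, hc1, ha2]
    ring
  refine false_of_red_two (by norm_num) f (map_mem_intSeries B) ?_ (b := -3 * x ^ 4) ?_ ?_ hfA hfB
  · rw [coeff_toC, hB0, Int.cast_zero]
  · intro hd
    rcases Int.prime_two.dvd_mul.mp hd with h | h
    · norm_num at h
    · have hxx := Int.prime_two.dvd_of_dvd_pow h
      rcases Int.prime_two.dvd_mul.mp (hx ▸ hxx) with h' | h' <;> omega
  · rw [coeff_toC, hB1]

end FLTA.Eisenstein
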