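import Fermat.Agent.Eisenstein.UpperBasic
import Fermat.Agent.Eisenstein.Sigma2
import Fermat.Agent.Eisenstein.CaseMain

/-!
The case `2 ∣ m`, `p ≡ 3, 5 (mod 8)`: the trace of `f ^ 2` vanishes.
-/

set_option autoImplicit false

noncomputable section

open UpperHalfPlane EisensteinSeries ModularForm
open scoped MatrixGroups ArithmeticFunction.sigma

namespace FLTA.Eisenstein

/-- The series `∑ σ'(k) q^k`. -/
def sigmaSeries (p : ℕ) : PowerSeries ℤ := PowerSeries.mk fun k => (sigmaPrime p k : ℤ)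

theorem eisZ_eq (p : ℕ) :
    eisZ p = PowerSeries.C ((p : ℤ) - 1) + PowerSeries.C 24 * sigmaSeries p := by
  ext k
  rw [eisZ, map_add, PowerSeries.coeff_C_mul, sigmaSeries, PowerSeries.coeff_mk,
    PowerSeries.coeff_mk, PowerSeries.coeff_C]
  rcases eq_or_ne k 0 with rfl | hk
  · simp
  · simp [hk]

variable {p : ℕ} [hp : Fact p.Prime] [NeZero p]

theorem uInt_eisZ : uInt p (eisZ p) = eisZ p := by
  ext k
  rw [coeff_uInt, eisZ, PowerSeries.coeff_mk, PowerSeries.coeff_mk]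
  rcases eq_or_ne k 0 with rfl | hk
  · simp
  · rw [if_neg (mul_ne_zero hk hp.out.ne_zero), if_neg hk, sigmaPrime_mul_prime hp.out]

theorem twelve_mul_sum : (12 : ℤ) * PowerSeries.coeff p (sigmaSeries p * sigmaSeries p) =
    ((p : ℤ) ^ 2 - 1) * (5 * ((p : ℤ) - 1) - 1) := by
  have hp0 : (p : ℂ) ≠ 0 := by exact_mod_cast NeZero.ne p
  have hA : qA ((eisTwo p).mul (eisTwo p)) = toC (eisZ p * eisZ p) := by
    rw [qA_mul, qA_eisTwo_eq, map_mul]
  have hB : qB ((eisTwo p).mul (eisTwo p)) =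
      ((p : ℂ)⁻¹ * (p : ℂ)⁻¹) • toC (eisZ p * eisZ p) := by
    rw [qB_mul, qB_eisTwo, qA_eisTwo_eq, smul_mul_smul_comm, map_mul]
    congr 1
    ring
  have hq := qExpansion_trOne_int ((eisTwo p).mul (eisTwo p)) _ _ _ hA hB
  set Z : PowerSeries ℤ := PowerSeries.C (p : ℤ) * (eisZ p * eisZ p) + uInt p (eisZ p * eisZ p)
    with hZ
  have hS : toC Z = (p : ℂ) • qExpansion 1 (trOne ((eisTwo p).mul (eisTwo p)) : ℍ → ℂ) := by
    rw [hq, hZ, map_add, map_mul, PowerSeries.map_C, smul_add, smul_smul,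
      show (p : ℂ) * ((p : ℂ) * ((p : ℂ)⁻¹ * (p : ℂ)⁻¹)) = 1 by field_simp, one_smul,
      PowerSeries.smul_eq_C_mul]
    simp
  obtain ⟨M, hM1, hM0⟩ : ∃ M : ModularForm 𝒮ℒ (2 + 2),
      (qExpansion 1 (M : ℍ → ℂ)).coeff 1 = 240 ∧ (qExpansion 1 (M : ℍ → ℂ)).coeff 0 = 1 := by
    refine ⟨ModularForm.mcast (by norm_num) E₄, ?_, ?_⟩
    · rw [ModularForm.qExpansion_mcast, E₄_qExpansion_coeff_one]
    · rw [ModularForm.qExpansion_mcast, E_qExpansion_coeff_zero _ ⟨2, rfl⟩]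
  have h := levelOne_coeff_eq (by norm_num) (trOne ((eisTwo p).mul (eisTwo p))) M hM0 1
  rw [hM1] at h
  have h1' := congrArg (PowerSeries.coeff 1) hS
  have h0' := congrArg (PowerSeries.coeff 0) hS
  rw [coeff_toC, PowerSeries.coeff_smul, smul_eq_mul] at h1' h0'
  have hZeq : PowerSeries.coeff 1 Z = PowerSeries.coeff 0 Z * 240 := by
    have : ((PowerSeries.coeff 1 Z : ℤ) : ℂ) = ((PowerSeries.coeff 0 Z : ℤ) : ℂ) * 240 := by
      rw [h1', h0', h]; ring
    exact_mod_cast this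
  have e0 : PowerSeries.coeff 0 (eisZ p) = (p : ℤ) - 1 := by simp [eisZ, PowerSeries.coeff_mk]
  have c0 : PowerSeries.coeff 0 Z = ((p : ℤ) + 1) * ((p : ℤ) - 1) ^ 2 := by
    rw [hZ, map_add, PowerSeries.coeff_C_mul, coeff_uInt, zero_mul]
    simp only [PowerSeries.coeff_zero_eq_constantCoeff] at e0 ⊢
    rw [map_mul, e0]
    ring
  have hexp : ∀ n, n ≠ 0 → PowerSeries.coeff n (eisZ p * eisZ p) =
      48 * ((p : ℤ) - 1) * (sigmaPrime p n : ℤ) +
        576 * PowerSeries.coeff n (sigmaSeries p * sigmaSeries p) := fun n hn => by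
    rw [eisZ_eq, show (PowerSeries.C ((p : ℤ) - 1) + PowerSeries.C 24 * sigmaSeries p) *
        (PowerSeries.C ((p : ℤ) - 1) + PowerSeries.C 24 * sigmaSeries p) =
        PowerSeries.C (((p : ℤ) - 1) * ((p : ℤ) - 1)) +
          PowerSeries.C (48 * ((p : ℤ) - 1)) * sigmaSeries p +
          PowerSeries.C 576 * (sigmaSeries p * sigmaSeries p) by
      simp only [map_mul, map_ofNat]; ring]
    rw [map_add, map_add, PowerSeries.coeff_C_mul, PowerSeries.coeff_C_mul, PowerSeries.coeff_C,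
      if_neg hn, zero_add]
    nth_rw 1 [sigmaSeries]
    rw [PowerSeries.coeff_mk]
  have s1 : PowerSeries.coeff 1 (sigmaSeries p * sigmaSeries p) = 0 := by
    simp [PowerSeries.coeff_mul, Finset.Nat.antidiagonal_succ, sigmaSeries]
  rw [c0, hZ, map_add, PowerSeries.coeff_C_mul, coeff_uInt, one_mul, hexp 1 one_ne_zero,
    hexp p hp.out.ne_zero, s1, sigmaPrime_one hp.out.ne_one, sigmaPrime_self hp.out] at hZeq
  push_cast at hZeq
  linarith

theorem CongrWitness.four_dvd_sum {m : ℕ} (W : CongrWitness p m) (h2 : 2 ∣ m) :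
    (4 : ℤ) ∣ PowerSeries.coeff p (sigmaSeries p * sigmaSeries p) := by
  obtain ⟨m', rfl⟩ := h2
  have hp0 : (p : ℂ) ≠ 0 := by exact_mod_cast NeZero.ne p
  set fZ : PowerSeries ℤ := PowerSeries.mk fun k =>
    if k = 0 then 0 else (sigmaPrime p k : ℤ) - ((2 * m' : ℕ) : ℤ) * W.r k with hfZ
  have hf : qA (cuspToMF W.f) = toC fZ := by
    ext k
    rw [coeff_qA_cuspToMF, coeff_toC, hfZ, PowerSeries.coeff_mk]
    rcases eq_or_ne k 0 with rfl | hk
    · have h0 : ModularFormClass.qCoeff W.f 0 = 0 :=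
        CuspFormClass.qExpansion_coeff_zero W.f one_pos
          (CongruenceSubgroup.one_mem_strictPeriods_Gamma0 p)
      rw [h0]; simp
    · rw [if_neg hk, W.coeff_eq k (Nat.pos_of_ne_zero hk)]
      push_cast; ring
  have hA : qA ((cuspToMF W.f).mul (cuspToMF W.f)) = toC (fZ * fZ) := by rw [qA_mul, hf, map_mul]
  have hB : qB ((cuspToMF W.f).mul (cuspToMF W.f)) =
      ((p : ℂ)⁻¹ * (p : ℂ)⁻¹) • toC (uInt p fZ * uInt p fZ) := by
    rw [qB_mul, qB_weight_two, hf, uSeries_toC, smul_mul_smul_comm, map_mul]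
    congr 1
    ring
  have hq := qExpansion_trOne_int ((cuspToMF W.f).mul (cuspToMF W.f)) _ _ _ hA hB
  obtain ⟨M, hM0⟩ : ∃ M : ModularForm 𝒮ℒ (2 + 2), (qExpansion 1 (M : ℍ → ℂ)).coeff 0 = 1 := by
    refine ⟨ModularForm.mcast (by norm_num) E₄, ?_⟩
    rw [ModularForm.qExpansion_mcast, E_qExpansion_coeff_zero _ ⟨2, rfl⟩]
  have h := levelOne_coeff_eq (by norm_num) (trOne ((cuspToMF W.f).mul (cuspToMF W.f))) M hM0 1
  have f00 : PowerSeries.coeff 0 fZ = 0 := by simp [hfZ, PowerSeries.coeff_mk]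
  have u00 : PowerSeries.coeff 0 (uInt p fZ) = 0 := by simpa using f00
  have f1 : PowerSeries.coeff 1 (fZ * fZ) = 0 := by
    simp only [PowerSeries.coeff_mul, Finset.Nat.antidiagonal_succ, Finset.Nat.antidiagonal_zero]
    simp [f00]
  rw [hq] at h
  simp only [map_add, PowerSeries.coeff_smul, smul_eq_mul, coeff_toC, coeff_uInt, one_mul,
    zero_mul, f1] at h
  rw [show PowerSeries.coeff 0 (fZ * fZ) = 0 by simp [PowerSeries.coeff_mul, f00],
    show PowerSeries.coeff 0 (uInt p fZ * uInt p fZ) = 0 by simp [PowerSeries.coeff_mul, f00]] at h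
  have hne : (p : ℂ) * ((p : ℂ)⁻¹ * (p : ℂ)⁻¹) ≠ 0 := by simp [hp0]
  have hUU : PowerSeries.coeff p (uInt p fZ * uInt p fZ) = 0 := by
    simpa [hne] using h
  obtain ⟨D, hD⟩ : ∃ D : PowerSeries ℤ, uInt p fZ = sigmaSeries p + PowerSeries.C 2 * D := by
    refine ⟨PowerSeries.mk fun k => if k = 0 then 0 else -((m' : ℤ) * W.r (k * p)), ?_⟩
    ext k
    rw [coeff_uInt, hfZ, sigmaSeries, map_add, PowerSeries.coeff_C_mul, PowerSeries.coeff_mk,
      PowerSeries.coeff_mk, PowerSeries.coeff_mk]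
    rcases eq_or_ne k 0 with rfl | hk
    · simp
    · rw [if_neg (mul_ne_zero hk hp.out.ne_zero), if_neg hk, sigmaPrime_mul_prime hp.out]
      push_cast; ring
  rw [hD, show (sigmaSeries p + PowerSeries.C 2 * D) * (sigmaSeries p + PowerSeries.C 2 * D) =
      sigmaSeries p * sigmaSeries p + PowerSeries.C 4 * (sigmaSeries p * D + D * D) by
    simp only [map_ofNat]; ring, map_add, PowerSeries.coeff_C_mul] at hUU
  exact ⟨-PowerSeries.coeff p (sigmaSeries p * D + D * D), by linarith⟩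

/-- No congruence modulo two when `p ≡ 3, 5 (mod 8)`. -/
theorem CongrWitness.not_two_dvd_of_three_five {m : ℕ} (W : CongrWitness p m)
    (h8 : p % 8 = 3 ∨ p % 8 = 5) : ¬ 2 ∣ m := by
  intro h2
  obtain ⟨c, hc⟩ := W.four_dvd_sum h2
  have h := twelve_mul_sum (p := p)
  rw [hc] at h
  obtain ⟨j, hj⟩ : ∃ j : ℤ, (p : ℤ) ^ 2 - 1 = 16 * j + 8 := by
    rcases h8 with h8 | h8
    · exact ⟨4 * ((p / 8 : ℕ) : ℤ) ^ 2 + 3 * ((p / 8 : ℕ) : ℤ), by
        rw [show (p : ℤ) = 8 * ((p / 8 : ℕ) : ℤ) + 3 by omega]; push_cast; ring_nf⟩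
    · exact ⟨4 * ((p / 8 : ℕ) : ℤ) ^ 2 + 5 * ((p / 8 : ℕ) : ℤ) + 1, by
        rw [show (p : ℤ) = 8 * ((p / 8 : ℕ) : ℤ) + 5 by omega]; push_cast; ring_nf⟩
  obtain ⟨i, hi⟩ : ∃ i : ℤ, 5 * ((p : ℤ) - 1) - 1 = 2 * i + 1 := by
    have h2' : p % 2 = 1 := by omega
    exact ⟨(5 * ((p : ℤ) - 1) - 2) / 2, by omega⟩
  rw [hj, hi] at h
  ring_nf at h
  omega

end FLTA.Eisenstein
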