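import Fermat.Agent.Eisenstein.Sigma
import Mathlib.NumberTheory.ArithmeticFunction.Misc
import Mathlib.Data.Nat.Factorization.Basic

/-!
# The recursion of the Hecke eigenvalues `σ'(n)`
-/

set_option autoImplicit false

open Nat ArithmeticFunction

namespace FLTA.Eisenstein

theorem sigmaPrime_eq_sigma {p : ℕ} (hp : p.Prime) {n : ℕ} (hn : 0 < n) :
    sigmaPrime p n = ArithmeticFunction.sigma 1 (ordCompl[p] n) := by
  rw [sigma_one_apply, sigmaPrime]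
  congr 1
  ext d
  simp only [Finset.mem_filter, Nat.mem_divisors]
  constructor
  · rintro ⟨⟨hd, -⟩, hpd⟩
    exact ⟨((hp.coprime_iff_not_dvd.mpr hpd).symm.pow_right _).dvd_of_dvd_mul_left
      ((Nat.ordProj_mul_ordCompl_eq_self n p).symm ▸ hd), (Nat.ordCompl_pos p hn.ne').ne'⟩
  · rintro ⟨hd, -⟩
    exact ⟨⟨hd.trans (Nat.ordCompl_dvd n p), hn.ne'⟩,
      fun h => Nat.not_dvd_ordCompl hp hn.ne' (h.trans hd)⟩

theorem sigmaPrime_self_mul {p : ℕ} (hp : p.Prime) {j : ℕ} (hj : 0 < j) :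
    sigmaPrime p (p * j) = sigmaPrime p j := by
  rw [sigmaPrime_eq_sigma hp (Nat.mul_pos hp.pos hj), sigmaPrime_eq_sigma hp hj, Nat.ordCompl_mul,
    show ordCompl[p] p = 1 by simpa using Nat.ordCompl_self_pow (k := 1) hp, one_mul]

theorem sigma_one_prime_mul {ℓ : ℕ} (hℓ : ℓ.Prime) {j : ℕ} (hj : 0 < j) :
    sigma 1 (ℓ * j) + (if ℓ ∣ j then ℓ * sigma 1 (j / ℓ) else 0) = (1 + ℓ) * sigma 1 j := by
  obtain ⟨v, r, hr, rfl⟩ := Nat.exists_eq_pow_mul_and_not_dvd hj.ne' ℓ hℓ.ne_one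
  have hcop : ∀ k, (ℓ ^ k).Coprime r := fun k => ((hℓ.coprime_iff_not_dvd).mpr hr).pow_left _
  rw [← mul_assoc, ← pow_succ', isMultiplicative_sigma.map_mul_of_coprime (hcop _),
    isMultiplicative_sigma.map_mul_of_coprime (hcop _)]
  cases v with
  | zero =>
    rw [if_neg (by simpa using hr), sigma_one_apply_prime_pow hℓ, sigma_one_apply_prime_pow hℓ]
    simp [Finset.sum_range_succ, add_comm]
  | succ v =>
    rw [if_pos (by rw [pow_succ']; exact dvd_mul_of_dvd_left (dvd_mul_right ℓ _) _),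
      show ℓ ^ (v + 1) * r / ℓ = ℓ ^ v * r by
        rw [pow_succ', mul_assoc, Nat.mul_div_cancel_left _ hℓ.pos],
      isMultiplicative_sigma.map_mul_of_coprime (hcop _), sigma_one_apply_prime_pow hℓ,
      sigma_one_apply_prime_pow hℓ, sigma_one_apply_prime_pow hℓ]
    simp only [Finset.sum_range_succ]
    ring

theorem sigmaPrime_prime_mul {p ℓ : ℕ} (hp : p.Prime) (hℓ : ℓ.Prime) (hne : ℓ ≠ p) {j : ℕ}
    (hj : 0 < j) :
    sigmaPrime p (ℓ * j) + (if ℓ ∣ j then ℓ * sigmaPrime p (j / ℓ) else 0)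
      = (1 + ℓ) * sigmaPrime p j := by
  have hpℓ : ¬ p ∣ ℓ := fun h => hne ((Nat.prime_dvd_prime_iff_eq hp hℓ).mp h).symm
  have hiff : ℓ ∣ j ↔ ℓ ∣ ordCompl[p] j := by
    refine ⟨fun h => ?_, fun h => h.trans (Nat.ordCompl_dvd j p)⟩
    exact (((Nat.coprime_primes hℓ hp).mpr hne).pow_right _).dvd_of_dvd_mul_left
      ((Nat.ordProj_mul_ordCompl_eq_self j p).symm ▸ h)
  have h := sigma_one_prime_mul hℓ (Nat.ordCompl_pos p hj.ne')
  rw [sigmaPrime_eq_sigma hp (Nat.mul_pos hℓ.pos hj), sigmaPrime_eq_sigma hp hj, Nat.ordCompl_mul,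
    (Nat.ordCompl_eq_self_iff_zero_or_not_dvd ℓ hp).mpr (Or.inr hpℓ)]
  by_cases hd : ℓ ∣ j
  · rw [if_pos hd]
    rw [if_pos (hiff.mp hd)] at h
    obtain ⟨i, rfl⟩ := hd
    have hi : 0 < i := pos_of_mul_pos_right hj (Nat.zero_le _)
    have hc : ordCompl[p] (ℓ * i) = ℓ * ordCompl[p] i := by
      rw [Nat.ordCompl_mul, (Nat.ordCompl_eq_self_iff_zero_or_not_dvd ℓ hp).mpr (Or.inr hpℓ)]
    rw [Nat.mul_div_cancel_left _ hℓ.pos, sigmaPrime_eq_sigma hp hi]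
    rw [hc, Nat.mul_div_cancel_left _ hℓ.pos] at h
    rw [hc]
    exact h
  · rw [if_neg hd]
    rw [if_neg (fun hc => hd (hiff.mpr hc))] at h
    exact h

end FLTA.Eisenstein
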