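import Fermat.Agent.Periods.HeckeQuot
import Fermat.Agent.Eisenstein.SigmaRec
import Fermat.Prelude.Def_CuspForm_HeckeEvalForms
import Fermat.Prelude.Def_CuspForm_IntegralStructure

/-!
# Cusp forms and functionals on the weight two Hecke algebra

Every additive functional on the Hecke algebra is the `a₁`-pairing with a form with integral
coefficients; these span `S₂`, and a ring homomorphism with Eisenstein values on the generators
sends `T_k` to `σ'(k)`.
-/

set_option autoImplicit false

noncomputable section

open ModularFormClass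

namespace FLTA.Eisenstein

open FLTA.Periods

section Level

variable (N : ℕ) [NeZero N]

abbrev HeckeIndex : Type := Module.Free.ChooseBasisIndex ℤ (fullHecke N)

/-- A basis of the complex span of the Hecke algebra coming from an integral basis. -/
def heckeSpanBasis : Module.Basis (HeckeIndex N) ℂ (heckeSpan N) :=
  let b := Module.Free.chooseBasis ℤ (fullHecke N)
  let v : HeckeIndex N → heckeSpan N :=
    fun i => ⟨_, Submodule.subset_span (b i).2⟩
  Module.Basis.mk (v := v)
    (LinearIndependent.of_comp (heckeSpan N).subtype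
      (linearIndependent_coe_of_linearIndependent N b.linearIndependent))
    (by
      apply le_of_eq
      symm
      apply Submodule.map_injective_of_injective (f := (heckeSpan N).subtype)
        (Submodule.subtype_injective _)
      rw [Submodule.map_span, Submodule.map_top, Submodule.range_subtype]
      refine le_antisymm (Submodule.span_le.mpr ?_) (Submodule.span_le.mpr ?_)
      · rintro _ ⟨_, ⟨i, rfl⟩, rfl⟩
        exact Submodule.subset_span (b i).2
      · intro t ht
        have h : (⟨t, ht⟩ : fullHecke N) ∈ Submodule.span ℤ (Set.range b) := by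
          rw [b.span_eq]; exact Submodule.mem_top
        suffices ∀ x : fullHecke N, x ∈ Submodule.span ℤ (Set.range b) →
            (x : Module.End ℂ (CF2 N)) ∈
              Submodule.span ℂ ((heckeSpan N).subtype '' Set.range v) from this ⟨t, ht⟩ h
        intro x hx
        induction hx using Submodule.span_induction with
        | mem y hy =>
          obtain ⟨i, rfl⟩ := hy
          exact Submodule.subset_span ⟨v i, ⟨i, rfl⟩, rfl⟩
        | zero => exact zero_mem _
        | add y z _ _ hy hz => exact add_mem hy hz
        | smul c y _ hy =>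
          rw [Subalgebra.coe_smul]
          exact zsmul_mem hy c)

theorem heckeSpanBasis_coe (i : HeckeIndex N) :
    ((heckeSpanBasis N i : heckeSpan N) : Module.End ℂ (CF2 N))
      = ((Module.Free.chooseBasis ℤ (fullHecke N) i : fullHecke N) : Module.End ℂ (CF2 N)) := by
  rw [heckeSpanBasis, Module.Basis.mk_apply]

/-- Every integral functional on the Hecke algebra is represented by a cusp form. -/
theorem exists_cuspForm_of_functional (φ : fullHecke N →+ ℤ) :
    ∃ f : CF2 N, ∀ t : fullHecke N,
      qCoeff ((t : Module.End ℂ (CF2 N)) f) 1 = ((φ t : ℤ) : ℂ) := by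
  let b := Module.Free.chooseBasis ℤ (fullHecke N)
  refine ⟨(heckeDualEquiv N).symm
    ((heckeSpanBasis N).constr ℂ fun i => ((φ (b i) : ℤ) : ℂ)), fun t => ?_⟩
  set f := (heckeDualEquiv N).symm ((heckeSpanBasis N).constr ℂ fun i => ((φ (b i) : ℤ) : ℂ))
    with hf
  let L : fullHecke N →+ ℂ := AddMonoidHom.mk'
    (fun t => coeffLin N 1 ((t : Module.End ℂ (CF2 N)) f))
    (fun t u => by simp only [AddMemClass.coe_add, LinearMap.add_apply, map_add])
  suffices h : L.toIntLinearMap = ((Int.castAddHom ℂ).comp φ).toIntLinearMap from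
    LinearMap.congr_fun h t
  refine b.ext fun i => ?_
  have h : heckePairing N f = (heckeSpanBasis N).constr ℂ fun i => ((φ (b i) : ℤ) : ℂ) :=
    (heckeDualEquiv N).apply_symm_apply _
  have h2 := LinearMap.congr_fun h (heckeSpanBasis N i)
  rw [heckePairing_apply, heckeSpanBasis_coe, Module.Basis.constr_basis] at h2
  exact h2

theorem qCoeff_of_functional {φ : fullHecke N →+ ℤ} {f : CF2 N}
    (hf : ∀ t : fullHecke N, qCoeff ((t : Module.End ℂ (CF2 N)) f) 1 = ((φ t : ℤ) : ℂ)) (n : ℕ) :
    qCoeff f n = ((φ (heckeOp N n) : ℤ) : ℂ) := by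
  rw [← qCoeff_one_heckeOp N n f, hf]

theorem hasIntegralStructure_two : CuspForm.HasIntegralStructure N 2 := by
  classical
  let b := Module.Free.chooseBasis ℤ (fullHecke N)
  let e := heckeDualEquiv N
  have key : ∀ i, e.symm ((heckeSpanBasis N).coord i) ∈ CuspForm.intLattice N 2 := by
    intro i
    obtain ⟨f, hf⟩ := exists_cuspForm_of_functional N (b.coord i).toAddMonoidHom
    have hfe : f = e.symm ((heckeSpanBasis N).coord i) := by
      apply e.injective
      rw [e.apply_symm_apply]
      refine (heckeSpanBasis N).ext fun j => ?_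
      show heckePairing N f (heckeSpanBasis N j) = _
      rw [heckePairing_apply, heckeSpanBasis_coe, hf, Module.Basis.coord_apply,
        Module.Basis.repr_self, LinearMap.toAddMonoidHom_coe, Module.Basis.coord_apply,
        Module.Basis.repr_self]
      simp [Finsupp.single_apply]
    rw [← hfe]
    exact Submodule.subset_span fun n => ⟨_, qCoeff_of_functional N hf n⟩
  rw [CuspForm.HasIntegralStructure, eq_top_iff]
  rintro f -
  have := finiteDimensional_cf2 N
  haveI : Fintype (HeckeIndex N) := Fintype.ofFinite _
  have hf : f = ∑ i, (e f) (heckeSpanBasis N i) • e.symm ((heckeSpanBasis N).coord i) := by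
    apply e.injective
    simp only [map_sum, map_smul, LinearEquiv.apply_symm_apply]
    exact ((heckeSpanBasis N).sum_dual_apply_smul_coord (e f)).symm
  rw [hf]
  exact Submodule.sum_mem _ fun i _ => Submodule.smul_mem _ _ (Submodule.subset_span (key i))

theorem heckeOp_unique {n : ℕ} (t : fullHecke N)
    (h : ∀ f : CF2 N, qCoeff ((t : Module.End ℂ (CF2 N)) f) 1 = qCoeff f n) :
    t = heckeOp N n := by
  refine Subtype.ext (sub_eq_zero.mp (eq_zero_of_qCoeff_one
    (sub_mem (Submodule.subset_span t.2) (Submodule.subset_span (heckeOp N n).2)) fun f => ?_))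
  rw [← coeffLin_apply, LinearMap.sub_apply, map_sub, coeffLin_apply, coeffLin_apply, h,
    qCoeff_one_heckeOp, sub_self]

theorem heckeOp_one : heckeOp N 1 = 1 :=
  (heckeOp_unique N 1 fun _ => rfl).symm

theorem heckeOp_prime_mul {q : Nat.Primes} {j : ℕ} :
    heckeOp N ((q : ℕ) * j) = heckeOp N j * CuspForm.heckeFormsGen N 2 q
      - (if ¬ (q : ℕ) ∣ N ∧ (q : ℕ) ∣ j then ((q : ℕ) : ℤ) • heckeOp N (j / q) else 0) := by
  refine (heckeOp_unique N _ fun f => ?_).symm
  rw [AddSubgroupClass.coe_sub, MulMemClass.coe_mul, ← coeffLin_apply, LinearMap.sub_apply,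
    map_sub, coeffLin_apply, Module.End.mul_apply, qCoeff_one_heckeOp]
  by_cases hd : (q : ℕ) ∣ N
  · rw [CuspForm.heckeFormsGen_of_dvd hd, CuspForm.heckeAlgebra.coe_U, qCoeff_heckeULin q.2,
      if_neg (fun h => h.1 hd), mul_comm j,
      ZeroMemClass.coe_zero, LinearMap.zero_apply, map_zero, sub_zero]
  · rw [CuspForm.heckeFormsGen_of_not_dvd hd, CuspForm.heckeAlgebra.coe_T, qCoeff_heckeTLin]
    by_cases hj : (q : ℕ) ∣ j
    · rw [if_pos hj, if_pos ⟨hd, hj⟩, Subalgebra.coe_smul, LinearMap.smul_apply, map_zsmul,
        coeffLin_apply, qCoeff_one_heckeOp, mul_comm j]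
      simp
    · rw [if_neg hj, if_neg (fun h => hj h.2), mul_comm j, add_zero,
        ZeroMemClass.coe_zero, LinearMap.zero_apply, map_zero, sub_zero]

end Level

/-- An Eisenstein ring homomorphism takes the value `σ'(k)` on `T_k`. -/
theorem apply_heckeOp_eq_sigmaPrime {p : ℕ} [Fact p.Prime] [NeZero p] {R : Type*} [CommRing R]
    (χ : fullHecke p →+* R)
    (hχ : ∀ q : Nat.Primes,
      χ (CuspForm.heckeFormsGen p 2 q) = (ModularCurve.eisensteinSystem p q : R))
    {k : ℕ} (hk : 0 < k) : χ (heckeOp p k) = (sigmaPrime p k : R) := by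
  have hp : p.Prime := Fact.out
  induction k using Nat.strong_induction_on with
  | _ k ih =>
    rcases Nat.lt_or_ge k 2 with h2 | h2
    · obtain rfl : k = 1 := by omega
      rw [heckeOp_one, map_one, sigmaPrime_one hp.ne_one, Nat.cast_one]
    · obtain ⟨q, hq, j, rfl⟩ := Nat.exists_prime_and_dvd (by omega : k ≠ 1)
      have hj : 0 < j := pos_of_mul_pos_right hk (Nat.zero_le _)
      have hlt : j < q * j := (lt_mul_iff_one_lt_left hj).mpr hq.one_lt
      have e := heckeOp_prime_mul p (q := ⟨q, hq⟩) (j := j)
      change heckeOp p (q * j) = _ at e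
      rw [e, map_sub, map_mul, hχ, ih j hlt hj]
      by_cases hqp : q = p
      · subst hqp
        rw [if_neg (fun h => h.1 dvd_rfl), map_zero, sub_zero,
          ModularCurve.eisensteinSystem_of_dvd (N := q) dvd_rfl, Int.cast_one, mul_one,
          sigmaPrime_self_mul hp hj]
      · have hqN : ¬ q ∣ p := fun h => hqp ((Nat.prime_dvd_prime_iff_eq hq hp).mp h)
        have hs := congrArg (Nat.cast : ℕ → R) (sigmaPrime_prime_mul hp hq hqp hj)
        rw [ModularCurve.eisensteinSystem_of_not_dvd (N := p) (ℓ := ⟨q, hq⟩) hqN]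
        by_cases hqj : q ∣ j
        · have hpos : 0 < j / q := Nat.div_pos (Nat.le_of_dvd hj hqj) hq.pos
          rw [if_pos hqj] at hs
          push_cast at hs
          rw [if_pos ⟨hqN, hqj⟩, map_zsmul, ih _ ((Nat.div_le_self j q).trans_lt hlt) hpos,
            zsmul_eq_mul]
          push_cast
          linear_combination -hs
        · rw [if_neg hqj] at hs
          push_cast at hs
          rw [if_neg (fun h => hqj h.2), map_zero, sub_zero]
          push_cast
          linear_combination -hs

end FLTA.Eisenstein
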