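import Mathlib.NumberTheory.ArithmeticFunction.Misc

/-!
The coefficients `σ'(n) = ∑_{d ∣ n, p ∤ d} d` of the weight two Eisenstein series of level `p`.
-/

set_option autoImplicit false

namespace FLTA.Eisenstein

/-- Sum of the divisors of `n` prime to `p`. -/
def sigmaPrime (p n : ℕ) : ℕ := ∑ d ∈ n.divisors.filter (fun d => ¬ p ∣ d), d

@[simp] theorem sigmaPrime_zero (p : ℕ) : sigmaPrime p 0 = 0 := by simp [sigmaPrime]

theorem sigmaPrime_one {p : ℕ} (hp : p ≠ 1) : sigmaPrime p 1 = 1 := by
  rw [sigmaPrime, Nat.divisors_one, Finset.filter_true_of_mem, Finset.sum_singleton]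
  intro d hd
  rw [Finset.mem_singleton] at hd
  subst hd
  simpa using hp

end FLTA.Eisenstein
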