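import Mathlib.NumberTheory.ModularForms.EisensteinSeries.E2.Transform
import Mathlib.NumberTheory.ModularForms.EisensteinSeries.E2.MDifferentiable
import Fermat.Agent.Eisenstein.Sigma
import Fermat.Agent.Eisenstein.Forms

/-!
The weight two Eisenstein series `p E₂(p z) - E₂(z)` on `Γ₀(p)`.
-/

set_option autoImplicit false

noncomputable section

open UpperHalfPlane Function Filter Matrix.SpecialLinearGroup CongruenceSubgroup EisensteinSeries
open scoped MatrixGroups ModularForm Manifold Topology ArithmeticFunction.sigma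

namespace FLTA.Eisenstein

variable {p : ℕ}

/-- `σ(k) = σ'(k) + p σ(k / p)`. -/
theorem sigma_one_eq (hp : p.Prime) (k : ℕ) :
    (σ 1 k) = sigmaPrime p k + if p ∣ k then p * σ 1 (k / p) else 0 := by
  rw [ArithmeticFunction.sigma_one_apply, sigmaPrime]
  by_cases hk : k = 0
  · subst hk; simp
  rw [← Finset.sum_filter_add_sum_filter_not k.divisors (fun d => ¬ p ∣ d)]
  congr 1
  split_ifs with h
  · rw [ArithmeticFunction.sigma_one_apply, Finset.mul_sum]
    refine Finset.sum_nbij' (fun d => d / p) (fun d => p * d) ?_ ?_ ?_ ?_ ?_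
    · intro d hd
      simp only [Finset.mem_coe, Finset.mem_filter, not_not, Nat.mem_divisors] at hd
      obtain ⟨⟨hdk, -⟩, e, rfl⟩ := hd
      simp only [Finset.mem_coe, Nat.mem_divisors, Nat.mul_div_cancel_left _ hp.pos]
      exact ⟨(Nat.mul_dvd_mul_iff_left hp.pos).mp (by rwa [Nat.mul_div_cancel' h]),
        (Nat.div_pos (Nat.le_of_dvd (Nat.pos_of_ne_zero hk) h) hp.pos).ne'⟩
    · intro d hd
      simp only [Finset.mem_coe, Nat.mem_divisors] at hd
      simp only [Finset.mem_coe, Finset.mem_filter, not_not, Nat.mem_divisors]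
      exact ⟨⟨by simpa [Nat.mul_div_cancel' h] using Nat.mul_dvd_mul_left p hd.1, hk⟩,
        dvd_mul_right p d⟩
    · intro d hd
      simp only [Finset.mem_coe, Finset.mem_filter, not_not] at hd
      exact Nat.mul_div_cancel' hd.2
    · intro d _
      exact Nat.mul_div_cancel_left _ hp.pos
    · intro d hd
      simp only [Finset.mem_filter] at hd
      exact (Nat.mul_div_cancel' (not_not.mp hd.2)).symm
  · refine Finset.sum_eq_zero fun d hd => absurd ?_ h
    simp only [Finset.mem_filter, Nat.mem_divisors] at hd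
    exact (not_not.mp hd.2).trans hd.1.1

/-- `p E₂(p z) - E₂(z)` as a function. -/
def eisFun (p : ℕ) : ℍ → ℂ := fun z => (p : ℂ) * E2 (scaleGL p • z) - E2 z

variable [hp : Fact p.Prime]

theorem E2_smul (g : SL(2, ℤ)) (z : ℍ) :
    E2 (g • z) = ((g 1 0 : ℂ) * z + g 1 1) ^ 2 * E2 z -
      1 / (2 * riemannZeta 2) * (2 * Real.pi * Complex.I * g 1 0) *
        ((g 1 0 : ℂ) * z + g 1 1) := by
  have h := congrFun (E2_slash_action g) z
  simp only [Pi.sub_apply, Pi.smul_apply, smul_eq_mul, D2] at h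
  rw [ModularForm.SL_slash_apply, ModularGroup.denom_apply, zpow_neg] at h
  have hne : ((g 1 0 : ℂ) * z + g 1 1) ≠ 0 := by
    rw [← ModularGroup.denom_apply]; exact denom_ne_zero _ z
  have he : E2 (g • z) = (E2 z - 1 / (2 * riemannZeta 2) *
      (2 * Real.pi * Complex.I * g 1 0 / ((g 1 0 : ℂ) * z + g 1 1))) *
        ((g 1 0 : ℂ) * z + g 1 1) ^ (2 : ℤ) := by
    rw [← h, inv_mul_cancel_right₀ (zpow_ne_zero _ hne)]
  rw [he, zpow_two]
  field_simp

theorem eisFun_slash (g : SL(2, ℤ)) (hg : g ∈ Gamma0 p) : eisFun p ∣[(2 : ℤ)] g = eisFun p := by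
  haveI : NeZero p := ⟨hp.out.ne_zero⟩
  obtain ⟨c, hc⟩ := FLTA.Kummer.dvd_lowerLeft p ⟨g, hg⟩
  have hp0 : p ≠ 0 := hp.out.ne_zero
  have hp' : (p : ℤ) ≠ 0 := by exact_mod_cast hp0
  funext z
  -- the matrix conjugated by `diag (p, 1)`
  let g' : SL(2, ℤ) := ⟨!![g 0 0, (p : ℤ) * g 0 1; c, g 1 1], by
    have hd := Matrix.SpecialLinearGroup.det_coe g
    rw [Matrix.det_fin_two] at hd
    simp only at hc
    rw [Matrix.det_fin_two_of]
    linear_combination hd + (g 0 1) * hc⟩
  have hne : ((g 1 0 : ℂ) * z + g 1 1) ≠ 0 := by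
    rw [← ModularGroup.denom_apply]; exact denom_ne_zero _ z
  have hcC : (g 1 0 : ℂ) = (p : ℂ) * c := by exact_mod_cast congrArg (Int.cast : ℤ → ℂ) hc
  have hscale : scaleGL p • (g • z) = g' • (scaleGL p • z) := by
    apply UpperHalfPlane.ext
    rw [coe_scaleGL_smul hp0, UpperHalfPlane.coe_specialLinearGroup_apply,
      UpperHalfPlane.coe_specialLinearGroup_apply]
    simp [g', coe_scaleGL_smul hp0, hcC]
    ring
  rw [ModularForm.SL_slash_apply, ModularGroup.denom_apply, zpow_neg, eisFun, eisFun, hscale,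
    E2_smul g', E2_smul g]
  have e : ((g' 1 0 : ℤ) : ℂ) * ((scaleGL p • z : ℍ) : ℂ) + (g' 1 1 : ℤ) =
      (g 1 0 : ℂ) * z + g 1 1 := by
    simp [g', coe_scaleGL_smul hp0, hcC]; ring
  have e' : ((g' 1 0 : ℤ) : ℂ) = (c : ℂ) := by simp [g']
  rw [e, e', hcC, zpow_two]
  rw [hcC] at hne
  field_simp
  ring

theorem mdifferentiable_eisFun : MDiff (eisFun p) := by
  have h : MDiff (fun z => E2 (scaleGL p • z)) := by
    have : (fun z => E2 (scaleGL p • z)) =
        ((p : ℂ) ^ ((2 : ℤ) - 1))⁻¹ • (E2 ∣[(2 : ℤ)] scaleGL p) := by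
      funext z
      have hpc : (p : ℂ) ^ ((2 : ℤ) - 1) ≠ 0 :=
        zpow_ne_zero _ (by exact_mod_cast hp.out.ne_zero)
      rw [Pi.smul_apply, smul_eq_mul,
        ModularForm.slash_heckeDiagMatrix_apply 2 hp.out.ne_zero, inv_mul_cancel_left₀ hpc]
    rw [this]
    exact (E2_mdifferentiable.slash 2 _).const_smul _
  exact (h.const_smul (p : ℂ)).sub E2_mdifferentiable

theorem bdd_eisFun : IsBoundedAtImInfty (eisFun p) :=
  (Filter.BoundedAtFilter.mul (Filter.const_boundedAtFilter atImInfty _)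
    (bdd_comp_scale hp.out.ne_zero isBoundedAtImInfty_E2)).sub isBoundedAtImInfty_E2

theorem eisFun_slash_S (z : ℍ) :
    (eisFun p ∣[(2 : ℤ)] ModularGroup.S) (scaleGL p • z) = -(p : ℂ)⁻¹ * eisFun p z := by
  have hp0 : p ≠ 0 := hp.out.ne_zero
  have hpc : (p : ℂ) ≠ 0 := by exact_mod_cast hp0
  rw [ModularForm.SL_slash_apply, ModularGroup.denom_apply, eisFun, eisFun, scale_S_scale hp0,
    E2_smul, E2_smul, coe_scaleGL_smul hp0, zpow_neg, zpow_two]
  have := z.ne_zero
  simp [ModularGroup.coe_S]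
  field_simp
  ring

theorem bdd_eisFun_slash_S : IsBoundedAtImInfty (eisFun p ∣[(2 : ℤ)] ModularGroup.S) := by
  have hp0 : p ≠ 0 := hp.out.ne_zero
  have h : eisFun p ∣[(2 : ℤ)] ModularGroup.S =
      fun w => -(p : ℂ)⁻¹ * eisFun p ((scaleGL p)⁻¹ • w) := by
    funext w
    conv_lhs => rw [← smul_inv_smul (scaleGL p) w]
    exact eisFun_slash_S _
  rw [h]
  refine Filter.BoundedAtFilter.mul (Filter.const_boundedAtFilter atImInfty _) ?_
  refine bdd_eisFun.comp_tendsto ?_
  rw [atImInfty, tendsto_comap_iff]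
  have him : (UpperHalfPlane.im ∘ fun z : ℍ => (scaleGL p)⁻¹ • z) = fun z : ℍ => z.im / p := by
    funext z
    rw [comp_apply, eq_div_iff (by exact_mod_cast hp0), mul_comm]
    conv_rhs => rw [← smul_inv_smul (scaleGL p) z]
    rw [← UpperHalfPlane.coe_im (scaleGL p • _), coe_scaleGL_smul hp0]
    simp
  rw [him]
  exact tendsto_comap.atTop_div_const (by positivity)

/-- The form `p E₂(p z) - E₂(z) = (p - 1) + 24 ∑ σ'(k) q^k`. -/
def eisTwo (p : ℕ) [Fact p.Prime] : MF p 2 :=
  mkMF (eisFun p) eisFun_slash mdifferentiable_eisFun bdd_eisFun bdd_eisFun_slash_S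

variable [NeZero p]

theorem qA_eisTwo : qA (eisTwo p) =
    PowerSeries.mk fun k => if k = 0 then (p : ℂ) - 1 else 24 * (sigmaPrime p k : ℂ) := by
  have hp0 : p ≠ 0 := hp.out.ne_zero
  have hperE : Periodic (E2 ∘ ofComplex) 1 := by
    intro w
    by_cases hw : 0 < w.im
    · have hw' : 0 < (w + 1).im := by simpa using hw
      simp only [comp_apply, ofComplex_apply_of_im_pos hw', ofComplex_apply_of_im_pos hw]
      have h := congrFun (E2_slash_action ModularGroup.T) ⟨w, hw⟩
      rw [D2_T, smul_zero, sub_zero, ModularForm.SL_slash_apply, modular_T_smul,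
        ModularGroup.denom_apply] at h
      simp [ModularGroup.coe_T] at h
      refine Eq.trans ?_ h
      congr 1
      apply UpperHalfPlane.ext
      simp [add_comm]
    · have hw' : (w + 1).im ≤ 0 := by simpa using hw
      simp only [comp_apply, ofComplex_apply_of_im_nonpos hw',
        ofComplex_apply_of_im_nonpos (not_lt.mp hw)]
  have hqE : ∀ n, (qExpansion 1 E2).coeff n = if n = 0 then (1 : ℂ) else -24 * σ 1 n :=
    qExpansion_coeff_eq_of_hasSum hperE E2_mdifferentiable isBoundedAtImInfty_E2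
      fun τ => by simpa [Periodic.qParam] using hasSum_qExpansion_E2 (z := τ)
  have hA : AnalyticAt ℂ (cuspFunction 1 E2) 0 :=
    analyticAt_cuspFunction_zero one_pos (by exact_mod_cast hperE) E2_mdifferentiable
      isBoundedAtImInfty_E2
  have hS : Periodic ((fun z => E2 (scaleGL p • z)) ∘ ofComplex) 1 :=
    periodic_comp_scale hp0 (by simpa using hperE.nat_mul p)
  have hMS : MDiff (fun z => E2 (scaleGL p • z)) := by
    have : (fun z => E2 (scaleGL p • z)) =
        ((p : ℂ) ^ ((2 : ℤ) - 1))⁻¹ • (E2 ∣[(2 : ℤ)] scaleGL p) := by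
      funext z
      have hpc : (p : ℂ) ^ ((2 : ℤ) - 1) ≠ 0 := zpow_ne_zero _ (by exact_mod_cast hp0)
      rw [Pi.smul_apply, smul_eq_mul, ModularForm.slash_heckeDiagMatrix_apply 2 hp0,
        inv_mul_cancel_left₀ hpc]
    rw [this]
    exact (E2_mdifferentiable.slash 2 _).const_smul _
  have hAS : AnalyticAt ℂ (cuspFunction 1 (fun z => E2 (scaleGL p • z))) 0 :=
    analyticAt_cuspFunction_zero one_pos (by exact_mod_cast hS) hMS
      (bdd_comp_scale hp0 isBoundedAtImInfty_E2)
  have hAS' : AnalyticAt ℂ (cuspFunction 1 ((p : ℂ) • fun z => E2 (scaleGL p • z))) 0 := by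
    rw [cuspFunction_smul hAS.continuousAt]
    exact hAS.const_smul
  have hfun : eisFun p = ((p : ℂ) • fun z => E2 (scaleGL p • z)) - E2 := rfl
  ext k
  rw [qA, eisTwo, coe_mkMF, hfun, qExpansion_sub hAS' hA, qExpansion_smul hAS,
    qExpansion_comp_scale hperE E2_mdifferentiable isBoundedAtImInfty_E2, map_sub,
    PowerSeries.coeff_smul, PowerSeries.coeff_expand, PowerSeries.coeff_mk, hqE, hqE]
  rcases eq_or_ne k 0 with rfl | hk
  · simp
  · rw [if_neg hk, if_neg hk, smul_eq_mul]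
    have h := congrArg (Nat.cast : ℕ → ℂ) (sigma_one_eq hp.out k)
    push_cast at h
    by_cases hd : p ∣ k
    · rw [if_pos hd, if_neg (Nat.div_pos (Nat.le_of_dvd (Nat.pos_of_ne_zero hk) hd)
        hp.out.pos).ne']
      rw [if_pos hd] at h
      linear_combination 24 * h
    · rw [if_neg hd]
      rw [if_neg hd] at h
      linear_combination 24 * h

omit [NeZero p] in
theorem qB_eisTwo [NeZero p] : qB (eisTwo p) = (-(p : ℂ)⁻¹) • qA (eisTwo p) := by
  have h : atZero (eisTwo p) = (-(p : ℂ)⁻¹) • ⇑(eisTwo p) :=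
    funext fun z => eisFun_slash_S z
  rw [qB, h]
  exact qExpansion_smul (analyticAt_coe (eisTwo p)) _

end FLTA.Eisenstein
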