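import Mathlib.Data.Nat.GCD.Basic
import Mathlib.Data.Nat.Prime.Basic
import Mathlib.Tactic

/-!
Arithmetic assembly of the upper bound.
-/

set_option autoImplicit false

namespace FLTA.Eisenstein

theorem dvd_div_gcd_twelve {p m : ℕ} (hp : 5 ≤ p)
    (hA : m * Nat.gcd (p - 1) 24 ∣ (p - 1) * (p + 1))
    (hB : ∀ ℓ : ℕ, ℓ.Prime → ℓ ≠ 2 → ℓ ∣ m → ¬ ℓ ∣ p + 1)
    (hC : 2 ∣ m → p % 8 = 1) :
    m ∣ (p - 1) / Nat.gcd (p - 1) 12 := by
  set k := Nat.gcd (p - 1) 12 with hk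
  set n := (p - 1) / k with hn
  have hkp : k ∣ p - 1 := Nat.gcd_dvd_left _ _
  have hk12 : k ∣ 12 := Nat.gcd_dvd_right _ _
  have hk0 : 0 < k := Nat.gcd_pos_of_pos_right _ (by norm_num)
  have hkn : p - 1 = k * n := (Nat.mul_div_cancel' hkp).symm
  have hkg : k ∣ Nat.gcd (p - 1) 24 := Nat.dvd_gcd hkp (hk12.trans (by norm_num))
  by_cases h2 : 2 ∣ m
  · have h8 := hC h2
    have h2k : 2 * k ∣ p - 1 := by
      obtain ⟨a, ha⟩ := hkp
      have h8' : 8 ∣ p - 1 := by omega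
      have hkle : k ≤ 12 := Nat.le_of_dvd (by norm_num) hk12
      have : 2 ∣ a := by
        rcases Nat.even_or_odd a with h | h
        · exact h.two_dvd
        · exfalso
          have hco : Nat.Coprime (2 ^ 3) a := Nat.Coprime.pow_left _ (Nat.coprime_two_left.mpr h)
          have hd : 8 ∣ k := hco.dvd_of_dvd_mul_right (ha ▸ h8')
          have := hd.trans hk12
          omega
      obtain ⟨b, rfl⟩ := this
      exact ⟨b, by rw [ha]; ring⟩
    have h2g : 2 * k ∣ Nat.gcd (p - 1) 24 :=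
      Nat.dvd_gcd h2k (show 2 * k ∣ 2 * 12 from Nat.mul_dvd_mul_left 2 hk12)
    obtain ⟨u, hu⟩ : 2 ∣ p + 1 := by omega
    have h : m * (2 * k) ∣ n * u * (2 * k) := by
      have e : n * u * (2 * k) = (p - 1) * (p + 1) := by rw [hkn, hu]; ring
      rw [e]
      exact (Nat.mul_dvd_mul_left m h2g).trans hA
    have hmu : m ∣ n * u := Nat.dvd_of_mul_dvd_mul_right (by omega) h
    refine Nat.Coprime.dvd_of_dvd_mul_right ?_ hmu
    refine Nat.coprime_of_dvd fun q hq hqm hqu => ?_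
    rcases eq_or_ne q 2 with rfl | hq2
    · omega
    · exact hB q hq hq2 hqm (hu ▸ dvd_mul_of_dvd_right hqu 2)
  · have h : m * k ∣ n * (p + 1) * k := by
      have e : n * (p + 1) * k = (p - 1) * (p + 1) := by rw [hkn]; ring
      rw [e]
      exact (Nat.mul_dvd_mul_left m hkg).trans hA
    have hmu : m ∣ n * (p + 1) := Nat.dvd_of_mul_dvd_mul_right hk0 h
    refine Nat.Coprime.dvd_of_dvd_mul_right ?_ hmu
    refine Nat.coprime_of_dvd fun q hq hqm hqu => ?_
    rcases eq_or_ne q 2 with rfl | hq2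
    · exact h2 hqm
    · exact hB q hq hq2 hqm hqu

end FLTA.Eisenstein
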