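import Fermat.Agent.Eisenstein.Sigma
import Fermat.Agent.Eisenstein.CaseMain
import Fermat.Agent.Eisenstein.CaseMinusOne
import Fermat.Agent.Eisenstein.CaseThree
import Fermat.Agent.Eisenstein.CaseSquare
import Fermat.Agent.Eisenstein.CaseSeven
import Fermat.Agent.Eisenstein.UpperArith
import Fermat.Prelude.Def_FLTPrelim_Modularity
import Fermat.Prelude.Def_ModularCurve_ModularUnit
import Fermat.Prelude.Thm_ModularForm_sturm_bound_Gamma0

/-!
# Upper bound for the Eisenstein congruence modulus

A cusp form of weight 2 on `Γ₀(p)` congruent to the Eisenstein series modulo `m` forces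
`m ∣ num ((p - 1) / 12)`.
-/

set_option autoImplicit false

noncomputable section

open scoped MatrixGroups

namespace FLTA.Eisenstein

theorem index_Gamma0_prime_le (p : ℕ) [hp : Fact p.Prime] :
    (CongruenceSubgroup.Gamma0 p).index ≤ p + 1 := by
  let s : Option (Fin p) → SL(2, ℤ) ⧸ CongruenceSubgroup.Gamma0 p :=
    fun i => QuotientGroup.mk (cosetElt p i)⁻¹
  have hs : Function.Surjective s := by
    intro q
    induction q using QuotientGroup.induction_on with
    | H γ =>
      rcases exists_coset_rep (p := p) γ⁻¹ with h | ⟨g, hg, j, hj⟩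
      · exact ⟨none, QuotientGroup.eq.mpr (by simpa [cosetElt] using inv_mem h)⟩
      · haveI : NeZero p := ⟨hp.out.ne_zero⟩
        obtain ⟨c, hc⟩ := (ZMod.intCast_eq_intCast_iff_dvd_sub (((j : ZMod p)).val : ℤ) j p).mp
          (by push_cast; rw [ZMod.natCast_zmod_val])
        refine ⟨some ⟨((j : ZMod p)).val, ZMod.val_lt _⟩, QuotientGroup.eq.mpr ?_⟩
        have hT : ModularGroup.S * ModularGroup.T ^ j = lowerShift p ^ c * ModularGroup.S *
            ModularGroup.T ^ (((j : ZMod p)).val : ℤ) := by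
          have hconj : lowerShift p ^ c = ModularGroup.S * (ModularGroup.T ^ (p : ℤ)) ^ c *
              ModularGroup.S⁻¹ := by
            rw [← conj_zpow, S_mul_T_zpow]
            group
          rw [hconj]
          conv_lhs => rw [show j = (p : ℤ) * c + (((j : ZMod p)).val : ℤ) by linarith]
          rw [zpow_add, zpow_mul]
          group
        have e : cosetElt p (some ⟨((j : ZMod p)).val, ZMod.val_lt _⟩) * γ =
            (g * lowerShift p ^ c)⁻¹ := by
          rw [← inv_inv γ, hj, mul_assoc g, hT]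
          simp [cosetElt, mul_assoc]
        rw [inv_inv, e]
        exact inv_mem (mul_mem hg (zpow_mem (lowerShift_mem p) _))
  have h := Nat.card_le_card_of_surjective s hs
  simpa [Subgroup.index] using h

theorem cuspForm_eq_zero_of_le_three (p : ℕ) [hp : Fact p.Prime] [NeZero p] (h : p ≤ 3)
    (f : CuspForm (CongruenceSubgroup.Gamma0 p) 2) : cuspToMF f = 0 := by
  refine ModularForm.sturm_bound_Gamma0 p (cuspToMF f) fun n hn => ?_
  have := index_Gamma0_prime_le p
  have hb : ((2 : ℤ) * ((CongruenceSubgroup.Gamma0 p).index : ℤ)).toNat < 12 := by omega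
  obtain rfl : n = 0 := by
    have h0 : ((2 : ℤ) * ((CongruenceSubgroup.Gamma0 p).index : ℤ)).toNat / 12 = 0 :=
      Nat.div_eq_of_lt hb
    omega
  exact CuspFormClass.qExpansion_coeff_zero f one_pos
    (CongruenceSubgroup.one_mem_strictPeriods_Gamma0 p)

/-- If a weight two cusp form on `Γ₀(p)` has `a_k ≡ σ'(k) (mod m)` for all `k ≥ 1` then `m` divides
the Eisenstein numerator. -/
theorem dvd_eisensteinNumerator_of_cuspForm_congr (p : ℕ) [hp : Fact p.Prime] (m : ℕ)
    (f : CuspForm (CongruenceSubgroup.Gamma0 p) 2)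
    (hf : ∀ k : ℕ, 0 < k → ∃ c : ℤ,
      ModularFormClass.qCoeff f k = (sigmaPrime p k : ℂ) + (m : ℂ) * (c : ℂ)) :
    m ∣ ModularCurve.eisensteinNumerator p := by
  haveI : NeZero p := ⟨hp.out.ne_zero⟩
  have hp2 := hp.out.two_le
  rcases le_or_gt p 3 with h3 | h3
  · have hz := cuspForm_eq_zero_of_le_three p h3 f
    obtain ⟨c, hc⟩ := hf 1 one_pos
    have h0 : ModularFormClass.qCoeff f 1 = 0 := by
      rw [← coeff_qA_cuspToMF, hz, qA, FunLike.coe_zero, UpperHalfPlane.qExpansion_zero, map_zero]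
    rw [h0, sigmaPrime_one hp.out.ne_one] at hc
    have hm : (m : ℤ) ∣ 1 := by
      have : (0 : ℤ) = 1 + (m : ℤ) * c := by exact_mod_cast hc
      exact ⟨-c, by linarith⟩
    have : m = 1 := Nat.dvd_one.mp (by exact_mod_cast hm)
    rw [this]
    exact one_dvd _
  have hp5 : 5 ≤ p := by
    have h4 : p ≠ 4 := fun h => by subst h; exact absurd hp.out (by norm_num)
    omega
  obtain ⟨W⟩ := exists_congrWitness p f hf
  have hA := W.dvd_sq_sub_one hp5
  have hodd : p % 2 = 1 := hp.out.eq_two_or_odd.resolve_left (by omega)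
  have hm0 : m ≠ 0 := by
    rintro rfl
    rw [zero_mul, zero_dvd_iff, mul_eq_zero] at hA
    omega
  have hB : ∀ ℓ : ℕ, ℓ.Prime → ℓ ≠ 2 → ℓ ∣ m → ¬ ℓ ∣ p + 1 := by
    intro ℓ hℓ hℓ2 hℓm hℓp
    rcases eq_or_ne ℓ 3 with rfl | hℓ3
    · by_cases h9 : p % 9 = 8
      · have hd : ((9 : ℕ) : ℤ) ∣ 24 * (m : ℤ) := by
          obtain ⟨e, rfl⟩ := hℓm
          exact ⟨8 * e, by push_cast; ring⟩
        obtain ⟨N, hN⟩ := W.dvd_three_mul hd (by omega)
        have hcop : IsCoprime (((9 : ℕ) : ℤ)) (2 ^ N) :=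
          IsCoprime.pow_right ⟨1, -4, by norm_num⟩
        have := hcop.dvd_of_dvd_mul_left hN
        omega
      · exact W.not_three_dvd (by omega) hℓm
    · have hℓ5 : 5 ≤ ℓ := by
        have := hℓ.two_le
        rcases eq_or_ne ℓ 4 with rfl | h4
        · exact absurd hℓ (by norm_num)
        · omega
      obtain ⟨N, hN⟩ := W.dvd_three_mul (d := ℓ)
        (dvd_mul_of_dvd_right (Int.natCast_dvd_natCast.mpr hℓm) _) hℓp
      have hℓi : Prime (ℓ : ℤ) := Nat.prime_iff_prime_int.mp hℓ
      rcases hℓi.dvd_mul.mp hN with h | h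
      · have := (Nat.prime_dvd_prime_iff_eq hℓ Nat.prime_two).mp
          (Int.natCast_dvd_natCast.mp (by exact_mod_cast hℓi.dvd_of_dvd_pow h))
        omega
      · rcases hℓi.dvd_mul.mp h with h | h
        · have := (Nat.prime_dvd_prime_iff_eq hℓ Nat.prime_three).mp
            (Int.natCast_dvd_natCast.mp (by exact_mod_cast h))
          omega
        · have h2 : (ℓ : ℤ) ∣ 2 := by
            have h' : (ℓ : ℤ) ∣ ((p + 1 : ℕ) : ℤ) := Int.natCast_dvd_natCast.mpr hℓp
            have := dvd_sub h' h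
            push_cast at this
            ring_nf at this
            exact this
          have := Int.le_of_dvd (by norm_num) h2
          omega
  have hC : 2 ∣ m → p % 8 = 1 := by
    intro h2
    by_contra h1
    by_cases h7 : p % 8 = 7
    · exact W.not_two_dvd_of_seven h7 h2
    · exact W.not_two_dvd_of_three_five (by omega) h2
  exact dvd_div_gcd_twelve hp5 hA hB hC

end FLTA.Eisenstein
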