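import Fermat.Agent.Eisenstein.Lower
import Fermat.Agent.Eisenstein.Duality
import Fermat.Agent.Eisenstein.Upper
import Fermat.Prelude.Def_CuspForm_HeckeLocal

/-!
# The Eisenstein index of the Hecke algebra of prime level (Mazur II.9)
-/

set_option autoImplicit false

noncomputable section

open ModularCurve

namespace FLTA.Eisenstein

open FLTA.Periods

variable (p : ℕ) [Fact p.Prime] [NeZero p]

theorem heckeEvalForms_surjective : Function.Surjective (CuspForm.heckeEvalForms p 2) := by
  rintro ⟨t, ht⟩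
  induction ht using Algebra.adjoin_induction with
  | mem x hx =>
    rcases hx with ⟨ℓ, hℓ, hℓN, -, rfl⟩ | ⟨q, hqN, hq, -, rfl⟩
    · exact ⟨heckeGen ⟨ℓ, hℓ⟩, by
        rw [CuspForm.heckeEvalForms_heckeGen_of_not_dvd hℓN]; rfl⟩
    · exact ⟨heckeGen ⟨q, hq⟩, by
        rw [CuspForm.heckeEvalForms_heckeGen_of_dvd hqN]; rfl⟩
  | algebraMap m => exact ⟨MvPolynomial.C m, CuspForm.heckeEvalForms_C p 2 m⟩
  | add x y _ _ hx hy => exact ⟨hx.choose + hy.choose, by rw [map_add, hx.choose_spec, hy.choose_spec]; rfl⟩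
  | mul x y _ _ hx hy => exact ⟨hx.choose * hy.choose, by rw [map_mul, hx.choose_spec, hy.choose_spec]; rfl⟩

/-- The Eisenstein numerator is attained on the relations of the Hecke algebra. -/
theorem exists_relation_aeval_eq_numerator :
    ∃ s : HeckeAlg, CuspForm.heckeEvalForms p 2 s = 0 ∧
      MvPolynomial.aeval (eisensteinSystem p) s = (eisensteinNumerator p : ℤ) := by
  set e : HeckeAlg →+* ℤ := (MvPolynomial.aeval (eisensteinSystem p)).toRingHom with he
  set J := RingHom.ker (CuspForm.heckeEvalForms p 2)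
  have hesurj : Function.Surjective e := fun a => ⟨MvPolynomial.C a, by simp [he]⟩
  obtain ⟨m, hm⟩ := (IsPrincipalIdealRing.principal (J.map e)).principal
  have hker : J ≤ RingHom.ker ((Int.castRingHom (ZMod m.natAbs)).comp e) := by
    intro t ht
    have h : e t ∈ Submodule.span ℤ {m} := hm ▸ Ideal.mem_map_of_mem e ht
    obtain ⟨c, hc⟩ := Submodule.mem_span_singleton.mp h
    rw [RingHom.mem_ker, RingHom.comp_apply, eq_intCast, ZMod.intCast_zmod_eq_zero_iff_dvd,
      Int.natAbs_dvd]
    exact ⟨c, by rw [← hc, smul_eq_mul, mul_comm]⟩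
  set χ : fullHecke p →+* ZMod m.natAbs :=
    RingHom.liftOfSurjective _ (heckeEvalForms_surjective p) ⟨_, hker⟩ with hχdef
  have hχ : ∀ t, χ (CuspForm.heckeEvalForms p 2 t) = ((e t : ℤ) : ZMod m.natAbs) := fun t => by
    rw [hχdef, RingHom.liftOfSurjective, RingHom.liftOfRightInverse_comp_apply]
    rfl
  have hgen : ∀ q : Nat.Primes,
      χ (CuspForm.heckeFormsGen p 2 q) = (eisensteinSystem p q : ZMod m.natAbs) := fun q => by
    rw [← CuspForm.heckeEvalForms_heckeGen, hχ, he]
    exact congrArg _ (aeval_heckeGen _ q)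
  obtain ⟨φ, hφ⟩ := Module.projective_lifting_property
    (Int.castAddHom (ZMod m.natAbs)).toIntLinearMap χ.toAddMonoidHom.toIntLinearMap
    (fun x => ZMod.intCast_surjective x)
  obtain ⟨f, hf⟩ := exists_cuspForm_of_functional p φ.toAddMonoidHom
  have hdvd : m.natAbs ∣ eisensteinNumerator p := by
    refine dvd_eisensteinNumerator_of_cuspForm_congr p m.natAbs f fun k hk => ?_
    have h1 : ((φ (heckeOp p k) : ℤ) : ZMod m.natAbs) = (sigmaPrime p k : ZMod m.natAbs) :=
      (LinearMap.congr_fun hφ (heckeOp p k)).trans (apply_heckeOp_eq_sigmaPrime χ hgen hk)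
    rw [← Int.cast_natCast (R := ZMod m.natAbs), ZMod.intCast_eq_intCast_iff_dvd_sub] at h1
    obtain ⟨c, hc⟩ := h1
    refine ⟨-c, ?_⟩
    rw [qCoeff_of_functional p hf]
    have h2 : φ (heckeOp p k) = (sigmaPrime p k : ℤ) + (m.natAbs : ℤ) * (-c) := by linarith
    rw [LinearMap.toAddMonoidHom_coe, h2, Int.cast_add, Int.cast_mul, Int.cast_natCast,
      Int.cast_natCast]
  have hn : (eisensteinNumerator p : ℤ) ∈ J.map e := by
    rw [hm]
    exact Submodule.mem_span_singleton.mpr <| by
      obtain ⟨c, hc⟩ := Int.natAbs_dvd.mp (Int.natCast_dvd_natCast.mpr hdvd)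
      exact ⟨c, by rw [smul_eq_mul, hc, mul_comm]⟩
  obtain ⟨s, hs, hse⟩ := (Ideal.mem_map_iff_of_surjective e hesurj).mp hn
  exact ⟨s, hs, hse⟩

/-- **Mazur II.9.7**: the index of the Eisenstein ideal. -/
theorem natCard_quotient_eisensteinIdeal :
    Nat.card (↥(CuspForm.heckeLatticeAlgebra p ∅) ⧸
        Ideal.map ((CuspForm.latticeRestrictHom p ∅).toRingHom.comp (CuspForm.heckeEvalForms p 2))
          (eisensteinIdeal p)) = eisensteinNumerator p := by
  set π := (CuspForm.latticeRestrictHom p ∅).toRingHom.comp (CuspForm.heckeEvalForms p 2) with hπ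
  set n := eisensteinNumerator p with hndef
  have hbij := CuspForm.latticeRestrictHom_bijective p ∅ (hasIntegralStructure_two p)
  have hsurj : Function.Surjective π := hbij.2.comp (heckeEvalForms_surjective p)
  set e : HeckeAlg →+* ℤ := (MvPolynomial.aeval (eisensteinSystem p)).toRingHom with he
  have hker : RingHom.ker π ≤ RingHom.ker ((Int.castRingHom (ZMod n)).comp e) := by
    intro t ht
    rw [RingHom.mem_ker] at ht
    rw [RingHom.mem_ker, RingHom.comp_apply, eq_intCast, ZMod.intCast_zmod_eq_zero_iff_dvd]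
    exact eisensteinNumerator_dvd_aeval p (hbij.1 (ht.trans (map_zero _).symm))
  set χ := RingHom.liftOfSurjective π hsurj ⟨_, hker⟩ with hχdef
  have hχ : ∀ t, χ (π t) = ((e t : ℤ) : ZMod n) := fun t => by
    rw [hχdef, RingHom.liftOfSurjective, RingHom.liftOfRightInverse_comp_apply]
    rfl
  have hχsurj : Function.Surjective χ := fun x => by
    obtain ⟨a, rfl⟩ := ZMod.intCast_surjective x
    exact ⟨π (MvPolynomial.C a), by rw [hχ]; simp [he]⟩
  have hI : Ideal.map π (eisensteinIdeal p) = RingHom.ker χ := by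
    refine le_antisymm (Ideal.map_le_iff_le_comap.mpr fun t ht => ?_) fun x hx => ?_
    · have h : e t = 0 := (mem_eigenIdeal_iff _ t).mp ht
      rw [Ideal.mem_comap, RingHom.mem_ker, hχ, h, Int.cast_zero]
    · obtain ⟨t, rfl⟩ := hsurj x
      rw [RingHom.mem_ker, hχ, ZMod.intCast_zmod_eq_zero_iff_dvd] at hx
      obtain ⟨c, hc⟩ := hx
      obtain ⟨s, hs, hse⟩ := exists_relation_aeval_eq_numerator p
      change e s = (n : ℤ) at hse
      have hmem : t - MvPolynomial.C c * s ∈ eisensteinIdeal p := by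
        rw [eisensteinIdeal, mem_eigenIdeal_iff]
        show e (t - MvPolynomial.C c * s) = 0
        rw [map_sub, map_mul, hse, hc, show e (MvPolynomial.C c) = c by simp [he]]
        ring
      have hπs : π s = 0 := by rw [hπ, RingHom.comp_apply, hs, map_zero]
      have := Ideal.mem_map_of_mem π hmem
      rwa [map_sub, map_mul, hπs, mul_zero, sub_zero] at this
  rw [hI, Nat.card_congr (RingHom.quotientKerEquivOfSurjective hχsurj).toEquiv, Nat.card_zmod]

end FLTA.Eisenstein
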