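import Fermat.Agent.Eisenstein.ShimuraHom
import Fermat.Agent.Gamma0.Complex.Main
import Fermat.Agent.Periods.HeckeQuot
import Fermat.Prelude.Def_CuspForm_HeckeEvalForms
import Fermat.Prelude.Def_ModularCurve_ModularUnit

/-!
# Lower bound for the Eisenstein index

Every polynomial in the Hecke operators killing `S₂(Γ₀(p))` takes on the Eisenstein system a value
divisible by `num ((p - 1) / 12)`.
-/

set_option autoImplicit false

noncomputable section

open CongruenceSubgroup ModularCurve
open scoped MatrixGroups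

namespace FLTA.Eisenstein

open FLTA.Periods

variable (p : ℕ) [Fact p.Prime] [NeZero p]

/-- The lattice endomorphism of a Hecke generator is the transfer of the universal hom. -/
theorem heckeQuot_gen_comp_parMk (ℓ : Nat.Primes) :
    (heckeQuot p (CuspForm.heckeFormsGen p 2 ℓ)).toAddMonoidHom.comp (parMk (Gamma0 p))
      = heckeHom ℤ p ℓ (parMk (Gamma0 p)) := by
  obtain ⟨M, hM⟩ := exists_parQuot_factor
    (heckeHom_isParabolicHom ℤ (N := p) ℓ (parMk_isParabolicHom (Gamma0 p)))
  have hT : IsTranspose p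
      ((CuspForm.heckeFormsGen p 2 ℓ : fullHecke p) : Module.End ℂ (CF2 p)) M.toIntLinearMap := by
    intro f g
    have h : periodHomPair p
        (((CuspForm.heckeFormsGen p 2 ℓ : fullHecke p) : Module.End ℂ (CF2 p)) f,
          ((CuspForm.heckeFormsGen p 2 ℓ : fullHecke p) : Module.End ℂ (CF2 p)) g)
        = heckeHom ℂ p ℓ (periodHomPair p (f, g)) := by
      by_cases hd : (ℓ : ℕ) ∣ p
      · rw [CuspForm.heckeFormsGen_of_dvd hd, CuspForm.heckeAlgebra.coe_U]
        exact periodHomPair_heckeULin hd f g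
      · rw [CuspForm.heckeFormsGen_of_not_dvd hd, CuspForm.heckeAlgebra.coe_T]
        exact periodHomPair_heckeTLin ℓ.2 hd f g
    apply parQuot_hom_ext
    rw [pairQuot_comp_parMk, h, ← pairQuot_comp_parMk, heckeHom_eq_int, heckeHom_comp, ← hM]
    rfl
  rw [IsTranspose.unique (heckeQuot_isTranspose p _) hT, ← hM]
  rfl

/-- The Shimura homomorphism descends to the parabolic lattice. -/
theorem exists_shimuraHom_factor :
    ∃ x : parQuot (Gamma0 p) →+ Additive (ZMod p)ˣ, x.comp (parMk (Gamma0 p)) = shimuraHom p := by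
  obtain ⟨g, hg⟩ := IsCyclic.exists_generator (α := (ZMod p)ˣ)
  have hf : Function.Surjective (zmultiplesHom (Additive (ZMod p)ˣ) (Additive.ofMul g)) := by
    intro a
    obtain ⟨k, hk⟩ := Subgroup.mem_zpowers_iff.mp (hg (Additive.toMul a))
    exact ⟨k, by rw [zmultiplesHom_apply, ← ofMul_zpow, hk]; rfl⟩
  obtain ⟨⟨φ, hφ⟩, hφe⟩ := FLTA.Gamma0.homPar0Map_surjective p _ hf
    ⟨shimuraHom p, shimuraHom_isParHom0 p⟩
  obtain ⟨u, hu⟩ := exists_parQuot_factor (Γ := Gamma0 p) (φ := φ) fun γ hγ => hφ γ hγ.le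
  refine ⟨(zmultiplesHom (Additive (ZMod p)ˣ) (Additive.ofMul g)).comp u, ?_⟩
  rw [AddMonoidHom.comp_assoc, hu]
  exact congrArg Subtype.val hφe

/-- A Hecke polynomial acts on the Shimura class through the Eisenstein system. -/
theorem shimura_eigen {x : parQuot (Gamma0 p) →+ Additive (ZMod p)ˣ}
    (hx : x.comp (parMk (Gamma0 p)) = shimuraHom p) (t : HeckeAlg) (y : parQuot (Gamma0 p)) :
    x (heckeQuot p (CuspForm.heckeEvalForms p 2 t) y)
      = MvPolynomial.aeval (eisensteinSystem p) t • x y := by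
  induction t using MvPolynomial.induction_on generalizing y with
  | C a =>
    rw [CuspForm.heckeEvalForms_C, MvPolynomial.aeval_C, Algebra.algebraMap_self, RingHom.id_apply,
      eq_intCast (algebraMap ℤ (CuspForm.heckeAlgebra p 2 ∅)) a, map_intCast,
      Module.End.intCast_apply, map_zsmul]
  | add t u ht hu =>
    rw [map_add, map_add, map_add, LinearMap.add_apply, map_add, ht, hu, ← add_zsmul]
  | mul_X t ℓ ht =>
    have hgen : x.comp (heckeQuot p (CuspForm.heckeFormsGen p 2 ℓ)).toAddMonoidHom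
        = eisensteinSystem p ℓ • x := by
      apply parQuot_hom_ext
      rw [AddMonoidHom.comp_assoc, heckeQuot_gen_comp_parMk, ← heckeHom_comp, hx,
        shimuraHom_heckeHom ℓ, ← hx]
      rfl
    rw [map_mul, map_mul, map_mul, ← show heckeGen ℓ = MvPolynomial.X ℓ from rfl,
      CuspForm.heckeEvalForms_heckeGen, aeval_heckeGen, Module.End.mul_apply, ht, mul_zsmul]
    exact congrArg _ (DFunLike.congr_fun hgen y)

omit [NeZero p] in
theorem eisensteinNumerator_dvd_of_units {k : ℤ}
    (h : ∀ u : (ZMod p)ˣ, k • (12 • Additive.ofMul u) = 0) :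
    (eisensteinNumerator p : ℤ) ∣ k := by
  obtain ⟨g, hg⟩ := IsCyclic.exists_generator (α := (ZMod p)ˣ)
  have hord : addOrderOf (Additive.ofMul g) = p - 1 := by
    rw [addOrderOf_ofMul_eq_orderOf, orderOf_eq_card_of_forall_mem_zpowers hg,
      Nat.card_eq_fintype_card, ZMod.card_units]
  have h1 := h g
  rw [← natCast_zsmul, smul_smul, ← addOrderOf_dvd_iff_zsmul_eq_zero, hord,
    Int.natCast_dvd] at h1
  rw [Int.natCast_dvd]
  rw [Int.natAbs_mul, Int.natAbs_natCast] at h1
  have hg0 : 0 < Nat.gcd (p - 1) 12 := Nat.gcd_pos_of_pos_right _ (by norm_num)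
  have hcop := Nat.coprime_div_gcd_div_gcd hg0
  show (p - 1) / Nat.gcd (p - 1) 12 ∣ k.natAbs
  refine hcop.dvd_of_dvd_mul_right ?_
  apply Nat.dvd_of_mul_dvd_mul_right hg0
  rw [Nat.div_mul_cancel (Nat.gcd_dvd_left _ _), mul_assoc,
    Nat.div_mul_cancel (Nat.gcd_dvd_right _ _)]
  exact h1

omit [NeZero p] in
theorem lowerRight_surjective (u : (ZMod p)ˣ) : ∃ γ : Gamma0 p, lowerRight p γ = u := by
  obtain ⟨d, hd⟩ := ZMod.intCast_surjective (u : ZMod p)
  obtain ⟨a, ha⟩ := ZMod.intCast_surjective ((u⁻¹ : (ZMod p)ˣ) : ZMod p)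
  have h : ((a * d - 1 : ℤ) : ZMod p) = 0 := by
    push_cast
    rw [ha, hd, Units.inv_mul, sub_self]
  obtain ⟨b, hb⟩ := (ZMod.intCast_zmod_eq_zero_iff_dvd _ _).mp h
  refine ⟨⟨⟨!![a, b; (p : ℤ), d], by rw [Matrix.det_fin_two_of]; linarith⟩, ?_⟩, ?_⟩
  · exact Gamma0_mem.mpr (by simp)
  · ext
    simpa using hd

/-- Lower bound: a relation in the Hecke algebra has Eisenstein value divisible by the numerator. -/
theorem eisensteinNumerator_dvd_aeval {t : HeckeAlg} (ht : CuspForm.heckeEvalForms p 2 t = 0) :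
    (eisensteinNumerator p : ℤ) ∣ MvPolynomial.aeval (eisensteinSystem p) t := by
  obtain ⟨x, hx⟩ := exists_shimuraHom_factor p
  have h := fun y => shimura_eigen p hx t y
  simp only [ht, map_zero, LinearMap.zero_apply] at h
  refine eisensteinNumerator_dvd_of_units p fun u => ?_
  obtain ⟨γ, rfl⟩ := lowerRight_surjective p u
  have h1 := h (parMk (Gamma0 p) (Additive.ofMul γ))
  rw [show x (parMk (Gamma0 p) (Additive.ofMul γ)) = shimuraHom p (Additive.ofMul γ) from
    DFunLike.congr_fun hx _, shimuraHom_apply] at h1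
  exact h1.symm

end FLTA.Eisenstein
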