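import Fermat.Agent.Periods.Hecke
import Fermat.Prelude.Def_HeckeGalois_EichlerShimura

/-!
# The Shimura homomorphism of `Γ₀(p)`

`shimuraHom p : γ ↦ 12 • (d mod p)` with values in `Additive (ZMod p)ˣ`. It kills the elements of
trace of absolute value at most two and is an eigenvector of every Hecke operator with the
Eisenstein eigenvalues.
-/

set_option autoImplicit false

noncomputable section

open CongruenceSubgroup
open scoped MatrixGroups OnePoint

open P2MW.S_ModularForm_heckeT_slash_eq_self_of_mem_Gamma0.ModularForm.HeckeSlashInvariance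
  (heckeRep)

namespace FLTA.Eisenstein

variable (p : ℕ) [Fact p.Prime]

theorem gamma0_a_mul_d (γ : Gamma0 p) :
    (((γ : SL(2, ℤ)) 0 0 : ℤ) : ZMod p) * (((γ : SL(2, ℤ)) 1 1 : ℤ) : ZMod p) = 1 := by
  have h := congrArg (Int.cast : ℤ → ZMod p) (γ : SL(2, ℤ)).2
  rw [Matrix.det_fin_two] at h
  have hc : (((γ : SL(2, ℤ)) 1 0 : ℤ) : ZMod p) = 0 := Gamma0_mem.mp γ.2
  push_cast at h
  rw [hc, mul_zero, sub_zero] at h
  exact h

/-- The lower right entry modulo `p`, as a unit. -/
def lowerRight (γ : Gamma0 p) : (ZMod p)ˣ :=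
  Units.mk0 (((γ : SL(2, ℤ)) 1 1 : ℤ) : ZMod p) fun h => by simpa [h] using gamma0_a_mul_d p γ

@[simp] theorem val_lowerRight (γ : Gamma0 p) :
    (lowerRight p γ : ZMod p) = (((γ : SL(2, ℤ)) 1 1 : ℤ) : ZMod p) := rfl

/-- `lowerRight` as a homomorphism. -/
def lowerRightHom : Gamma0 p →* (ZMod p)ˣ :=
  MonoidHom.mk' (lowerRight p) fun γ δ => by
    ext
    exact (Gamma0Map p).map_mul γ δ

@[simp] theorem lowerRightHom_apply (γ : Gamma0 p) : lowerRightHom p γ = lowerRight p γ := rfl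

/-- The Shimura homomorphism. -/
def shimuraHom : Additive (Gamma0 p) →+ Additive (ZMod p)ˣ :=
  (12 : ℕ) • (lowerRightHom p).toAdditive

theorem shimuraHom_apply (γ : Gamma0 p) :
    shimuraHom p (Additive.ofMul γ) = 12 • Additive.ofMul (lowerRight p γ) := rfl

theorem shimuraHom_isParHom0 : FLTA.Gamma0.IsParHom0 (Gamma0 p) (shimuraHom p) := by
  intro γ hγ
  set a : ℤ := (γ : SL(2, ℤ)) 0 0 with ha
  set d : ℤ := (γ : SL(2, ℤ)) 1 1 with hd
  have had : (a : ZMod p) * (d : ZMod p) = 1 := gamma0_a_mul_d p γ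
  have htr : (a + d) ^ 2 ≤ 4 := by
    simpa [FLTA.Gamma0.IsSmallTrace, Matrix.trace_fin_two] using hγ
  have key : (d : ZMod p) ^ 12 = 1 := by
    set x : ZMod p := (d : ZMod p) with hx
    have hquad : x ^ 2 - ((a + d : ℤ) : ZMod p) * x + 1 = 0 := by
      push_cast
      rw [← hx]
      linear_combination -had
    have hb1 : -2 ≤ a + d := by nlinarith
    have hb2 : a + d ≤ 2 := by nlinarith
    interval_cases h : a + d
    · have h1 : (x + 1) ^ 2 = 0 := by push_cast at hquad; linear_combination hquad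
      have h2 : x = -1 := eq_neg_of_add_eq_zero_left (pow_eq_zero_iff two_ne_zero |>.mp h1)
      rw [h2]; norm_num
    · have h1 : x ^ 3 = 1 := by push_cast at hquad; linear_combination (x - 1) * hquad
      rw [show (12 : ℕ) = 3 * 4 from rfl, pow_mul, h1, one_pow]
    · have h1 : x ^ 4 = 1 := by push_cast at hquad; linear_combination (x ^ 2 - 1) * hquad
      rw [show (12 : ℕ) = 4 * 3 from rfl, pow_mul, h1, one_pow]
    · have h1 : x ^ 6 = 1 := by
        push_cast at hquad
        linear_combination (x ^ 4 + x ^ 3 - x - 1) * hquad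
      rw [show (12 : ℕ) = 6 * 2 from rfl, pow_mul, h1, one_pow]
    · have h1 : (x - 1) ^ 2 = 0 := by push_cast at hquad; linear_combination hquad
      have h2 : x = 1 := sub_eq_zero.mp (pow_eq_zero_iff two_ne_zero |>.mp h1)
      rw [h2, one_pow]
  rw [shimuraHom_apply, ← ofMul_pow, ← ofMul_one, Additive.ofMul.injective.eq_iff]
  ext
  simpa using key

section Hecke

open FLTA.Periods

/-- The `(1,1)` entries in a relation `R γ = δ R'` of upper triangular matrices with integer
entries. -/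
theorem lowerRight_relation {γ δ : Gamma0 p} {g g' : GL (Fin 2) ℝ} {r b' r' : ℤ}
    (hg0 : g 1 0 = 0) (hg1 : g 1 1 = (r : ℝ)) (hb' : g' 0 1 = (b' : ℝ)) (hr' : g' 1 1 = (r' : ℝ))
    (h : g * gamma0GL p γ = gamma0GL p δ * g') :
    (r : ZMod p) * (lowerRight p γ : ZMod p) = (lowerRight p δ : ZMod p) * (r' : ZMod p) := by
  have e := congrArg (fun u : GL (Fin 2) ℝ => u 1 1) h
  simp only [Units.val_mul, Matrix.mul_apply, Fin.sum_univ_two, gamma0GL_apply, hg0, hg1, hb',
    hr', zero_mul, zero_add] at e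
  have e' : r * (γ : SL(2, ℤ)) 1 1 = (δ : SL(2, ℤ)) 1 0 * b' + (δ : SL(2, ℤ)) 1 1 * r' := by
    exact_mod_cast e
  have e'' := congrArg (Int.cast : ℤ → ZMod p) e'
  push_cast at e''
  rw [show (((δ : SL(2, ℤ)) 1 0 : ℤ) : ZMod p) = 0 from Gamma0_mem.mp δ.2, zero_mul, zero_add] at e''
  exact e''

variable {p}

theorem shimuraHom_heckeU : heckeHomU ℤ (dvd_refl p) (shimuraHom p) = shimuraHom p := by
  haveI : NeZero p := ⟨(Fact.out : p.Prime).ne_zero⟩
  have hp : p ≠ 0 := NeZero.ne p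
  refine AddMonoidHom.ext fun γ => ?_
  obtain ⟨γ, rfl⟩ := Additive.ofMul.surjective γ
  set R := repsU (N := p) (dvd_refl p) with hR
  show ∑ x, shimuraHom p (Additive.ofMul (R.cocyc γ x)) = _
  have hd : ∀ x, lowerRight p (R.cocyc γ x) = lowerRight p γ := by
    intro x
    have h := congrArg (fun u : GL (Fin 2) ℝ => u 0 0) (R.rep_mul γ x)
    simp only [hR, repsU_rep, Units.val_mul, Matrix.mul_apply, Fin.sum_univ_two, gamma0GL_apply,
      ModularForm.val_heckeMatrix hp, Matrix.cons_val_zero, Matrix.cons_val_one, Matrix.of_apply,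
      mul_one, one_mul, mul_zero, add_zero, Matrix.cons_val', Matrix.cons_val_fin_one] at h
    have h' : (γ : SL(2, ℤ)) 0 0 + (x.val : ℤ) * (γ : SL(2, ℤ)) 1 0
        = (R.cocyc γ x : SL(2, ℤ)) 0 0 := by
      apply Int.cast_injective (α := ℝ)
      push_cast
      simpa [hR] using h
    have h'' := congrArg (Int.cast : ℤ → ZMod p) h'
    push_cast at h''
    rw [show (((γ : SL(2, ℤ)) 1 0 : ℤ) : ZMod p) = 0 from Gamma0_mem.mp γ.2, mul_zero, add_zero]
      at h''
    apply Units.ext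
    have e1 := gamma0_a_mul_d p γ
    have e2 := gamma0_a_mul_d p (R.cocyc γ x)
    rw [← h''] at e2
    exact mul_left_cancel₀ (left_ne_zero_of_mul_eq_one e1) (e2.trans e1.symm)
  simp_rw [shimuraHom_apply, hd]
  rw [Finset.sum_const, Finset.card_univ, ZMod.card]
  set v := 12 • Additive.ofMul (lowerRight p γ)
  have hv : (p - 1) • v = 0 := by
    rw [smul_comm, ← ofMul_pow, ZMod.units_pow_card_sub_one_eq_one, ofMul_one, smul_zero]
  have hp1 : p • v = ((p - 1) + 1) • v := congrArg (fun k => k • v) (by omega)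
  rw [hp1, add_nsmul, one_nsmul, hv, zero_add]

theorem shimuraHom_heckeT {ℓ : ℕ} (hℓ : ℓ.Prime) (hℓp : ¬ ℓ ∣ p) :
    heckeHomT ℤ hℓ hℓp (shimuraHom p) = (1 + ℓ : ℤ) • shimuraHom p := by
  haveI := Fact.mk hℓ
  haveI : NeZero ℓ := ⟨hℓ.ne_zero⟩
  have hℓ0 : ((ℓ : ℕ) : ZMod p) ≠ 0 := by
    rw [Ne, ZMod.natCast_eq_zero_iff]
    intro h
    exact hℓp ((Nat.prime_dvd_prime_iff_eq Fact.out hℓ).mp h ▸ dvd_rfl)
  refine AddMonoidHom.ext fun γ => ?_
  obtain ⟨γ, rfl⟩ := Additive.ofMul.surjective γ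
  set R := repsT (N := p) hℓp with hR
  show ∑ x, shimuraHom p (Additive.ofMul (R.cocyc γ x)) = _
  -- the lower right entries of the representatives
  let r : OnePoint (ZMod ℓ) → (ZMod p)ˣ := fun x => x.elim 1 (fun _ => Units.mk0 _ hℓ0)
  have hd : ∀ x, r x * lowerRight p γ = lowerRight p (R.cocyc γ x) * r (R.perm γ x) := by
    intro x
    let ri : OnePoint (ZMod ℓ) → ℤ := fun x => x.elim 1 (fun _ => ℓ)
    let bi : OnePoint (ZMod ℓ) → ℤ := fun x => x.elim 0 (fun j => j.val)
    have hent : ∀ y, R.rep y 1 0 = 0 ∧ R.rep y 1 1 = ((ri y : ℤ) : ℝ) ∧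
        R.rep y 0 1 = ((bi y : ℤ) : ℝ) := by
      intro y
      induction y using OnePoint.rec with
      | infty => simp [hR, heckeRep, ri, bi, OnePoint.elim, hℓ.ne_zero, Option.elim]
      | coe j => simp [hR, heckeRep, ri, bi, OnePoint.elim, hℓ.ne_zero, -ZMod.natCast_val, Option.elim]
    have hr : ∀ y, ((ri y : ℤ) : ZMod p) = (r y : ZMod p) := by
      intro y
      induction y using OnePoint.rec with
      | infty => simp [ri, r, OnePoint.elim, Option.elim]
      | coe j => simp [ri, r, OnePoint.elim, Option.elim]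
    have h := lowerRight_relation p (hent x).1 (hent x).2.1 (hent _).2.2 (hent _).2.1
      (R.rep_mul γ x)
    rw [hr, hr] at h
    exact Units.ext h
  have hsum : ∑ x, shimuraHom p (Additive.ofMul (R.cocyc γ x))
      = ∑ _x : OnePoint (ZMod ℓ), shimuraHom p (Additive.ofMul γ) := by
    have h1 : ∀ x, shimuraHom p (Additive.ofMul (R.cocyc γ x))
        = shimuraHom p (Additive.ofMul γ) + 12 • Additive.ofMul (r x)
          - 12 • Additive.ofMul (r (R.perm γ x)) := by
      intro x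
      have h := congrArg (fun u => 12 • Additive.ofMul u) (hd x)
      simp only [ofMul_mul, nsmul_add] at h
      rw [shimuraHom_apply, shimuraHom_apply, eq_sub_iff_add_eq, ← h, add_comm]
    simp_rw [h1, Finset.sum_sub_distrib, Finset.sum_add_distrib]
    rw [Equiv.sum_comp (R.permEquiv γ) (fun x => 12 • Additive.ofMul (r x)) |>.symm]
    exact add_sub_cancel_right _ _
  rw [hsum, Finset.sum_const, Finset.card_univ,
    show Fintype.card (OnePoint (ZMod ℓ)) = ℓ + 1 from
      (Fintype.card_option (α := ZMod ℓ)).trans (by rw [ZMod.card]),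
    show (1 + ℓ : ℤ) = ((ℓ + 1 : ℕ) : ℤ) by push_cast; ring]
  exact (natCast_zsmul _ _).symm

/-- The Shimura homomorphism is an Eisenstein eigenvector. -/
theorem shimuraHom_heckeHom [NeZero p] (ℓ : Nat.Primes) :
    heckeHom ℤ p ℓ (shimuraHom p)
      = ModularCurve.eisensteinSystem p ℓ • shimuraHom p := by
  by_cases h : (ℓ : ℕ) ∣ p
  · rw [ModularCurve.eisensteinSystem_of_dvd h, heckeHom_of_dvd ℤ h]
    refine Eq.trans ?_ (one_zsmul _).symm
    obtain ⟨l, hl⟩ := ℓ
    obtain rfl : l = p := (Nat.prime_dvd_prime_iff_eq hl Fact.out).mp h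
    exact shimuraHom_heckeU
  · rw [ModularCurve.eisensteinSystem_of_not_dvd h, heckeHom_of_not_dvd ℤ ℓ.2 h]
    exact shimuraHom_heckeT ℓ.2 h

end Hecke

end FLTA.Eisenstein
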