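import Fermat.Prelude.Thm_UpperHalfPlane_qCoeff_heckeU
import Fermat.Prelude.Thm_ModularForm_mdifferentiable_heckeU
import Fermat.Prelude.Thm_ModularForm_isBoundedAtImInfty_heckeU
import Fermat.Prelude.Thm_ModularForm_periodic_heckeU_comp_ofComplex
import Fermat.Agent.Eisenstein.Forms

/-!
The trace from `Γ₀(p)` to level one, with its `q`-expansion `qA f + p U (qB f)`.
-/

set_option autoImplicit false

noncomputable section

open UpperHalfPlane Function Filter Matrix.SpecialLinearGroup CongruenceSubgroup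
open scoped MatrixGroups ModularForm Manifold Topology

namespace FLTA.Eisenstein

/-- Keep the coefficients of index divisible by `p`. -/
def uSeries (p : ℕ) (A : PowerSeries ℂ) : PowerSeries ℂ :=
  PowerSeries.mk fun n => PowerSeries.coeff (n * p) A

@[simp] theorem coeff_uSeries (p n : ℕ) (A : PowerSeries ℂ) :
    PowerSeries.coeff n (uSeries p A) = PowerSeries.coeff (n * p) A := by
  simp [uSeries]

variable {p : ℕ} [hp : Fact p.Prime] {k : ℤ}

/-- The trace to level one. -/
def trOne [NeZero p] (f : MF p k) : ModularForm 𝒮ℒ k := ModularForm.trace 𝒮ℒ f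

/-- The coset representatives, inverted. -/
def cosetElt (p : ℕ) : Option (Fin p) → SL(2, ℤ)
  | none => 1
  | some j => ModularGroup.S * ModularGroup.T ^ ((j : ℕ) : ℤ)

theorem coe_S_mul_T_zpow (n : ℤ) :
    ((ModularGroup.S * ModularGroup.T ^ n : SL(2, ℤ)) : Matrix (Fin 2) (Fin 2) ℤ) =
      !![0, -1; 1, n] := by
  rw [Matrix.SpecialLinearGroup.coe_mul, ModularGroup.coe_T_zpow, ModularGroup.coe_S]
  simp

theorem cosetElt_mul_inv_mem {i j : Option (Fin p)}
    (h : cosetElt p i * (cosetElt p j)⁻¹ ∈ Gamma0 p) : i = j := by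
  rw [Gamma0_mem, Matrix.SpecialLinearGroup.coe_mul, Matrix.SpecialLinearGroup.coe_inv] at h
  cases i with
  | none =>
    cases j with
    | none => rfl
    | some b =>
      rw [show cosetElt p none = 1 from rfl,
        show cosetElt p (some b) = ModularGroup.S * ModularGroup.T ^ ((b : ℕ) : ℤ) from rfl,
        coe_S_mul_T_zpow, Matrix.adjugate_fin_two] at h
      simp at h
  | some a =>
    cases j with
    | none =>
      rw [show cosetElt p none = 1 from rfl,
        show cosetElt p (some a) = ModularGroup.S * ModularGroup.T ^ ((a : ℕ) : ℤ) from rfl,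
        coe_S_mul_T_zpow] at h
      simp at h
    | some b =>
      rw [show cosetElt p (some a) = ModularGroup.S * ModularGroup.T ^ ((a : ℕ) : ℤ) from rfl,
        show cosetElt p (some b) = ModularGroup.S * ModularGroup.T ^ ((b : ℕ) : ℤ) from rfl,
        coe_S_mul_T_zpow, coe_S_mul_T_zpow, Matrix.adjugate_fin_two] at h
      simp [Matrix.mul_apply, Fin.sum_univ_two] at h
      have hab : ((a : ℕ) : ZMod p) = ((b : ℕ) : ZMod p) := by
        linear_combination -h
      rw [ZMod.natCast_eq_natCast_iff', Nat.mod_eq_of_lt a.2, Nat.mod_eq_of_lt b.2] at hab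
      exact congrArg some (Fin.ext hab)

/-- The representatives as points of the coset space. -/
def cosetPt (p : ℕ) (i : Option (Fin p)) :
    (𝒮ℒ : Subgroup (GL (Fin 2) ℝ)) ⧸
      ((Gamma0 p : Subgroup (GL (Fin 2) ℝ)).subgroupOf 𝒮ℒ) :=
  Quotient.mk'' ⟨mapGL ℝ (cosetElt p i)⁻¹, ⟨_, rfl⟩⟩

theorem cosetPt_bijective : Bijective (cosetPt p) := by
  constructor
  · intro i j hij
    rw [cosetPt, cosetPt, Quotient.eq'', QuotientGroup.leftRel_apply, Subgroup.mem_subgroupOf] at hij
    obtain ⟨g, hg, hgeq⟩ := hij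
    apply cosetElt_mul_inv_mem
    have : g = cosetElt p i * (cosetElt p j)⁻¹ :=
      mapGL_injective (hgeq.trans (by simp [map_mul, map_inv]))
    exact this ▸ hg
  · intro q
    induction q using Quotient.inductionOn' with
    | h x =>
      obtain ⟨x, γ, rfl⟩ := x
      rcases exists_coset_rep (p := p) γ⁻¹ with h | ⟨g, hg, j, hj⟩
      · refine ⟨none, ?_⟩
        rw [cosetPt, Quotient.eq'', QuotientGroup.leftRel_apply, Subgroup.mem_subgroupOf]
        exact ⟨γ, by simpa using inv_mem h, by simp [cosetElt]⟩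
      · haveI : NeZero p := ⟨hp.out.ne_zero⟩
        set r : ℕ := ((j : ZMod p)).val with hr
        obtain ⟨c, hc⟩ := (ZMod.intCast_eq_intCast_iff_dvd_sub (r : ℤ) j p).mp
          (by rw [hr]; push_cast; rw [ZMod.natCast_zmod_val])
        refine ⟨some ⟨r, ZMod.val_lt _⟩, ?_⟩
        rw [cosetPt, Quotient.eq'', QuotientGroup.leftRel_apply, Subgroup.mem_subgroupOf]
        have hT : ModularGroup.S * ModularGroup.T ^ j =
            lowerShift p ^ c * ModularGroup.S * ModularGroup.T ^ (r : ℤ) := by
          have hconj : lowerShift p ^ c = ModularGroup.S * (ModularGroup.T ^ (p : ℤ)) ^ c *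
              ModularGroup.S⁻¹ := by
            rw [← conj_zpow, S_mul_T_zpow]
            group
          rw [hconj, show j = (p : ℤ) * c + r by linarith, zpow_add, zpow_mul]
          group
        refine ⟨(g * lowerShift p ^ c)⁻¹,
          inv_mem (mul_mem hg (zpow_mem (lowerShift_mem p) _)), ?_⟩
        have hγ : γ = (g * lowerShift p ^ c * (ModularGroup.S * ModularGroup.T ^ (r : ℤ)))⁻¹ := by
          rw [← inv_inj, inv_inv, hj, mul_assoc g, hT]
          group
        simp [cosetElt, hγ, map_mul, map_inv, mul_assoc]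

theorem coe_trOne [NeZero p] (f : MF p k) :
    ⇑(trOne f) = ⇑f + ∑ j ∈ Finset.range p, slashS f ∣[k] (ModularGroup.T ^ (j : ℤ)) := by
  classical
  rw [trOne, ModularForm.coe_trace]
  letI := Fintype.ofFinite
    ((𝒮ℒ : Subgroup (GL (Fin 2) ℝ)) ⧸ ((Gamma0 p : Subgroup (GL (Fin 2) ℝ)).subgroupOf 𝒮ℒ))
  have hterm : ∀ i, SlashInvariantForm.quotientFunc f (cosetPt p i) = (⇑f) ∣[k] cosetElt p i := by
    intro i
    refine (SlashInvariantForm.quotientFunc_mk f _).trans ?_
    simp [ModularForm.SL_slash, map_inv]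
    rfl
  rw [show (∑ q, SlashInvariantForm.quotientFunc f q) =
      ∑ i, SlashInvariantForm.quotientFunc f (cosetPt p i) from
      (Fintype.sum_bijective (cosetPt p) cosetPt_bijective _ _ fun _ => rfl).symm]
  rw [Fintype.sum_option, hterm, show cosetElt p none = 1 from rfl, SlashAction.slash_one,
    Finset.sum_range]
  congr 1
  refine Finset.sum_congr rfl fun j _ => ?_
  rw [hterm, cosetElt, SlashAction.slash_mul]
  rfl

theorem sum_slash_eq_heckeU [NeZero p] (f : MF p k) :
    ∑ j ∈ Finset.range p, slashS f ∣[k] (ModularGroup.T ^ (j : ℤ)) =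
      (p : ℂ) • ModularForm.heckeU k p (atZero f) := by
  funext z
  have hp0 : p ≠ 0 := NeZero.ne p
  have hpc : (p : ℂ) ≠ 0 := by exact_mod_cast hp0
  rw [Pi.smul_apply, smul_eq_mul, ModularForm.heckeU_apply k hp0, mul_inv_cancel_left₀ hpc,
    Finset.sum_apply]
  refine Finset.sum_congr rfl fun j _ => ?_
  have e10 : (ModularGroup.T ^ (j : ℤ) : SL(2, ℤ)) 1 0 = 0 := by
    rw [ModularGroup.coe_T_zpow]; simp
  have e11 : (ModularGroup.T ^ (j : ℤ) : SL(2, ℤ)) 1 1 = 1 := by
    rw [ModularGroup.coe_T_zpow]; simp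
  rw [ModularForm.SL_slash_apply, modular_T_zpow_smul, ModularGroup.denom_apply, e10, e11, atZero]
  simp only [Int.cast_zero, zero_mul, Int.cast_one, zero_add, one_zpow, mul_one, inv_one]
  congr 1
  apply UpperHalfPlane.ext
  rw [coe_scaleGL_smul hp0, ModularForm.coe_heckeMatrix_smul hp0]
  simp
  field_simp
  ring

/-- The `q`-expansion of the trace. -/
theorem qExpansion_trOne [NeZero p] (f : MF p k) :
    qExpansion 1 (trOne f : ℍ → ℂ) = qA f + (p : ℂ) • uSeries p (qB f) := by
  have hp0 : p ≠ 0 := NeZero.ne p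
  have hU : AnalyticAt ℂ (cuspFunction 1 (ModularForm.heckeU k p (atZero f))) 0 :=
    analyticAt_cuspFunction_zero one_pos
      (by exact_mod_cast ModularForm.periodic_heckeU_comp_ofComplex (periodic_atZero f) k p)
      (ModularForm.mdifferentiable_heckeU (mdifferentiable_atZero f) k p)
      (ModularForm.isBoundedAtImInfty_heckeU (bdd_atZero f) k p)
  have hUq : qExpansion 1 (ModularForm.heckeU k p (atZero f)) = uSeries p (qB f) := by
    ext n
    rw [coeff_uSeries]
    exact UpperHalfPlane.qCoeff_heckeU (periodic_atZero f) (mdifferentiable_atZero f) (bdd_atZero f)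
      k hp0 n
  have hsm : AnalyticAt ℂ (cuspFunction 1 ((p : ℂ) • ModularForm.heckeU k p (atZero f))) 0 := by
    rw [cuspFunction_smul hU.continuousAt]
    exact hU.const_smul
  rw [coe_trOne, sum_slash_eq_heckeU, qExpansion_add (analyticAt_coe f) hsm,
    qExpansion_smul hU, hUq]
  rfl

end FLTA.Eisenstein
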