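import Fermat.Prelude.Def_FLTPrelim_Modularity
import Fermat.Agent.Eisenstein.LevelOne
import Fermat.Agent.Eisenstein.Trace
import Fermat.Agent.Eisenstein.EisTwo

/-!
The form `g = (p E₂(pz) - E₂(z)) - 24 f` attached to a cusp form congruent to the Eisenstein series.
-/

set_option autoImplicit false

noncomputable section

open UpperHalfPlane CongruenceSubgroup
open scoped MatrixGroups

namespace FLTA.Eisenstein

/-- Integer series inside complex series. -/
abbrev toC : PowerSeries ℤ →+* PowerSeries ℂ := PowerSeries.map (Int.castRingHom ℂ)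

theorem toC_injective : Function.Injective toC :=
  PowerSeries.map_injective (Int.castRingHom ℂ) Int.cast_injective

theorem coeff_toC (n : ℕ) (A : PowerSeries ℤ) :
    PowerSeries.coeff n (toC A) = ((PowerSeries.coeff n A : ℤ) : ℂ) := by
  simp

/-- Keep the coefficients of index divisible by `p`, over `ℤ`. -/
def uInt (p : ℕ) (A : PowerSeries ℤ) : PowerSeries ℤ :=
  PowerSeries.mk fun n => PowerSeries.coeff (n * p) A

@[simp] theorem coeff_uInt (p n : ℕ) (A : PowerSeries ℤ) :
    PowerSeries.coeff n (uInt p A) = PowerSeries.coeff (n * p) A := by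
  simp [uInt]

theorem uSeries_toC (p : ℕ) (A : PowerSeries ℤ) : uSeries p (toC A) = toC (uInt p A) := by
  ext n; simp

theorem uSeries_smul (p : ℕ) (c : ℂ) (A : PowerSeries ℂ) :
    uSeries p (c • A) = c • uSeries p A := by
  ext n; simp

theorem uSeries_add (p : ℕ) (A B : PowerSeries ℂ) :
    uSeries p (A + B) = uSeries p A + uSeries p B := by
  ext n; simp

/-- The multiples of `d` inside `ℂ`. -/
def intMultiples (d : ℕ) : AddSubgroup ℂ := AddSubgroup.zmultiples (d : ℂ)

theorem intCast_mem_intMultiples {d : ℕ} {z : ℤ} : (z : ℂ) ∈ intMultiples d ↔ (d : ℤ) ∣ z := by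
  rw [intMultiples, AddSubgroup.mem_zmultiples_iff]
  constructor
  · rintro ⟨c, hc⟩
    rw [zsmul_eq_mul] at hc
    exact ⟨c, by exact_mod_cast (hc.symm.trans (mul_comm _ _))⟩
  · rintro ⟨c, rfl⟩
    exact ⟨c, by push_cast; rw [zsmul_eq_mul]; ring⟩

variable {p : ℕ} [hp : Fact p.Prime] [NeZero p]

/-- A cusp form as a modular form. -/
def cuspToMF {k : ℤ} (f : CuspForm (Gamma0 p) k) : MF p k where
  toFun := f
  slash_action_eq' := f.slash_action_eq'
  holo' := f.holo'
  bdd_at_cusps' hc γ hγ := (f.zero_at_cusps' hc γ hγ).boundedAtFilter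

omit hp [NeZero p] in
theorem coeff_qA_cuspToMF {k : ℤ} (f : CuspForm (Gamma0 p) k) (n : ℕ) :
    PowerSeries.coeff n (qA (cuspToMF f)) = ModularFormClass.qCoeff f n := rfl

/-- In weight two the expansion at `0` is determined by the one at `∞`. -/
theorem qB_weight_two (F : MF p 2) : qB F = (-(p : ℂ)⁻¹) • uSeries p (qA F) := by
  have h0 : trOne (fricke F) = 0 :=
    (rank_zero_iff_forall_zero.mp ModularForm.levelOne_weight_two_rank_zero) _
  have h := qExpansion_trOne (fricke F)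
  rw [h0, qA_fricke, qB_fricke, uSeries_smul, smul_smul, FunLike.coe_zero, qExpansion_zero] at h
  have hp0 : (p : ℂ) ≠ 0 := by exact_mod_cast NeZero.ne p
  have hc : (p : ℂ) * (-(p : ℂ)) ^ (-(2 : ℤ)) = (p : ℂ)⁻¹ := by
    rw [zpow_neg, zpow_two]; field_simp
  rw [hc] at h
  exact (eq_neg_of_add_eq_zero_left h.symm).trans (_root_.neg_smul _ _).symm

variable (p)

/-- Integer expansion of `eisTwo`. -/
def eisZ : PowerSeries ℤ :=
  PowerSeries.mk fun k => if k = 0 then (p : ℤ) - 1 else 24 * (sigmaPrime p k : ℤ)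

theorem qA_eisTwo_eq : qA (eisTwo p) = toC (eisZ p) := by
  rw [qA_eisTwo]
  ext k
  rw [coeff_toC, eisZ, PowerSeries.coeff_mk, PowerSeries.coeff_mk]
  split_ifs <;> push_cast <;> ring

/-- A cusp form congruent to the Eisenstein series, with integer coefficient data. -/
structure CongrWitness (m : ℕ) where
  /-- the cusp form -/
  f : CuspForm (Gamma0 p) 2
  /-- `(σ'(k) - a_k) / m` -/
  r : ℕ → ℤ
  coeff_eq : ∀ k : ℕ, 0 < k →
    ModularFormClass.qCoeff f k = (sigmaPrime p k : ℂ) - (m : ℂ) * (r k : ℂ)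

theorem exists_congrWitness {m : ℕ} (f : CuspForm (Gamma0 p) 2)
    (hf : ∀ k : ℕ, 0 < k → ∃ c : ℤ,
      ModularFormClass.qCoeff f k = (sigmaPrime p k : ℂ) + (m : ℂ) * (c : ℂ)) :
    Nonempty (CongrWitness p m) := by
  choose c hc using hf
  refine ⟨⟨f, fun k => if h : 0 < k then -c k h else 0, fun k hk => ?_⟩⟩
  rw [dif_pos hk, hc k hk]
  push_cast
  ring

variable {p} {m : ℕ} (W : CongrWitness p m)

theorem CongrWitness.restrict (W : CongrWitness p m) {m' : ℕ} (h : m' ∣ m) : Nonempty (CongrWitness p m') := by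
  obtain ⟨e, he⟩ := h
  refine ⟨⟨W.f, fun k => e * W.r k, fun k hk => ?_⟩⟩
  have hc : (m : ℂ) = (m' : ℂ) * e := by exact_mod_cast he
  rw [W.coeff_eq k hk]
  push_cast
  linear_combination -(W.r k : ℂ) * hc

/-- The integer expansion of `g`. -/
def CongrWitness.gZ : PowerSeries ℤ :=
  PowerSeries.mk fun k => if k = 0 then (p : ℤ) - 1 else 24 * (m : ℤ) * W.r k

/-- The form `g = eisTwo - 24 f`. -/
def CongrWitness.g : MF p 2 := eisTwo p - (24 : ℂ) • cuspToMF W.f

theorem CongrWitness.coeff_zero_gZ : PowerSeries.coeff 0 W.gZ = (p : ℤ) - 1 := by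
  simp [CongrWitness.gZ, PowerSeries.coeff_mk]

theorem CongrWitness.dvd_coeff_gZ {d : ℕ} (hd : (d : ℤ) ∣ 24 * (m : ℤ)) {k : ℕ} (hk : k ≠ 0) :
    (d : ℤ) ∣ PowerSeries.coeff k W.gZ := by
  rw [CongrWitness.gZ, PowerSeries.coeff_mk, if_neg hk]
  exact dvd_mul_of_dvd_left hd _

theorem CongrWitness.qA_g : qA W.g = toC W.gZ := by
  rw [CongrWitness.g, qA_sub, qA_smul, qA_eisTwo_eq]
  ext k
  rw [map_sub, PowerSeries.coeff_smul, coeff_qA_cuspToMF, coeff_toC, coeff_toC, eisZ,
    CongrWitness.gZ, PowerSeries.coeff_mk, PowerSeries.coeff_mk]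
  rcases eq_or_ne k 0 with rfl | hk
  · have h0 : ModularFormClass.qCoeff W.f 0 = 0 :=
      CuspFormClass.qExpansion_coeff_zero W.f one_pos (one_mem_strictPeriods_Gamma0 p)
    rw [h0]
    simp
  · rw [if_neg hk, if_neg hk, W.coeff_eq k (Nat.pos_of_ne_zero hk), smul_eq_mul]
    push_cast
    ring

theorem CongrWitness.qB_g : qB W.g = (-(p : ℂ)⁻¹) • toC (uInt p W.gZ) := by
  rw [qB_weight_two, W.qA_g, uSeries_toC]

/-- The trace of a product, with integer data. -/
theorem qExpansion_trOne_int {k : ℤ} (F : MF p k) (A B : PowerSeries ℤ) (c : ℂ)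
    (hA : qA F = toC A) (hB : qB F = c • toC B) :
    qExpansion 1 (trOne F : ℍ → ℂ) = toC A + ((p : ℂ) * c) • toC (uInt p B) := by
  rw [qExpansion_trOne, hA, hB, uSeries_smul, uSeries_toC, smul_smul]

end FLTA.Eisenstein
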